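import Fermat.Agent.Igusa.DefsA

/-! S28-(A): bookkeeping of leading terms `c q^k (1 + O(q))` of Laurent series. -/

set_option autoImplicit false

open ModularCurve

namespace FAIg

variable {R : Type*} [CommRing R]

lemma ofPowerSeries_expand (M : ℕ) [NeZero M] (P : PowerSeries R) :
    HahnSeries.ofPowerSeries ℤ R (PowerSeries.expand M (NeZero.ne M) P) =
      qExpand R M (HahnSeries.ofPowerSeries ℤ R P) := by
  have hM : 0 < M := Nat.pos_of_ne_zero (NeZero.ne M)
  ext k
  by_cases hk : (M : ℤ) ∣ k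
  · obtain ⟨j, rfl⟩ := hk
    rw [qExpand_coeff_mul]
    rcases lt_or_ge j 0 with hj | hj
    · rw [ofPowerSeries_coeff_of_neg _ hj, ofPowerSeries_coeff_of_neg]
      have : (0 : ℤ) < M := by exact_mod_cast hM
      nlinarith
    · lift j to ℕ using hj
      rw [HahnSeries.ofPowerSeries_apply_coeff, ← Nat.cast_mul, HahnSeries.ofPowerSeries_apply_coeff,
        PowerSeries.coeff_expand_mul]
  · rw [qExpand_coeff_of_not_dvd _ _ hk]
    rcases lt_or_ge k 0 with hj | hj
    · rw [ofPowerSeries_coeff_of_neg _ hj]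
    · lift k to ℕ using hj
      rw [HahnSeries.ofPowerSeries_apply_coeff, PowerSeries.coeff_expand_of_not_dvd]
      intro h
      exact hk (by exact_mod_cast h)

lemma twistL_ofPowerSeries (ξ : Rˣ) (P : PowerSeries R) :
    twistL ξ (HahnSeries.ofPowerSeries ℤ R P) =
      HahnSeries.ofPowerSeries ℤ R (PowerSeries.rescale (ξ : R) P) := by
  ext k
  rw [coeff_twistL]
  rcases lt_or_ge k 0 with hj | hj
  · rw [ofPowerSeries_coeff_of_neg _ hj, ofPowerSeries_coeff_of_neg _ hj, mul_zero]
  · lift k to ℕ using hj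
    rw [HahnSeries.ofPowerSeries_apply_coeff, HahnSeries.ofPowerSeries_apply_coeff,
      PowerSeries.coeff_rescale, zpow_natCast, Units.val_pow_eq_pow_val]

/-- `x = c q^k (1 + O(q))` -/
def LeadsWith (x : LaurentSeries R) (k : ℤ) (c : R) : Prop :=
  ∃ P : PowerSeries R, PowerSeries.constantCoeff P = 1 ∧
    x = HahnSeries.single k c * HahnSeries.ofPowerSeries ℤ R P

namespace LeadsWith

variable {x y : LaurentSeries R} {k l : ℤ} {c d : R}

lemma mul (hx : LeadsWith x k c) (hy : LeadsWith y l d) : LeadsWith (x * y) (k + l) (c * d) := by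
  obtain ⟨P, hP, rfl⟩ := hx
  obtain ⟨Q, hQ, rfl⟩ := hy
  refine ⟨P * Q, by rw [map_mul, hP, hQ, one_mul], ?_⟩
  rw [map_mul (HahnSeries.ofPowerSeries ℤ R), ← HahnSeries.single_mul_single]
  ring

lemma const (a : R) : LeadsWith (HahnSeries.C a : LaurentSeries R) 0 a :=
  ⟨1, map_one _, by rw [map_one, mul_one, HahnSeries.C_apply]⟩

lemma neg (hx : LeadsWith x k c) : LeadsWith (-x) k (-c) := by
  have := (const (-1 : R)).mul hx
  simpa using this

lemma prod {ι : Type*} (s : Finset ι) (f : ι → LaurentSeries R) (κ : ι → ℤ) (γ : ι → R)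
    (h : ∀ i ∈ s, LeadsWith (f i) (κ i) (γ i)) :
    LeadsWith (∏ i ∈ s, f i) (∑ i ∈ s, κ i) (∏ i ∈ s, γ i) := by
  classical
  induction s using Finset.induction_on with
  | empty => simpa using const (1 : R)
  | insert i t hi IH =>
    rw [Finset.prod_insert hi, Finset.sum_insert hi, Finset.prod_insert hi]
    exact (h i (Finset.mem_insert_self _ _)).mul
      (IH fun j hj => h j (Finset.mem_insert_of_mem hj))

lemma qExpand (hx : LeadsWith x k c) (n : ℕ) [NeZero n] :
    LeadsWith (ModularCurve.qExpand R n x) (n * k) c := by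
  obtain ⟨P, hP, rfl⟩ := hx
  refine ⟨PowerSeries.expand n (NeZero.ne n) P, by rw [PowerSeries.constantCoeff_expand, hP], ?_⟩
  rw [map_mul, qExpand_single, ofPowerSeries_expand]

lemma twistL (hx : LeadsWith x k c) (ξ : Rˣ) :
    LeadsWith (FAIg.twistL ξ x) k (((ξ ^ k : Rˣ) : R) * c) := by
  obtain ⟨P, hP, rfl⟩ := hx
  refine ⟨PowerSeries.rescale (ξ : R) P, ?_, ?_⟩
  · rw [← PowerSeries.coeff_zero_eq_constantCoeff_apply, PowerSeries.coeff_rescale, pow_zero,
      one_mul, PowerSeries.coeff_zero_eq_constantCoeff_apply, hP]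
  · rw [map_mul, twistL_single, twistL_ofPowerSeries]

lemma coeff_of_lt (hx : LeadsWith x k c) {n : ℤ} (hn : n < k) : x.coeff n = 0 := by
  obtain ⟨P, hP, rfl⟩ := hx
  rw [HahnSeries.coeff_single_mul, ofPowerSeries_coeff_of_neg _ (by omega), mul_zero]

lemma coeff_self (hx : LeadsWith x k c) : x.coeff k = c := by
  obtain ⟨P, hP, rfl⟩ := hx
  rw [HahnSeries.coeff_single_mul, sub_self, show (0 : ℤ) = ((0 : ℕ) : ℤ) from rfl,
    HahnSeries.ofPowerSeries_apply_coeff, PowerSeries.coeff_zero_eq_constantCoeff_apply, hP,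
    mul_one]

end LeadsWith

lemma leadsWith_deltaL (R : Type*) [CommRing R] : LeadsWith (deltaL R) 1 1 :=
  ⟨_, by
    rw [← PowerSeries.coeff_zero_eq_constantCoeff_apply, PowerSeries.coeff_map,
      PowerSeries.coeff_zero_eq_constantCoeff_apply, constantCoeff_dedekindEtaUnit]
    simp, rfl⟩

lemma leadsWith_deltaInvL (R : Type*) [CommRing R] : LeadsWith (deltaInvL R) (-1) 1 :=
  ⟨_, by
    rw [← PowerSeries.coeff_zero_eq_constantCoeff_apply, PowerSeries.coeff_map,
      PowerSeries.coeff_zero_eq_constantCoeff_apply, constantCoeff_dedekindEtaUnitInv]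
    simp, rfl⟩

lemma leadsWith_jqModC (R : Type*) [CommRing R] : LeadsWith (jqModC R) (-1) 1 :=
  ⟨_, by
    rw [← PowerSeries.coeff_zero_eq_constantCoeff_apply, PowerSeries.coeff_map,
      PowerSeries.coeff_zero_eq_constantCoeff_apply, constantCoeff_jNum]
    simp, rfl⟩

end FAIg
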