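import Mathlib
import Fermat.Prelude.Def_ModularCurve_X0ModL

/-! S28, shared definitions for the analytic input (A) and the characteristic `ℓ` part (B):
twists `f(t) ↦ f(ξ t)`, the operator `θ = q d/dq`, and `Δ` as Laurent series over any ring. -/

set_option autoImplicit false

open ModularCurve

namespace FAIg

variable {R S : Type*} [CommRing R] [CommRing S]

/-! ### the twist `f(t) ↦ f(ξ t)` -/

/-- multiply the `n`-th coefficient by `ξ ^ n`. -/
noncomputable def twistLFun (ξ : Rˣ) (x : LaurentSeries R) : LaurentSeries R where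
  coeff n := ((ξ ^ n : Rˣ) : R) * x.coeff n
  isPWO_support' := x.isPWO_support.mono (by
    intro n hn
    simp only [Function.mem_support, ne_eq, Units.mul_right_eq_zero] at hn
    exact hn)

@[simp] lemma coeff_twistLFun (ξ : Rˣ) (x : LaurentSeries R) (n : ℤ) :
    (twistLFun ξ x).coeff n = ((ξ ^ n : Rˣ) : R) * x.coeff n := rfl

lemma twistLFun_mul (ξ : Rˣ) (x y : LaurentSeries R) :
    twistLFun ξ (x * y) = twistLFun ξ x * twistLFun ξ y := by
  ext n
  rw [coeff_twistLFun, HahnSeries.coeff_mul, HahnSeries.coeff_mul, Finset.mul_sum]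
  apply Finset.sum_congr
  · ext ij
    simp
  · intro ij hij
    have := (Finset.mem_antidiagonal.mp hij).2.2
    rw [coeff_twistLFun, coeff_twistLFun, ← this, zpow_add, Units.val_mul]
    ring

/-- the ring endomorphism `f(t) ↦ f(ξ t)` of `R((t))`. -/
noncomputable def twistL (ξ : Rˣ) : LaurentSeries R →+* LaurentSeries R where
  toFun := twistLFun ξ
  map_one' := by
    ext n
    rw [coeff_twistLFun, HahnSeries.coeff_one]
    split_ifs with h
    · simp [h]
    · simp
  map_mul' := twistLFun_mul ξ
  map_zero' := by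
    ext n
    simp
  map_add' x y := by
    ext n
    simp [mul_add]

@[simp] lemma coeff_twistL (ξ : Rˣ) (x : LaurentSeries R) (n : ℤ) :
    (twistL ξ x).coeff n = ((ξ ^ n : Rˣ) : R) * x.coeff n := rfl

@[simp] lemma twistL_one (x : LaurentSeries R) : twistL (1 : Rˣ) x = x := by
  ext n
  simp

lemma twistL_twistL (ξ η : Rˣ) (x : LaurentSeries R) :
    twistL ξ (twistL η x) = twistL (ξ * η) x := by
  ext n
  simp [mul_zpow, mul_assoc]

lemma twistL_injective (ξ : Rˣ) : Function.Injective (twistL ξ) := by
  intro x y h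
  have := congrArg (twistL ξ⁻¹) h
  simpa [twistL_twistL] using this

@[simp] lemma twistL_C (ξ : Rˣ) (r : R) : twistL ξ (HahnSeries.C r) = HahnSeries.C r := by
  ext n
  rw [coeff_twistL, HahnSeries.C_apply, HahnSeries.coeff_single]
  split_ifs with h
  · simp [h]
  · simp

lemma twistL_single (ξ : Rˣ) (k : ℤ) (r : R) :
    twistL ξ (HahnSeries.single k r) = HahnSeries.single k (((ξ ^ k : Rˣ) : R) * r) := by
  ext n
  rw [coeff_twistL, HahnSeries.coeff_single, HahnSeries.coeff_single]
  split_ifs with h
  · simp [h]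
  · simp

lemma coeffMap_twistL (f : R →+* S) (ξ : Rˣ) (x : LaurentSeries R) :
    coeffMap f (twistL ξ x) = twistL (Units.map (f : R →* S) ξ) (coeffMap f x) := by
  ext n
  simp only [coeffMap_coeff, coeff_twistL, map_mul]
  congr 1
  rw [← map_zpow]
  rfl

lemma twistL_qExpand (ξ : Rˣ) (n : ℕ) [NeZero n] (x : LaurentSeries R) :
    twistL ξ (qExpand R n x) = qExpand R n (twistL (ξ ^ n) x) := by
  ext k
  by_cases hk : (n : ℤ) ∣ k
  · obtain ⟨j, rfl⟩ := hk
    rw [coeff_twistL, qExpand_coeff_mul, qExpand_coeff_mul, coeff_twistL, zpow_mul, zpow_natCast]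
  · rw [coeff_twistL, qExpand_coeff_of_not_dvd _ _ hk, qExpand_coeff_of_not_dvd _ _ hk, mul_zero]

/-! ### `θ = q d/dq` -/

/-- multiply the `n`-th coefficient by `n`. -/
noncomputable def thetaFun (x : LaurentSeries R) : LaurentSeries R where
  coeff n := (n : R) * x.coeff n
  isPWO_support' := x.isPWO_support.mono (by
    intro n hn h
    apply hn
    show (n : R) * x.coeff n = 0
    rw [h, mul_zero])

@[simp] lemma coeff_thetaFun (x : LaurentSeries R) (n : ℤ) :
    (thetaFun x).coeff n = (n : R) * x.coeff n := rfl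

lemma thetaFun_mul (x y : LaurentSeries R) :
    thetaFun (x * y) = x * thetaFun y + y * thetaFun x := by
  ext n
  rw [coeff_thetaFun, HahnSeries.coeff_add, HahnSeries.coeff_mul,
    HahnSeries.coeff_mul_right' (x := x) (y := thetaFun y) y.isPWO_support (by
      intro n hn h
      apply hn
      show (n : R) * y.coeff n = 0
      rw [h, mul_zero]),
    mul_comm y, HahnSeries.coeff_mul_left' (x := thetaFun x) (y := y) x.isPWO_support (by
      intro n hn h
      apply hn
      show (n : R) * x.coeff n = 0
      rw [h, mul_zero]),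
    Finset.mul_sum, ← Finset.sum_add_distrib]
  apply Finset.sum_congr rfl
  intro ij hij
  have := (Finset.mem_antidiagonal.mp hij).2.2
  rw [coeff_thetaFun, coeff_thetaFun, ← this]
  push_cast
  ring

lemma algebraMap_eq_single (c : R) :
    algebraMap R (LaurentSeries R) c = HahnSeries.single 0 c := by
  have h1 : algebraMap R (PowerSeries R) c = PowerSeries.C c := by
    simp
  rw [HahnSeries.algebraMap_apply', h1, HahnSeries.ofPowerSeries_C]
  rfl

/-- `θ = q d/dq` as a derivation of `R((q))`. -/
noncomputable def thetaL : Derivation R (LaurentSeries R) (LaurentSeries R) where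
  toFun := thetaFun
  map_add' := fun x y => by
    ext n
    simp [mul_add]
  map_smul' := fun r x => by
    rw [Algebra.smul_def, algebraMap_eq_single]
    ext n
    simp only [coeff_thetaFun, HahnSeries.coeff_smul, RingHom.id_apply, smul_eq_mul,
      HahnSeries.coeff_single_zero_mul]
    ring
  map_one_eq_zero' := by
    ext n
    show (n : R) * (1 : LaurentSeries R).coeff n = 0
    rw [HahnSeries.coeff_one]
    split_ifs with h
    · simp [h]
    · simp
  leibniz' := fun x y => by
    show thetaFun (x * y) = x • thetaFun y + y • thetaFun x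
    rw [thetaFun_mul, smul_eq_mul, smul_eq_mul]

@[simp] lemma coeff_thetaL (x : LaurentSeries R) (n : ℤ) :
    (thetaL x).coeff n = (n : R) * x.coeff n := rfl

lemma coeffMap_thetaL (f : R →+* S) (x : LaurentSeries R) :
    coeffMap f (thetaL x) = thetaL (coeffMap f x) := by
  ext n
  simp

lemma thetaL_qExpand (n : ℕ) [NeZero n] (x : LaurentSeries R) :
    thetaL (qExpand R n x) = (n : LaurentSeries R) * qExpand R n (thetaL x) := by
  have hn : (n : LaurentSeries R) = HahnSeries.C (n : R) := by simp
  ext k
  rw [hn, HahnSeries.C_apply, HahnSeries.coeff_single_zero_mul]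
  by_cases hk : (n : ℤ) ∣ k
  · obtain ⟨j, rfl⟩ := hk
    rw [coeff_thetaL, qExpand_coeff_mul, qExpand_coeff_mul, coeff_thetaL]
    push_cast
    ring
  · rw [coeff_thetaL, qExpand_coeff_of_not_dvd _ _ hk, qExpand_coeff_of_not_dvd _ _ hk, mul_zero,
      mul_zero]

lemma thetaL_twistL (ξ : Rˣ) (x : LaurentSeries R) :
    thetaL (twistL ξ x) = twistL ξ (thetaL x) := by
  ext n
  simp only [coeff_thetaL, coeff_twistL]
  ring

/-! ### `Δ` -/

variable (R)

/-- `Δ(q) = q ∏ (1 - q^n)^24` over `R`. -/
noncomputable def deltaL : LaurentSeries R :=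
  HahnSeries.single (1 : ℤ) 1 *
    HahnSeries.ofPowerSeries ℤ R (dedekindEtaUnit.map (Int.castRingHom R))

/-- `Δ(q)⁻¹` over `R`. -/
noncomputable def deltaInvL : LaurentSeries R :=
  HahnSeries.single (-1 : ℤ) 1 *
    HahnSeries.ofPowerSeries ℤ R (dedekindEtaUnitInv.map (Int.castRingHom R))

lemma deltaL_mul_deltaInvL : deltaL R * deltaInvL R = 1 := by
  have h2 : (HahnSeries.single (1 : ℤ) (1 : R)) * HahnSeries.single (-1 : ℤ) (1 : R) = 1 := by
    rw [HahnSeries.single_mul_single]
    simp
  calc deltaL R * deltaInvL R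
      = (HahnSeries.single (1 : ℤ) (1 : R) * HahnSeries.single (-1 : ℤ) (1 : R)) *
        (HahnSeries.ofPowerSeries ℤ R (dedekindEtaUnit.map (Int.castRingHom R)) *
          HahnSeries.ofPowerSeries ℤ R (dedekindEtaUnitInv.map (Int.castRingHom R))) := by
        rw [deltaL, deltaInvL]; ring
    _ = 1 := by
      rw [h2, one_mul, ← map_mul, ← map_mul, dedekindEtaUnit_mul_inv, map_one, map_one]

variable {R}

lemma map_map_intCast (f : R →+* S) (P : PowerSeries ℤ) :
    (P.map (Int.castRingHom R)).map f = P.map (Int.castRingHom S) := by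
  ext n
  simp

lemma coeffMap_deltaL (f : R →+* S) : coeffMap f (deltaL R) = deltaL S := by
  rw [deltaL, map_mul, coeffMap_single, map_one, coeffMap_ofPowerSeries, map_map_intCast, deltaL]

lemma coeffMap_deltaInvL (f : R →+* S) : coeffMap f (deltaInvL R) = deltaInvL S := by
  rw [deltaInvL, map_mul, coeffMap_single, map_one, coeffMap_ofPowerSeries, map_map_intCast,
    deltaInvL]

/-- `j = E₄³ / Δ` over `R`. -/
lemma jqModC_eq (R : Type*) [CommRing R] : jqModC R =
    HahnSeries.ofPowerSeries ℤ R ((eisenstein4 ^ 3).map (Int.castRingHom R)) * deltaInvL R := by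
  rw [jqModC, deltaInvL, jNum, map_mul (PowerSeries.map (Int.castRingHom R)),
    map_mul (HahnSeries.ofPowerSeries ℤ R)]
  ring

/-! ### evaluation of polynomials at a Laurent series -/

/-- `P ↦ P(y)`, `R[Y] → R((q))`. -/
noncomputable def evalJ (y : LaurentSeries R) : Polynomial R →+* LaurentSeries R :=
  Polynomial.eval₂RingHom (HahnSeries.C : R →+* LaurentSeries R) y

@[simp] lemma evalJ_X (y : LaurentSeries R) : evalJ y Polynomial.X = y := by
  simp [evalJ]

@[simp] lemma evalJ_C (y : LaurentSeries R) (r : R) :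
    evalJ y (Polynomial.C r) = HahnSeries.C r := by
  simp [evalJ]

lemma coeffMap_C (f : R →+* S) (r : R) :
    coeffMap f (HahnSeries.C r) = HahnSeries.C (f r) := by
  rw [HahnSeries.C_apply, coeffMap_single, HahnSeries.C_apply]

lemma coeffMap_evalJ (f : R →+* S) (y : LaurentSeries R) (P : Polynomial R) :
    coeffMap f (evalJ y P) = evalJ (coeffMap f y) (P.map f) := by
  induction P using Polynomial.induction_on' with
  | add p q hp hq => rw [map_add, map_add, hp, hq, Polynomial.map_add, map_add]
  | monomial n a =>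
    rw [← Polynomial.C_mul_X_pow_eq_monomial, map_mul, map_pow, evalJ_X, evalJ_C, map_mul, map_pow,
      coeffMap_C, Polynomial.map_mul, Polynomial.map_pow, Polynomial.map_C, Polynomial.map_X,
      map_mul, map_pow, evalJ_X, evalJ_C]

lemma qExpand_evalJ (n : ℕ) [NeZero n] (y : LaurentSeries R) (P : Polynomial R) :
    qExpand R n (evalJ y P) = evalJ (qExpand R n y) P := by
  induction P using Polynomial.induction_on' with
  | add p q hp hq => rw [map_add, map_add, hp, hq, map_add]
  | monomial k a =>
    rw [← Polynomial.C_mul_X_pow_eq_monomial, map_mul, map_pow, evalJ_X, evalJ_C, map_mul, map_pow,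
      qExpand_C, map_mul, map_pow, evalJ_X, evalJ_C]

lemma twistL_evalJ (ξ : Rˣ) (y : LaurentSeries R) (P : Polynomial R) :
    twistL ξ (evalJ y P) = evalJ (twistL ξ y) P := by
  induction P using Polynomial.induction_on' with
  | add p q hp hq => rw [map_add, map_add, hp, hq, map_add]
  | monomial k a =>
    rw [← Polynomial.C_mul_X_pow_eq_monomial, map_mul, map_pow, evalJ_X, evalJ_C, map_mul, map_pow,
      twistL_C, map_mul, map_pow, evalJ_X, evalJ_C]

@[simp] lemma thetaL_C (r : R) : thetaL (HahnSeries.C r : LaurentSeries R) = 0 := by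
  ext n
  rw [coeff_thetaL, HahnSeries.C_apply, HahnSeries.coeff_single]
  split_ifs with h
  · simp [h]
  · simp

lemma thetaL_evalJ (y : LaurentSeries R) (P : Polynomial R) :
    thetaL (evalJ y P) = evalJ y (Polynomial.derivative P) * thetaL y := by
  induction P using Polynomial.induction_on' with
  | add p q hp hq => rw [map_add, map_add, hp, hq, Polynomial.derivative_add, map_add, add_mul]
  | monomial k a =>
    rw [← Polynomial.C_mul_X_pow_eq_monomial, map_mul, map_pow, evalJ_X, evalJ_C,
      Derivation.leibniz, thetaL_C, smul_zero, add_zero, Derivation.leibniz_pow,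
      Polynomial.derivative_C_mul_X_pow, map_mul, map_pow, evalJ_X, Polynomial.C_mul, map_mul,
      evalJ_C, evalJ_C, map_natCast]
    simp only [smul_eq_mul, nsmul_eq_mul]
    ring

end FAIg
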