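import Fermat.Agent.Igusa.Series

/-!
# S28 (B), Lemma A : `j(q^p) ∉ k(j(q))` when `p` is invertible in `k`.

Proof. Suppose `j_p := j(q^p) ∈ k(j)`.
(a) for `f ∈ k(j)`: `θ f ∈ k(j)·θ j` (`IntermediateField.adjoin_induction`, `theta_mul`).
(b) `θ j_p = p · (θ j)(q^p)` (`theta_qExpand`), so `(θ j)(q^p) = c · θ j` with `c ∈ k(j)`.
(c) `ThetaIdentity` and its image under `qExpand k p`:
    `w := Δ(q^p)/Δ(q) = c^6 j^4 (j-1728)^3 / (j_p^4 (j_p-1728)^3) ∈ k(j)`.
(d) `HasUnitPoly`: `w` and `w⁻¹` are integral over `k[j]`, which is integrally closed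
    (`j` is transcendental over `k`), so `w` is a unit of `k[j] ≅ k[X]`, i.e. a constant.
(e) `w = q^(p-1) (1 + ...)` is not constant.
-/

open ModularCurve Polynomial

namespace FAIg

namespace LemA

section

variable (k : Type*) [Field k]

lemma algebraMap_eq_C (r : k) : algebraMap k (LaurentSeries k) r = HahnSeries.C r := by
  have h1 : algebraMap k (PowerSeries k) r = PowerSeries.C r := by
    simp
  rw [HahnSeries.algebraMap_apply', h1, HahnSeries.ofPowerSeries_C]

lemma algebraMap_eq_C' : algebraMap k (LaurentSeries k) = HahnSeries.C :=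
  RingHom.ext (algebraMap_eq_C k)

lemma evalAt_eq_aeval (u : LaurentSeries k) (P : k[X]) : evalAt k u P = aeval u P := by
  rw [evalAt, coe_eval₂RingHom, aeval_def, algebraMap_eq_C']

/-- the coefficient of `q^(-d)` in `P(j)` is the coefficient of `X^d` if `deg P ≤ d`. -/
lemma coeff_aeval_jq (P : k[X]) (d : ℕ) (hd : P.natDegree ≤ d) :
    (aeval (jqModC k) P).coeff (-(d : ℤ)) = P.coeff d := by
  rw [aeval_eq_sum_range' (Nat.lt_succ_of_le hd)]
  simp only [Algebra.smul_def, algebraMap_eq_C]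
  have h1 : ∀ s : Finset ℕ, (∑ i ∈ s, HahnSeries.C (P.coeff i) * jqModC k ^ i).coeff (-(d : ℤ))
      = ∑ i ∈ s, P.coeff i * (jqModC k ^ i).coeff (-(d : ℤ)) := by
    intro s
    induction s using Finset.cons_induction with
    | empty => simp
    | cons a s ha ih =>
      rw [Finset.sum_cons, Finset.sum_cons, HahnSeries.coeff_add, ih, HahnSeries.C_mul_eq_smul,
        HahnSeries.coeff_smul, smul_eq_mul]
  rw [h1, Finset.sum_eq_single d]
  · rw [coeff_jqModC_pow_self, mul_one]
  · intro b hb hbd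
    have : b < d := lt_of_le_of_ne (Nat.lt_succ_iff.1 (Finset.mem_range.1 hb)) hbd
    rw [coeff_jqModC_pow_of_lt k (by omega), mul_zero]
  · intro h
    exact absurd (Finset.mem_range.2 (Nat.lt_succ_self d)) h

theorem transcendental_jqModC : Transcendental k (jqModC k) := by
  rw [transcendental_iff]
  intro P hP
  by_contra h0
  have h1 := coeff_aeval_jq k P P.natDegree le_rfl
  rw [hP, HahnSeries.coeff_zero] at h1
  exact h0 (leadingCoeff_eq_zero.1 h1.symm)

lemma coeff_dq_one : (dq k).coeff 1 = 1 := by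
  have h : (dq k).coeff (0 + 1) = 1 := by
    rw [dq, HahnSeries.coeff_single_mul_add, one_mul]
    have := HahnSeries.ofPowerSeries_apply_coeff (Γ := ℤ)
      (dedekindEtaUnit.map (Int.castRingHom k)) 0
    rw [Nat.cast_zero] at this
    rw [this]
    simp [constantCoeff_dedekindEtaUnit]
  simpa using h

lemma dq_ne_zero : dq k ≠ 0 := by
  intro h
  have := coeff_dq_one k
  rw [h] at this
  simp at this

/-- (e) -/
lemma w_ne_C (p : ℕ) [NeZero p] (hp2 : 2 ≤ p) (c : k) :
    qExpand k p (dq k) * dqInv k ≠ HahnSeries.C c := by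
  intro h
  have h1 : qExpand k p (dq k) = HahnSeries.C c * dq k := by
    rw [← h, mul_assoc, mul_comm (dqInv k), dq_mul_dqInv, mul_one]
  have h2 : (qExpand k p (dq k)).coeff 1 = (HahnSeries.C c * dq k).coeff 1 := by rw [h1]
  rw [qExpand_coeff_of_not_dvd p _ (by
    intro hdvd
    have := Int.le_of_dvd one_pos hdvd
    omega), HahnSeries.C_mul_eq_smul, HahnSeries.coeff_smul, coeff_dq_one, smul_eq_mul, mul_one] at h2
  rw [← h2, map_zero, zero_mul] at h1
  exact dq_ne_zero k (qExpand_injective p (by rw [h1, map_zero]))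

/-- (a) -/
lemma theta_mem_adjoin (f : LaurentSeries k) (hf : f ∈ IntermediateField.adjoin k {jqModC k}) :
    ∃ c ∈ IntermediateField.adjoin k {jqModC k}, theta k f = c * theta k (jqModC k) := by
  induction hf using IntermediateField.adjoin_induction with
  | mem x hx =>
    rw [Set.mem_singleton_iff] at hx
    exact ⟨1, one_mem _, by rw [hx, one_mul]⟩
  | algebraMap x =>
    exact ⟨0, zero_mem _, by rw [algebraMap_eq_C, theta_C, zero_mul]⟩
  | add x y hx hy ihx ihy =>
    obtain ⟨c, hc, h1⟩ := ihx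
    obtain ⟨d, hd, h2⟩ := ihy
    exact ⟨c + d, add_mem hc hd, by rw [map_add, h1, h2, add_mul]⟩
  | inv x hx ihx =>
    obtain ⟨c, hc, h1⟩ := ihx
    rcases eq_or_ne x 0 with rfl | hx0
    · exact ⟨0, zero_mem _, by simp⟩
    refine ⟨-(c * x⁻¹ * x⁻¹), neg_mem (mul_mem (mul_mem hc (inv_mem hx)) (inv_mem hx)), ?_⟩
    have h2 := theta_mul x x⁻¹
    rw [mul_inv_cancel₀ hx0, theta_one, h1] at h2
    have h3 : x * theta k x⁻¹ = -(c * theta k (jqModC k) * x⁻¹) := by
      linear_combination -h2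
    have h4 : theta k x⁻¹ = x⁻¹ * (x * theta k x⁻¹) := by
      rw [← mul_assoc, inv_mul_cancel₀ hx0, one_mul]
    rw [h4, h3]
    ring
  | mul x y hx hy ihx ihy =>
    obtain ⟨c, hc, h1⟩ := ihx
    obtain ⟨d, hd, h2⟩ := ihy
    exact ⟨c * y + x * d, add_mem (mul_mem hc hy) (mul_mem hx hd), by
      rw [theta_mul, h1, h2]; ring⟩

open scoped IntermediateField.algebraAdjoinAdjoin in
/-- (d), first half : `k[j]` is integrally closed in `k(j)`. -/
lemma exists_aeval_of_integral (w : LaurentSeries k)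
    (hw : w ∈ IntermediateField.adjoin k {jqModC k}) (Ψ : k[X][X]) (hΨ : Ψ.Monic)
    (h0 : Ψ.eval₂ (evalAt k (jqModC k)) w = 0) : ∃ P : k[X], w = aeval (jqModC k) P := by
  have htr := transcendental_jqModC k
  let e := Polynomial.algEquivOfTranscendental k (jqModC k) htr
  have hpid : IsPrincipalIdealRing (Algebra.adjoin k {jqModC k}) :=
    IsPrincipalIdealRing.of_surjective e.toRingEquiv.toRingHom e.surjective
  have hcomp : ((algebraMap (IntermediateField.adjoin k {jqModC k}) (LaurentSeries k)).comp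
      ((algebraMap (Algebra.adjoin k {jqModC k}) (IntermediateField.adjoin k {jqModC k})).comp
        e.toRingEquiv.toRingHom)) = evalAt k (jqModC k) := by
    apply Polynomial.ringHom_ext
    · intro a
      show ((e (C a) : Algebra.adjoin k {jqModC k}) : LaurentSeries k) = _
      rw [evalAt_eq_aeval, Polynomial.algEquivOfTranscendental_apply, aeval_C, aeval_C]
      rfl
    · show ((e X : Algebra.adjoin k {jqModC k}) : LaurentSeries k) = _
      rw [evalAt_eq_aeval, Polynomial.algEquivOfTranscendental_apply, aeval_X, aeval_X]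
  have hint : IsIntegral (Algebra.adjoin k {jqModC k})
      (⟨w, hw⟩ : IntermediateField.adjoin k {jqModC k}) := by
    refine ⟨Ψ.map e.toRingEquiv.toRingHom, hΨ.map _, ?_⟩
    rw [eval₂_map]
    apply (algebraMap (IntermediateField.adjoin k {jqModC k}) (LaurentSeries k)).injective
    rw [Polynomial.hom_eval₂, hcomp, map_zero]
    exact h0
  obtain ⟨y, hy⟩ := IsIntegrallyClosed.isIntegral_iff.1 hint
  refine ⟨e.symm y, ?_⟩
  have h1 : ((e (e.symm y) : Algebra.adjoin k {jqModC k}) : LaurentSeries k)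
      = aeval (jqModC k) (e.symm y) := by
    have := RingHom.congr_fun hcomp (e.symm y)
    rw [evalAt_eq_aeval] at this
    exact this
  rw [← h1, e.apply_symm_apply]
  exact (congrArg Subtype.val hy).symm

/-- (d) -/
lemma exists_C_of_unitPoly (w : LaurentSeries k)
    (hw : w ∈ IntermediateField.adjoin k {jqModC k}) (Ψ : k[X][X]) (hΨ : Ψ.Monic)
    (c : k) (hc : IsUnit c) (hΨ0 : Ψ.coeff 0 = C c)
    (h0 : Ψ.eval₂ (evalAt k (jqModC k)) w = 0) : ∃ c₀ : k, w = HahnSeries.C c₀ := by
  obtain ⟨P, rfl⟩ := exists_aeval_of_integral k w hw Ψ hΨ h0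
  rw [← evalAt_eq_aeval, Polynomial.eval₂_at_apply, evalAt_eq_aeval] at h0
  have h1 : Ψ.eval P = 0 := transcendental_iff.1 (transcendental_jqModC k) _ h0
  have h2 : Ψ.divX.eval P * P + C c = 0 := by
    have := congrArg (Polynomial.eval P) (Polynomial.divX_mul_X_add Ψ)
    rw [eval_add, eval_mul, eval_X, eval_C, hΨ0, h1] at this
    exact this
  have hu : IsUnit P := by
    have h3 : P * (-(Ψ.divX.eval P)) = C c := by linear_combination -h2
    exact isUnit_of_mul_isUnit_left (h3 ▸ hc.map C)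
  obtain ⟨c₀, -, rfl⟩ := Polynomial.isUnit_iff.1 hu
  exact ⟨c₀, by rw [aeval_C, algebraMap_eq_C]⟩

end

end LemA

open LemA in
theorem jp_not_mem_adjoin (k : Type*) [Field k] (p : ℕ) [NeZero p] (hp2 : 2 ≤ p)
    (hp : (p : k) ≠ 0) (h2 : HasUnitPoly k p) (h3 : ThetaIdentity k) :
    qExpand k p (jqModC k) ∉ IntermediateField.adjoin k {jqModC k} := by
  intro hmem
  obtain ⟨Ψ, hΨ, ⟨c₁, hc₁, hΨ0⟩, hroot⟩ := h2
  have hjmem : jqModC k ∈ IntermediateField.adjoin k {jqModC k} :=
    IntermediateField.mem_adjoin_simple_self k _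
  -- (b)
  obtain ⟨c, hc, h1⟩ := theta_mem_adjoin k _ hmem
  rw [theta_qExpand] at h1
  have hCp : HahnSeries.C (p : k) ∈ IntermediateField.adjoin k {jqModC k} := by
    rw [← algebraMap_eq_C]
    exact IntermediateField.algebraMap_mem _ _
  have hCp0 : (HahnSeries.C (p : k) : LaurentSeries k) ≠ 0 := by
    rw [← algebraMap_eq_C]
    exact fun h0 => hp ((algebraMap k (LaurentSeries k)).injective (by rw [h0, map_zero]))
  have h1' : qExpand k p (theta k (jqModC k))
      = (HahnSeries.C (p : k))⁻¹ * c * theta k (jqModC k) := by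
    rw [mul_assoc, ← h1, ← mul_assoc, inv_mul_cancel₀ hCp0, one_mul]
  set c' : LaurentSeries k := (HahnSeries.C (p : k))⁻¹ * c with hc'
  have hc'mem : c' ∈ IntermediateField.adjoin k {jqModC k} := mul_mem (inv_mem hCp) hc
  -- (c)
  have h3' := congrArg (qExpand k p) h3
  simp only [map_pow, map_mul, map_sub, map_ofNat] at h3'
  rw [h1', mul_pow, h3] at h3'
  have h1728 : (1728 : LaurentSeries k) ∈ IntermediateField.adjoin k {jqModC k} := by
    have : (1728 : LaurentSeries k) = algebraMap k _ 1728 := (map_ofNat _ 1728).symm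
    rw [this]
    exact IntermediateField.algebraMap_mem _ _
  have hj0 : jqModC k - 1728 ≠ 0 := by
    intro h0
    apply transcendental_jqModC k
    have : jqModC k = algebraMap k _ 1728 := by
      rw [sub_eq_zero.1 h0]; exact (map_ofNat _ 1728).symm
    rw [this]
    exact isAlgebraic_algebraMap _
  have hjp0 : qExpand k p (jqModC k) ≠ 0 := by
    intro h0
    exact jqModC_ne_zero_of_nontrivial k (qExpand_injective p (by rw [h0, map_zero]))
  have hjp1 : qExpand k p (jqModC k) - 1728 ≠ 0 := by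
    intro h0
    apply hj0
    apply qExpand_injective (R := k) p
    rw [map_sub, map_ofNat, h0, map_zero]
  set w : LaurentSeries k := qExpand k p (dq k) * dqInv k with hw
  have hden : qExpand k p (jqModC k) ^ 4 * (qExpand k p (jqModC k) - 1728) ^ 3 ≠ 0 :=
    mul_ne_zero (pow_ne_zero _ hjp0) (pow_ne_zero _ hjp1)
  have hweq : w * (qExpand k p (jqModC k) ^ 4 * (qExpand k p (jqModC k) - 1728) ^ 3)
      = c' ^ 6 * (jqModC k ^ 4 * (jqModC k - 1728) ^ 3) := by
    have hd := dq_mul_dqInv k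
    calc w * (qExpand k p (jqModC k) ^ 4 * (qExpand k p (jqModC k) - 1728) ^ 3)
        = (qExpand k p (dq k) * qExpand k p (jqModC k) ^ 4
            * (qExpand k p (jqModC k) - 1728) ^ 3) * dqInv k := by rw [hw]; ring
      _ = (c' ^ 6 * (dq k * jqModC k ^ 4 * (jqModC k - 1728) ^ 3)) * dqInv k := by rw [← h3']
      _ = c' ^ 6 * (jqModC k ^ 4 * (jqModC k - 1728) ^ 3) * (dq k * dqInv k) := by ring
      _ = _ := by rw [hd, mul_one]
  have hwmem : w ∈ IntermediateField.adjoin k {jqModC k} := by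
    have : w = c' ^ 6 * (jqModC k ^ 4 * (jqModC k - 1728) ^ 3)
        / (qExpand k p (jqModC k) ^ 4 * (qExpand k p (jqModC k) - 1728) ^ 3) := by
      rw [eq_div_iff hden, hweq]
    rw [this]
    exact div_mem (mul_mem (pow_mem hc'mem _)
      (mul_mem (pow_mem hjmem _) (pow_mem (sub_mem hjmem h1728) _)))
      (mul_mem (pow_mem hmem _) (pow_mem (sub_mem hmem h1728) _))
  obtain ⟨c₀, hc₀⟩ := exists_C_of_unitPoly k w hwmem Ψ hΨ c₁ hc₁ hΨ0 hroot
  exact w_ne_C k p hp2 c₀ hc₀

end FAIg
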