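import Fermat.Agent.X0Genus.JTrans
import Fermat.Agent.Igusa.DefsA

/-! S28-(A): the ring of functions meromorphic at `i∞`, the Laurent expansion as a ring
homomorphism, and the expansion of `τ ↦ f ((aτ+b)/e)`. -/

set_option autoImplicit false
set_option linter.unusedSectionVars false
set_option linter.unusedVariables false

open UpperHalfPlane ModularForm EisensteinSeries Function CongruenceSubgroup FA_IS FA24
open ModularCurve
open scoped Manifold MatrixGroups Real

namespace FAIg

local notation "Δ" => ModularForm.discriminant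
local notation "oPS" => HahnSeries.ofPowerSeries ℤ ℂ

/-- functions on `ℍ` which are holomorphic, `N`-periodic, meromorphic at `i∞`. -/
def meroRing (N : ℕ) [NeZero N] : Subring (ℍ → ℂ) where
  carrier := {f | MeroInf N f}
  mul_mem' := MeroInf.mul
  one_mem' := MeroInf.const N 1
  add_mem' := MeroInf.add
  zero_mem' := MeroInf.const N 0
  neg_mem' := MeroInf.neg

lemma mem_meroRing {N : ℕ} [NeZero N] {f : ℍ → ℂ} : f ∈ meroRing N ↔ MeroInf N f := Iff.rfl

/-- the Laurent expansion in `q_N` as a ring homomorphism. -/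
noncomputable def lauHom (N : ℕ) [NeZero N] : meroRing N →+* LaurentSeries ℂ where
  toFun f := lau N f
  map_one' := by
    have := lau_const N 1
    rw [map_one] at this
    exact this
  map_mul' f g := lau_mul f.2 g.2
  map_zero' := by
    have := lau_const N 0
    rw [map_zero] at this
    exact this
  map_add' f g := lau_add f.2 g.2

@[simp] lemma lauHom_apply {N : ℕ} [NeZero N] (f : meroRing N) : lauHom N f = lau N f := rfl

lemma lauHom_injective (N : ℕ) [NeZero N] : Function.Injective (lauHom N) := by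
  rw [injective_iff_map_eq_zero]
  intro f hf
  exact Subtype.ext ((lau_eq_zero_iff f.2).mp hf)

lemma lau_injective {N : ℕ} [NeZero N] {f g : ℍ → ℂ} (hf : MeroInf N f) (hg : MeroInf N g)
    (h : lau N f = lau N g) : f = g :=
  congrArg Subtype.val (lauHom_injective N (a₁ := ⟨f, hf⟩) (a₂ := ⟨g, hg⟩) h)

lemma MeroInf.pow' {N : ℕ} [NeZero N] {f : ℍ → ℂ} (hf : MeroInf N f) (k : ℕ) :
    MeroInf N (f ^ k) :=
  (meroRing N).pow_mem hf k

lemma lau_pow {N : ℕ} [NeZero N] {f : ℍ → ℂ} (hf : MeroInf N f) (k : ℕ) :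
    lau N (f ^ k) = lau N f ^ k := by
  induction k with
  | zero =>
    rw [pow_zero, pow_zero]
    have := lau_const N 1
    rw [map_one] at this
    exact this
  | succ k ih => rw [pow_succ, lau_mul (MeroInf.pow' hf k) hf, ih, pow_succ]

/-- polynomials in a function -/
lemma meroInf_eval {N : ℕ} [NeZero N] {g : ℍ → ℂ} (hg : MeroInf N g) (P : Polynomial ℂ) :
    MeroInf N (fun τ => P.eval (g τ)) ∧
      lau N (fun τ => P.eval (g τ)) = evalJ (lau N g) P := by
  induction P using Polynomial.induction_on' with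
  | add p q hp hq =>
    have e : (fun τ => (p + q).eval (g τ)) = (fun τ => p.eval (g τ)) + fun τ => q.eval (g τ) := by
      ext τ; simp
    rw [e]
    exact ⟨hp.1.add hq.1, by rw [lau_add hp.1 hq.1, hp.2, hq.2, map_add]⟩
  | monomial n a =>
    have e : (fun τ => (Polynomial.monomial n a).eval (g τ)) = (fun _ => a) * g ^ n := by
      ext τ; simp
    rw [e]
    refine ⟨(MeroInf.const N a).mul (MeroInf.pow' hg n), ?_⟩
    rw [lau_mul (MeroInf.const N a) (MeroInf.pow' hg n), lau_const, lau_pow hg,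
      ← Polynomial.C_mul_X_pow_eq_monomial, map_mul, map_pow, evalJ_X, evalJ_C]

/-! ### expansions of `f ((aτ+b)/e)` -/

lemma twistL_oPS {R : Type*} [CommRing R] (ξ : Rˣ) (P : PowerSeries R) :
    twistL ξ (HahnSeries.ofPowerSeries ℤ R P) =
      HahnSeries.ofPowerSeries ℤ R (PowerSeries.rescale (ξ : R) P) := by
  ext k
  rw [coeff_twistL]
  rcases lt_or_ge k 0 with hj | hj
  · rw [ofPowerSeries_coeff_of_neg _ hj, ofPowerSeries_coeff_of_neg _ hj, mul_zero]
  · lift k to ℕ using hj
    rw [HahnSeries.ofPowerSeries_apply_coeff, HahnSeries.ofPowerSeries_apply_coeff,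
      PowerSeries.coeff_rescale, zpow_natCast, Units.val_pow_eq_pow_val]

/-- the root of unity `exp (2π i b / e)` as a unit. -/
noncomputable def zetaU (e : ℕ) (b : ℤ) : ℂˣ := Units.mk0 (zetaAff e b) (zetaAff_ne_zero e b)

@[simp] lemma coe_zetaU (e : ℕ) (b : ℤ) : (zetaU e b : ℂ) = zetaAff e b := rfl

theorem meroInf_compAff {f : ℍ → ℂ} (hf : MeroInf 1 f) {a e N : ℕ} [NeZero N] (ha : 0 < a)
    (he : 0 < e) (b : ℤ) (hN : a * e ∣ N) : MeroInf N (compAff f a e b) := by
  obtain ⟨m, hm⟩ := hf.pole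
  refine ⟨compAff_per (by simpa using hf.per) ha he b hN, compAff_mdiff hf.hol ha he b,
    ⟨a * m, ?_⟩⟩
  have e1 : compAff f a e b * Δ ^ (a * m) =
      compAff (f * Δ ^ m) a e b * (Δ ^ a / compAff Δ a e b) ^ m := by
    ext τ
    simp only [Pi.mul_apply, Pi.pow_apply, Pi.div_apply, compAff]
    have := discriminant_ne_zero (affPt a e b τ)
    rw [div_pow, ← pow_mul, mul_assoc, mul_div_cancel₀ _ (pow_ne_zero m this)]
  rw [e1]
  have hb : ∀ k : ℕ, IsBoundedAtImInfty ((Δ ^ a / compAff Δ a e b) ^ k) := by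
    intro k
    induction k with
    | zero => rw [pow_zero]; exact Filter.const_boundedAtFilter atImInfty (1 : ℂ)
    | succ k ih => rw [pow_succ]; exact ih.mul (bdd_disc_ratio_aff ha he b)
  have hb' : IsBoundedAtImInfty (compAff (f * Δ ^ m) a e b) :=
    hm.comp_tendsto (tendsto_affPt ha he b)
  exact hb'.mul (hb m)

lemma lau_compAff_nice {F : ℍ → ℂ} (hF : Nice 1 F) {a e N : ℕ} [NeZero N] [NeZero a]
    (he : 0 < e) (b : ℤ) (hN : a * e = N) :
    lau N (compAff F a e b) = qExpand ℂ (a ^ 2) (twistL (zetaU e b) (oPS (qExpansion 1 F))) := by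
  have ha : 0 < a := Nat.pos_of_ne_zero (NeZero.ne a)
  rw [lau_of_nice (compAff_nice hF ha he hN b), qExpansion_compAff hF ha he hN b, twistL_oPS,
    ← oPS_expand]
  rfl

theorem lau_compAff {f : ℍ → ℂ} (hf : MeroInf 1 f) {a e N : ℕ} [NeZero N] [NeZero a]
    (he : 0 < e) (b : ℤ) (hN : a * e = N) :
    lau N (compAff f a e b) = qExpand ℂ (a ^ 2) (twistL (zetaU e b) (lau 1 f)) := by
  have ha : 0 < a := Nat.pos_of_ne_zero (NeZero.ne a)
  obtain ⟨m, hm⟩ := hf.pole
  have e1 : ((1 : ℕ) : ℝ) = 1 := Nat.cast_one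
  have h1 : Nice 1 (f * Δ ^ m) := by simpa using hf.nice_mul hm
  have h2 : Nice 1 (Δ ^ m) := nice_disc_one.pow m
  have h3 := lau_mul (meroInf_compAff hf ha he b (dvd_of_eq hN))
    (MeroInf.of_nice (compAff_nice h2 ha he hN b))
  rw [← compAff_mul, lau_compAff_nice h1 he b hN, lau_compAff_nice h2 he b hN] at h3
  have h4 := lau_mul_disc_pow hf m hm
  rw [e1] at h4
  rw [← h4, map_mul, map_mul, nice_disc_one.qExpansion_pow one_pos, map_pow (oPS)] at h3
  have h5 : qExpand ℂ (a ^ 2) (twistL (zetaU e b) (oPS (qExpansion 1 Δ) ^ m)) ≠ 0 := by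
    intro h
    have h6 := twistL_injective _ ((qExpand_injective (a ^ 2) (h.trans (map_zero _).symm)).trans
      (map_zero _).symm)
    have h7 := oPS_disc_ne_zero 1
    rw [e1] at h7
    exact pow_ne_zero m h7 h6
  exact (mul_right_cancel₀ h5 h3).symm

lemma lau_one_jf : lau 1 jf = jqModC ℂ := by
  rw [lau_jf, ← jqModC_rat, coeffMap_jqModC]

lemma lau_jf_level (N : ℕ) [NeZero N] : lau N jf = qExpand ℂ N (jqModC ℂ) := by
  rw [lau_of_one meroInf_jf, lau_one_jf]

lemma lau_one_disc : lau 1 Δ = deltaL ℂ := by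
  have e1 : ((1 : ℕ) : ℝ) = 1 := Nat.cast_one
  rw [lau_of_nice (nice_one_cast nice_disc_one), e1, qExpansion_discriminant, map_mul,
    HahnSeries.ofPowerSeries_X, deltaL]

end FAIg
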