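import Fermat.Agent.Igusa.MeroRing

/-! S28-(A): the universal ring `ℤ[ζ_p] = ℤ[X]/(Φ_p)`, its embedding into `ℂ`, and its maps to
rings with a "primitive" `p`-th root of unity. -/

set_option autoImplicit false
set_option linter.unusedSectionVars false
set_option linter.unusedVariables false

open Polynomial FA_IS
open scoped Real

namespace FAIg

variable (p : ℕ) [hp : Fact p.Prime]

/-- `ℤ[ζ_p]` -/
abbrev CycRing : Type := AdjoinRoot (cyclotomic p ℤ)

lemma geom_zero_pow_eq_one {R : Type*} [CommRing R] {ζ : R}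
    (hζ : ∑ i ∈ Finset.range p, ζ ^ i = 0) : ζ ^ p = 1 := by
  have := mul_geom_sum ζ p
  rw [hζ, mul_zero] at this
  exact (sub_eq_zero.mp this.symm)

lemma eval₂_cyclotomic_eq {R : Type*} [CommRing R] (ζ : R) :
    (cyclotomic p ℤ).eval₂ (Int.castRingHom R) ζ = ∑ i ∈ Finset.range p, ζ ^ i := by
  rw [cyclotomic_prime, eval₂_finsetSum]
  simp

/-- the map `ℤ[ζ_p] → R` -/
noncomputable def cycLift {R : Type*} [CommRing R] (ζ : R)
    (hζ : ∑ i ∈ Finset.range p, ζ ^ i = 0) : CycRing p →+* R :=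
  AdjoinRoot.lift (Int.castRingHom R) ζ (by rw [eval₂_cyclotomic_eq, hζ])

@[simp] lemma cycLift_root {R : Type*} [CommRing R] (ζ : R)
    (hζ : ∑ i ∈ Finset.range p, ζ ^ i = 0) :
    cycLift p ζ hζ (AdjoinRoot.root (cyclotomic p ℤ)) = ζ := by
  simp [cycLift]

lemma cycRoot_sum : ∑ i ∈ Finset.range p, (AdjoinRoot.root (cyclotomic p ℤ)) ^ i = 0 := by
  have h := AdjoinRoot.eval₂_root (cyclotomic p ℤ)
  rwa [RingHom.ext_int (AdjoinRoot.of (cyclotomic p ℤ)) (Int.castRingHom _),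
    eval₂_cyclotomic_eq] at h

/-- `ζ_p` as a unit of `ℤ[ζ_p]`. -/
noncomputable def cycUnit : (CycRing p)ˣ :=
  Units.ofPowEqOne (AdjoinRoot.root (cyclotomic p ℤ)) p (geom_zero_pow_eq_one p (cycRoot_sum p))
    hp.out.ne_zero

@[simp] lemma coe_cycUnit : (cycUnit p : CycRing p) = AdjoinRoot.root (cyclotomic p ℤ) := rfl

/-- `exp (2π i / p)` -/
noncomputable def zetaC : ℂ := Complex.exp (2 * π * Complex.I / p)

lemma zetaC_prim : IsPrimitiveRoot (zetaC p) p := Complex.isPrimitiveRoot_exp p hp.out.ne_zero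

lemma zetaC_sum : ∑ i ∈ Finset.range p, (zetaC p) ^ i = 0 :=
  (zetaC_prim p).geom_sum_eq_zero hp.out.one_lt

/-- the embedding `ℤ[ζ_p] → ℂ`. -/
noncomputable def cycEmb : CycRing p →+* ℂ := cycLift p (zetaC p) (zetaC_sum p)

lemma cycEmb_injective : Function.Injective (cycEmb p) := by
  rw [injective_iff_map_eq_zero]
  intro a ha
  obtain ⟨f, rfl⟩ := AdjoinRoot.mk_surjective a
  rw [AdjoinRoot.mk_eq_zero, cyclotomic_eq_minpoly (zetaC_prim p) hp.out.pos]
  apply minpoly.isIntegrallyClosed_dvd ((zetaC_prim p).isIntegral hp.out.pos)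
  have : cycEmb p (AdjoinRoot.mk _ f) = f.eval₂ (Int.castRingHom ℂ) (zetaC p) := by
    simp [cycEmb, cycLift]
  rw [this] at ha
  rw [aeval_def]
  exact ha

lemma zetaAff_eq_pow (b : ℕ) : zetaAff p (b : ℤ) = (zetaC p) ^ b := by
  rw [zetaAff, zetaC, ← Complex.exp_nat_mul]
  congr 1
  push_cast
  ring

lemma map_cycUnit_pow (b : ℕ) :
    Units.map (cycEmb p : CycRing p →* ℂ) (cycUnit p ^ b) = zetaU p (b : ℤ) := by
  ext
  simp [cycEmb, zetaAff_eq_pow]

lemma map_cycUnit {R : Type*} [CommRing R] (ζ : Rˣ)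
    (hζ : ∑ i ∈ Finset.range p, (ζ : R) ^ i = 0) :
    Units.map (cycLift p (ζ : R) hζ : CycRing p →* R) (cycUnit p) = ζ := by
  ext
  simp

lemma isIntegral_cycRing (a : CycRing p) : IsIntegral ℤ a := by
  haveI : Module.Finite ℤ (CycRing p) := (cyclotomic.monic p ℤ).finite_adjoinRoot
  exact IsIntegral.of_finite ℤ a

end FAIg
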