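import Fermat.Agent.Igusa.SymPoly
import Fermat.Agent.Igusa.CycRing

/-! S28-(A1): the modular equation of prime level over `ℤ[ζ_p]`. -/

set_option autoImplicit false
set_option linter.unusedSectionVars false
set_option linter.unusedVariables false

open UpperHalfPlane ModularForm EisensteinSeries Function CongruenceSubgroup FA_IS FA24
open ModularCurve Polynomial
open scoped Manifold MatrixGroups Real

namespace FAIg

/-! ### points -/

lemma affPt_add_mul {a e : ℕ} (ha : 0 < a) (he : 0 < e) (b k : ℤ) (τ : ℍ) :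
    affPt a e (b + e * k) τ = ModularGroup.T ^ k • affPt a e b τ := by
  have heC : (e : ℂ) ≠ 0 := by exact_mod_cast he.ne'
  rw [modular_T_zpow_smul]
  apply UpperHalfPlane.ext
  rw [coe_vadd, coe_affPt ha he, coe_affPt ha he]
  push_cast
  field_simp
  ring

lemma affPt_S_T {p : ℕ} (hp : 0 < p) (b : ℤ) (τ : ℍ) :
    affPt p 1 0 (ModularGroup.S • (ModularGroup.T ^ b • τ)) = ModularGroup.S • affPt 1 p b τ := by
  have hpC : (p : ℂ) ≠ 0 := by exact_mod_cast hp.ne'
  apply UpperHalfPlane.ext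
  rw [coe_affPt hp one_pos, modular_S_smul, modular_S_smul, modular_T_zpow_smul]
  simp only [coe_vadd]
  rw [coe_affPt one_pos hp]
  have h1 : ((b : ℝ) : ℂ) + (τ : ℂ) ≠ 0 := by
    have := (((b : ℝ) +ᵥ τ : ℍ)).ne_zero
    rwa [coe_vadd] at this
  have h2 : (τ : ℂ) + (b : ℂ) ≠ 0 := by
    rw [add_comm]
    simpa using h1
  rw [show ((b : ℝ) : ℂ) + (τ : ℂ) = (τ : ℂ) + (b : ℂ) by push_cast; ring]
  push_cast
  field_simp
  ring

variable (p : ℕ) [hp : Fact p.Prime]

instance neZero_prime : NeZero p := ⟨hp.out.ne_zero⟩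

/-- the `p + 1` functions `j(pτ)`, `j((τ+b)/p)`. -/
noncomputable def jFam : Option (Fin p) → ℍ → ℂ
  | none => compAff jf p 1 0
  | some b => compAff jf 1 p ((b : ℕ) : ℤ)

lemma jFam_base (γ : SL(2, ℤ)) : ∃ x', ∀ τ, jf (affPt p 1 0 (γ • τ)) = jFam p x' τ := by
  have hp0 : 0 < p := hp.out.pos
  obtain ⟨a, e, b, ha, he, hae, -, h⟩ := jf_level_comp p γ
  rcases (Nat.dvd_prime hp.out).mp ⟨e, hae.symm⟩ with rfl | rfl
  · rw [one_mul] at hae
    subst hae
    have hlt : (b % (e : ℤ)).toNat < e := by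
      have h1 := Int.emod_nonneg b (by exact_mod_cast hp0.ne' : (e : ℤ) ≠ 0)
      have h2 := Int.emod_lt_of_pos b (by exact_mod_cast hp0 : (0 : ℤ) < e)
      omega
    refine ⟨some ⟨(b % (e : ℤ)).toNat, hlt⟩, fun τ => ?_⟩
    rw [h τ]
    have h1 := Int.emod_nonneg b (by exact_mod_cast hp0.ne' : (e : ℤ) ≠ 0)
    show jf (affPt 1 e b τ) = jf (affPt 1 e (((b % (e : ℤ)).toNat : ℕ) : ℤ) τ)
    rw [Int.toNat_of_nonneg h1]
    conv_lhs => rw [← Int.emod_add_mul_ediv b e, affPt_add_mul one_pos hp0, jf_smul]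
  · have he1 : e = 1 := Nat.eq_of_mul_eq_mul_left hp0 (by rw [hae, mul_one])
    subst he1
    refine ⟨none, fun τ => ?_⟩
    rw [h τ]
    show jf (affPt a 1 b τ) = jf (affPt a 1 0 τ)
    have := affPt_add_mul hp0 one_pos 0 b τ
    rw [Nat.cast_one, one_mul, zero_add] at this
    rw [this, jf_smul]

lemma jFam_closed (γ : SL(2, ℤ)) (x : Option (Fin p)) :
    ∃ x', ∀ τ, jFam p x (γ • τ) = jFam p x' τ := by
  have hp0 : 0 < p := hp.out.pos
  rcases x with _ | b
  · exact jFam_base p γ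
  · obtain ⟨x', hx'⟩ := jFam_base p (ModularGroup.S * ModularGroup.T ^ (((b : ℕ) : ℤ)) * γ)
    refine ⟨x', fun τ => ?_⟩
    rw [← hx' τ, mul_smul, mul_smul, affPt_S_T hp0, jf_smul]
    rfl

lemma jFam_mero (x : Option (Fin p)) : MeroInf p (jFam p x) := by
  have hp0 : 0 < p := hp.out.pos
  rcases x with _ | b
  · exact meroInf_compAff_jf hp0 one_pos 0 (by simp)
  · exact meroInf_compAff_jf one_pos hp0 _ (by simp)

/-- the expansions of the `p + 1` functions, over any ring. -/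
noncomputable def jFamL {R : Type*} [CommRing R] (ζ : Rˣ) : Option (Fin p) → LaurentSeries R
  | none => qExpand R (p ^ 2) (jqModC R)
  | some b => twistL (ζ ^ (b : ℕ)) (jqModC R)

lemma zetaU_one_zero : zetaU 1 0 = 1 := by
  ext
  simp [zetaAff]

lemma lau_jFam (x : Option (Fin p)) :
    lau p (jFam p x) = jFamL p (zetaU p 1) x := by
  have hp0 : 0 < p := hp.out.pos
  rcases x with _ | b
  · show lau p (compAff jf p 1 0) = qExpand ℂ (p ^ 2) (jqModC ℂ)
    rw [lau_compAff meroInf_jf one_pos 0 (mul_one p), zetaU_one_zero, twistL_one, lau_one_jf]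
  · show lau p (compAff jf 1 p ((b : ℕ) : ℤ)) = twistL (zetaU p 1 ^ (b : ℕ)) (jqModC ℂ)
    have hz : zetaU p ((b : ℕ) : ℤ) = zetaU p 1 ^ (b : ℕ) := by
      apply Units.ext
      rw [Units.val_pow_eq_pow_val, coe_zetaU, coe_zetaU, zetaAff_eq_pow,
        show (1 : ℤ) = ((1 : ℕ) : ℤ) from rfl, zetaAff_eq_pow, pow_one]
    rw [lau_compAff meroInf_jf hp0 _ (one_mul p), lau_one_jf,
      qExpand_congr (one_pow 2 : 1 ^ 2 = 1), qExpand_one_apply, hz]

lemma coeffMap_jFamL {R S : Type*} [CommRing R] [CommRing S] (φ : R →+* S) (ζ : Rˣ)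
    (x : Option (Fin p)) :
    coeffMap φ (jFamL p ζ x) = jFamL p (Units.map (φ : R →* S) ζ) x := by
  rcases x with _ | b
  · show coeffMap φ (qExpand R (p ^ 2) (jqModC R)) = qExpand S (p ^ 2) (jqModC S)
    rw [coeffMap_qExpand, coeffMap_jqModC]
  · show coeffMap φ (twistL (ζ ^ (b : ℕ)) (jqModC R)) =
      twistL ((Units.map (φ : R →* S) ζ) ^ (b : ℕ)) (jqModC S)
    rw [coeffMap_twistL, coeffMap_jqModC, map_pow]

lemma zetaU_eq : zetaU p 1 = Units.map (cycEmb p : CycRing p →* ℂ) (cycUnit p) := by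
  have := map_cycUnit_pow p 1
  rw [pow_one] at this
  rw [this]
  rfl

lemma jFam_injective : Function.Injective (jFam p) := by
  have hp0 : 0 < p := hp.out.pos
  have key0 : (lau p (jFam p none)).coeff (-1) = 0 := by
    rw [lau_jFam]
    show (qExpand ℂ (p ^ 2) (jqModC ℂ)).coeff (-1) = 0
    apply qExpand_coeff_of_not_dvd
    intro h
    have h1 : ((p ^ 2 : ℕ) : ℤ) ∣ 1 := by simpa using h
    have h2 : p ^ 2 ∣ 1 := by exact_mod_cast h1
    have h3 := Nat.le_of_dvd one_pos h2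
    have := hp.out.two_le
    nlinarith
  have key1 : ∀ b : Fin p, (lau p (jFam p (some b))).coeff (-1) =
      (((zetaU p 1) ^ (b : ℕ)) ^ (-1 : ℤ) : ℂˣ) := by
    intro b
    rw [lau_jFam]
    show (twistL (zetaU p 1 ^ (b : ℕ)) (jqModC ℂ)).coeff (-1) = _
    rw [coeff_twistL, coeff_jqModC_neg_one, mul_one]
  intro x y hxy
  rcases x with _ | b <;> rcases y with _ | c
  · rfl
  · have h := key0
    rw [hxy, key1] at h
    exact absurd h (Units.ne_zero _)
  · have h := key0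
    rw [← hxy, key1] at h
    exact absurd h (Units.ne_zero _)
  · have h := key1 b
    rw [hxy, key1] at h
    have h1 : (zetaU p 1) ^ (c : ℕ) = (zetaU p 1) ^ (b : ℕ) := by
      have := Units.ext h
      simpa using this
    have h2 : (zetaC p) ^ (c : ℕ) = (zetaC p) ^ (b : ℕ) := by
      have := congrArg (fun u : ℂˣ => (u : ℂ)) h1
      simp only [Units.val_pow_eq_pow_val, coe_zetaU] at this
      rw [show (1 : ℤ) = ((1 : ℕ) : ℤ) from rfl, zetaAff_eq_pow, pow_one] at this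
      exact this
    have h3 := (zetaC_prim p).pow_inj c.2 b.2 h2
    exact congrArg some (Fin.ext h3.symm)

/-- (A1) over the universal ring. -/
theorem modularEquation_cyc :
    ∃ Φ : Polynomial (Polynomial (CycRing p)), Φ.Monic ∧ Φ.natDegree = p + 1 ∧
      Φ.map (evalJ (qExpand (CycRing p) p (jqModC (CycRing p)))) =
        ∏ x, (X - C (jFamL p (cycUnit p) x)) := by
  obtain ⟨Φ, h1, h2, h3⟩ := exists_symm_poly p (jFam p) (jFam_mero p) (jFam_injective p)
    (jFam_closed p) (cycEmb p) (cycEmb_injective p) (jFamL p (cycUnit p)) (fun x => by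
      rw [coeffMap_jFamL, lau_jFam, zetaU_eq])
  exact ⟨Φ, h1, by rw [h2]; simp, h3⟩

end FAIg
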