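import Fermat.Agent.Igusa.Fricke
import Fermat.Prelude.Def_ModularCurve_IgusaScheme

/-! S28 (A4), part 3: `[F : ℚ(j(q^N))] ≤ ψ(N)` and `[F : ℚ(j(q))] ≤ ψ(N)`. -/

set_option autoImplicit false

open Polynomial IntermediateField ModularCurve
open scoped MatrixGroups

noncomputable section

namespace FAIg

section Homog

variable {A B : Type*} [CommRing A] [Algebra ℚ A] [CommRing B] [Algebra ℚ B]

/-- homogenisation of a two-variable polynomial in its second variable -/
def homog (Q : ℚ[X][X]) (a u v : A) : A :=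
  ∑ i ∈ Finset.range (Q.natDegree + 1), aeval a (Q.coeff i) * u ^ i * v ^ (Q.natDegree - i)

lemma map_homog (φ : A →ₐ[ℚ] B) (Q : ℚ[X][X]) (a u v : A) :
    φ (homog Q a u v) = homog Q (φ a) (φ u) (φ v) := by
  simp only [homog, map_sum, map_mul, map_pow, aeval_algHom_apply]

lemma homog_eq (Q : ℚ[X][X]) (a u v f : A) (h : f * v = u) :
    homog Q a u v = v ^ Q.natDegree * Q.eval₂ (aeval a).toRingHom f := by
  rw [homog, eval₂_eq_sum_range, Finset.mul_sum]
  refine Finset.sum_congr rfl fun i hi => ?_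
  have hi' : i ≤ Q.natDegree := Nat.lt_succ_iff.mp (Finset.mem_range.mp hi)
  have : v ^ Q.natDegree = v ^ i * v ^ (Q.natDegree - i) := by
    rw [← pow_add, Nat.add_sub_cancel' hi']
  rw [this, ← h, mul_pow]
  simp only [AlgHom.toRingHom_eq_coe, RingHom.coe_coe]
  ring

end Homog

lemma eval₂RingHom_C_eq (a : LaurentSeries ℚ) :
    eval₂RingHom (HahnSeries.C : ℚ →+* LaurentSeries ℚ) a = (aeval (R := ℚ) a).toRingHom := by
  apply Polynomial.ringHom_ext
  · intro c
    simp only [coe_eval₂RingHom, eval₂_C, AlgHom.toRingHom_eq_coe, RingHom.coe_coe, aeval_C,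
      algebraMap_apply_eq_single]
    rfl
  · simp

variable {N : ℕ} [NeZero N]

lemma divisorExpansions_eq_range : divisorExpansions N = Set.range (jser (N := N)) := by
  ext x
  constructor
  · rintro ⟨d, hd, hdN, rfl⟩
    exact ⟨⟨d, hdN⟩, rfl⟩
  · rintro ⟨d, rfl⟩
    exact ⟨d.1, inferInstance, d.2, rfl⟩

lemma mem_full_iff {f : LaurentSeries ℚ} : f ∈ modularFunctionFieldFull N ↔
    ∃ P₁ P₂ : MvPolynomial (Dv N) ℚ, f = evq P₁ / evq P₂ := by
  rw [modularFunctionFieldFull, divisorExpansions_eq_range, mem_adjoin_range_iff]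
  rfl

lemma exists_frac {f : LaurentSeries ℚ} (hf : f ∈ modularFunctionFieldFull N) :
    ∃ P₁ P₂ : MvPolynomial (Dv N) ℚ, evq P₂ ≠ 0 ∧ f * evq P₂ = evq P₁ := by
  obtain ⟨P₁, P₂, rfl⟩ := mem_full_iff.mp hf
  by_cases h : evq P₂ = 0
  · exact ⟨0, 1, by simp, by simp [h]⟩
  · exact ⟨P₁, P₂, h, div_mul_cancel₀ _ h⟩

/-- the divisors `1` and `N` -/
def dOne : Dv N := ⟨1, one_dvd N⟩
def dTop : Dv N := ⟨N, dvd_rfl⟩

lemma inv_dTop : (dTop : Dv N).inv = dOne :=
  Subtype.ext (Nat.div_self (Nat.pos_of_ne_zero (NeZero.ne N)))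

lemma jser_dOne : jser (dOne : Dv N) = jq := qExpand_one_apply jq

lemma jser_dTop : jser (dTop : Dv N) = qExpand ℚ N jq := rfl

/-- relation of degree `≤ ψ(N)` over `ℚ[j(q^N)]`. -/
theorem exists_relation_y (f : LaurentSeries ℚ) (hf : f ∈ modularFunctionFieldFull N) :
    ∃ Q : ℚ[X][X], Q ≠ 0 ∧ Q.natDegree ≤ dedekindPsi N ∧
      Q.eval₂ (aeval (R := ℚ) (qExpand ℚ N jq)).toRingHom f = 0 := by
  obtain ⟨P₁, P₂, hP₂, hf'⟩ := exists_frac hf
  set σ := MvPolynomial.rename (R := ℚ) (Dv.inv (N := N)) with hσ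
  have hσP₂ : evq (σ P₂) ≠ 0 := fun h => hP₂ (evq_rename_eq_zero_iff.mp h)
  obtain ⟨Q, hQ0, hQd, hQ⟩ := exists_relation_x (N := N) (evq (σ P₁) / evq (σ P₂))
    (mem_full_iff.mpr ⟨_, _, rfl⟩)
  refine ⟨Q, hQ0, hQd, ?_⟩
  rw [eval₂RingHom_C_eq] at hQ
  have h1 : homog Q jq (evq (σ P₁)) (evq (σ P₂)) = 0 := by
    rw [homog_eq Q _ _ _ _ (div_mul_cancel₀ _ hσP₂), hQ, mul_zero]
  have h2 : evq (σ (homog Q (MvPolynomial.X dTop) P₁ P₂)) = 0 := by
    rw [map_homog, map_homog, hσ, MvPolynomial.rename_X, inv_dTop]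
    have : evq (MvPolynomial.X (dOne : Dv N)) = jq := by
      rw [evq, MvPolynomial.aeval_X, jser_dOne]
    rw [this]
    exact h1
  have h3 := evq_rename_eq_zero_iff.mp h2
  rw [map_homog] at h3
  have h4 : evq (MvPolynomial.X (dTop : Dv N)) = qExpand ℚ N jq := by
    rw [evq, MvPolynomial.aeval_X, jser_dTop]
  rw [h4, homog_eq Q _ _ _ _ hf'] at h3
  exact (mul_eq_zero.mp h3).resolve_left (pow_ne_zero _ hP₂)

theorem transcendental_jq : Transcendental ℚ jq := by
  rw [transcendental_iff]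
  intro p hp
  by_contra hp0
  have h1 := congrArg (fun s : LaurentSeries ℚ => s.coeff (-(p.natDegree : ℤ))) hp
  simp only [HahnSeries.coeff_zero] at h1
  rw [aeval_eq_sum_range, HahnSeries.coeff_sum, Finset.sum_eq_single p.natDegree] at h1
  · rw [Algebra.smul_def, algebraMap_apply_eq_single, HahnSeries.coeff_single_zero_mul,
      coeff_jq_pow_self, mul_one] at h1
    exact hp0 (leadingCoeff_eq_zero.mp h1)
  · intro i hi hne
    have hi' : i < p.natDegree :=
      lt_of_le_of_ne (Nat.lt_succ_iff.mp (Finset.mem_range.mp hi)) hne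
    rw [Algebra.smul_def, algebraMap_apply_eq_single, HahnSeries.coeff_single_zero_mul,
      coeff_jq_pow_of_lt (by omega), mul_zero]
  · intro h
    exact absurd (Finset.mem_range.mpr (Nat.lt_succ_self _)) h

theorem transcendental_jqN (M : ℕ) [NeZero M] : Transcendental ℚ (qExpand ℚ M jq) := by
  have h := transcendental_jq
  rw [transcendental_iff] at h ⊢
  intro p hp
  apply h p
  apply qExpand_injective (R := ℚ) M
  rw [map_zero, ← qExpandₐ_apply, ← aeval_algHom_apply]
  exact hp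

/-- the rational function field -/
abbrev FQ (N : ℕ) : Type := ↥(modularFunctionFieldFull N)

/-- `j(q^d)` as an element of the function field -/
def jF (d : Dv N) : FQ N := ⟨jser d, jqd_mem_full N d.2⟩

/-- `y = j(q^N)` -/
def yF (N : ℕ) [NeZero N] : FQ N := jF dTop

/-- `x = j(q)` -/
def xF (N : ℕ) [NeZero N] : FQ N := jF dOne

lemma xF_eq_jFull : xF N = IgusaScheme.jFull N := Subtype.ext jser_dOne

lemma coe_yF : (yF N : LaurentSeries ℚ) = qExpand ℚ N jq := rfl

lemma coe_xF : (xF N : LaurentSeries ℚ) = jq := jser_dOne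

/-- the inclusion as a ring homomorphism -/
def inclF (N : ℕ) : FQ N →+* LaurentSeries ℚ := (modularFunctionFieldFull N).toSubfield.subtype

omit [NeZero N] in
lemma inclF_apply (z : FQ N) : inclF N z = (z : LaurentSeries ℚ) := rfl

omit [NeZero N] in
lemma inclF_aeval (z : FQ N) (p : ℚ[X]) :
    inclF N (aeval z p) = aeval (z : LaurentSeries ℚ) p := by
  rw [aeval_def, aeval_def, hom_eval₂]
  congr 1
  exact Subsingleton.elim _ _

omit [NeZero N] in
lemma transcendental_coe {z : FQ N} (h : Transcendental ℚ (z : LaurentSeries ℚ)) :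
    Transcendental ℚ z := by
  rw [transcendental_iff] at h ⊢
  intro p hp
  apply h p
  rw [← inclF_aeval, hp, map_zero]

theorem transcendental_yF : Transcendental ℚ (yF N) := transcendental_coe (transcendental_jqN N)

theorem transcendental_xF : Transcendental ℚ (xF N) := by
  apply transcendental_coe
  rw [coe_xF]
  exact transcendental_jq

lemma inclF_mvAeval (P : MvPolynomial (Dv N) ℚ) :
    inclF N (MvPolynomial.aeval (jF (N := N)) P) = evq P := by
  have : (inclF N).comp (MvPolynomial.aeval (R := ℚ) (jF (N := N))).toRingHom =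
      (evq (N := N)).toRingHom := by
    apply MvPolynomial.ringHom_ext
    · intro a
      simp
    · intro d
      simp only [RingHom.comp_apply, AlgHom.toRingHom_eq_coe, RingHom.coe_coe,
        MvPolynomial.aeval_X, evq]
      rfl
  exact RingHom.congr_fun this P

lemma adjoin_range_jF : adjoin ℚ (Set.range (jF (N := N))) = ⊤ := by
  rw [eq_top_iff]
  rintro f -
  obtain ⟨P₁, P₂, h⟩ := mem_full_iff.mp f.2
  rw [mem_adjoin_range_iff]
  refine ⟨P₁, P₂, ?_⟩
  apply (inclF N).injective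
  rw [map_div₀, inclF_mvAeval, inclF_mvAeval]
  exact h

lemma finite_range_jF : (Set.range (jF (N := N))).Finite := by
  have : Finite (Dv N) := by
    have hfin : {d : ℕ | d ∣ N}.Finite :=
      (Finset.finite_toSet N.divisors).subset fun d hd => by
        simpa [NeZero.ne N] using hd
    exact hfin.to_subtype
  exact Set.finite_range _

omit [NeZero N] in
lemma relation_coe (z : FQ N) (f : FQ N) (Q : ℚ[X][X])
    (h : Q.eval₂ (aeval (R := ℚ) (z : LaurentSeries ℚ)).toRingHom (f : LaurentSeries ℚ) = 0) :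
    Q.eval₂ (aeval (R := ℚ) z).toRingHom f = 0 := by
  apply (inclF N).injective
  rw [map_zero, hom_eval₂]
  have h2 : (inclF N).comp (aeval (R := ℚ) z).toRingHom =
      (aeval (R := ℚ) (z : LaurentSeries ℚ)).toRingHom :=
    RingHom.ext fun p => inclF_aeval z p
  rw [h2]
  exact h

/-- **S28 (A4)** for `y = j(q^N)`. -/
theorem finrank_full_y_le (N : ℕ) [NeZero N] :
    FiniteDimensional ℚ⟮yF N⟯ (FQ N) ∧ Module.finrank ℚ⟮yF N⟯ (FQ N) ≤ dedekindPsi N := by
  refine FA24.gen_finrank_le (yF N) _ _ finite_range_jF adjoin_range_jF fun f => ?_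
  obtain ⟨Q, hQ0, hQd, hQ⟩ := exists_relation_y (N := N) f.1 f.2
  obtain ⟨Q', h0, hd, h⟩ := FA24.gen_relation (yF N) transcendental_yF f Q hQ0
    (relation_coe (yF N) f Q hQ)
  exact ⟨Q', h0, hd.trans hQd, h⟩

/-- **S28 (A4)** for `x = j(q)`. -/
theorem finrank_full_x_le (N : ℕ) [NeZero N] :
    FiniteDimensional ℚ⟮xF N⟯ (FQ N) ∧ Module.finrank ℚ⟮xF N⟯ (FQ N) ≤ dedekindPsi N := by
  refine FA24.gen_finrank_le (xF N) _ _ finite_range_jF adjoin_range_jF fun f => ?_
  obtain ⟨Q, hQ0, hQd, hQ⟩ := exists_relation_x (N := N) f.1 f.2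
  rw [eval₂RingHom_C_eq, ← coe_xF (N := N)] at hQ
  obtain ⟨Q', h0, hd, h⟩ := FA24.gen_relation (xF N) transcendental_xF f Q hQ0
    (relation_coe (xF N) f Q hQ)
  exact ⟨Q', h0, hd.trans hQd, h⟩

end FAIg
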