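import Fermat.Agent.Igusa.LemmaB
import Fermat.Agent.Genus.CardCoset

/-!
# S28 (B): the degree bound `[k(j(q^d) : d ∣ N) : k(j(q^N))] ≥ ψ(N)`.
-/

open ModularCurve Polynomial IntermediateField

namespace FAIg

variable {k : Type*} [Field k]

local notation "L" => LaurentSeries k
local notation "jj" => jqModC k

/-- the modular polynomial `Φ(X; j(q^{pm}))` over an intermediate field containing `j(q^{pm})`. -/
lemma ModPoly.exists_over {p : ℕ} {Φ : Polynomial (Polynomial k)} (hΦ : ModPoly p Φ) (hp : 2 ≤ p)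
    {ζ : kˣ} (hζ : IsPrimitiveRoot ζ p) (A : IntermediateField k L) {m : ℕ} (hm : m ≠ 0)
    (hmem : SS k (p * m) jj ∈ A) :
    ∃ ΦA : Polynomial A, ΦA.Monic ∧ ΦA.natDegree = p + 1 ∧
      ΦA.map (algebraMap A L) = ∏ i, (X - C (SS k m (rootFam p ζ i))) := by
  have hp0 : p ≠ 0 := by omega
  let gen : A := ⟨SS k (p * m) jj, hmem⟩
  let evA : Polynomial k →+* A := (aeval gen).toRingHom
  have hev : (algebraMap A L).comp evA = evalAt k (SS k (p * m) jj) := by
    apply Polynomial.ringHom_ext
    · intro a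
      simp only [evA, evalAt, RingHom.comp_apply, AlgHom.toRingHom_eq_coe, RingHom.coe_coe,
        aeval_C, coe_eval₂RingHom, eval₂_C]
      rw [← IsScalarTower.algebraMap_apply, algebraMap_eq_C]
    · simp only [evA, evalAt, RingHom.comp_apply, AlgHom.toRingHom_eq_coe, RingHom.coe_coe,
        aeval_X, coe_eval₂RingHom, eval₂_X]
      rfl
  refine ⟨Φ.map evA, hΦ.monic.map _, by rw [hΦ.monic.natDegree_map, hΦ.deg], ?_⟩
  rw [Polynomial.map_map, hev]
  have := congr_arg (Polynomial.map (SS k m)) (hΦ.factor hp hζ)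
  rw [Polynomial.map_map, SS_comp_evalAt, SS_SS hm hp0, Polynomial.map_prod, mul_comm m p] at this
  rw [this]
  apply Finset.prod_congr rfl
  intro i _
  simp

lemma rootFam_some_zero (p : ℕ) [NeZero p] (ζ : kˣ) :
    rootFam p ζ (some 0) = jj := by
  simp [rootFam, twist_one]

/-- `p ≤ deg` of `j(q^m)` over `E ⊆ k((q^p))`, for `p ∤ m`. -/
lemma le_natDegree_minpoly {p : ℕ} (hp : p.Prime) {Φ : Polynomial (Polynomial k)}
    (hΦ : ModPoly p Φ) {ζ : kˣ} (hζ : IsPrimitiveRoot ζ p) (A : IntermediateField k L)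
    (hA : A ≤ Rg k p) {m : ℕ} (hm : m ≠ 0) (hpm : ¬ p ∣ m) (hmem : SS k (p * m) jj ∈ A) :
    IsIntegral A (SS k m jj) ∧ p ≤ (minpoly A (SS k m jj)).natDegree := by
  have : NeZero p := ⟨hp.ne_zero⟩
  obtain ⟨ΦA, hmon, -, hfac⟩ := hΦ.exists_over hp.two_le hζ A hm hmem
  have hroot : aeval (SS k m jj) ΦA = 0 := by
    rw [aeval_def, ← eval_map, hfac, eval_prod]
    apply Finset.prod_eq_zero (Finset.mem_univ (some 0))
    rw [rootFam_some_zero]
    simp
  have hint : IsIntegral A (SS k m jj) := ⟨ΦA, hmon, hroot⟩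
  refine ⟨hint, ?_⟩
  by_contra hlt
  push Not at hlt
  refine aeval_ne_zero_of_natDegree_lt A p (fun c hc => order_dvd_of_mem_Rg hp.ne_zero (hA hc))
    (SS k m jj) ?_ ?_ (minpoly A (SS k m jj)) (minpoly.ne_zero hint) hlt (minpoly.aeval _ _)
  · intro h0
    exact jj_ne_zero (k := k) (SS_injective m (by rw [h0, map_zero]))
  · rw [order_SS hm, order_jj, mul_neg_one]
    apply IsCoprime.neg_left
    rw [Int.isCoprime_iff_gcd_eq_one, Int.gcd_natCast_natCast]
    exact (Nat.Coprime.symm ((Nat.Prime.coprime_iff_not_dvd hp).mpr hpm))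

/-- `p + 1 ≤ deg` of `j(q^M)` over `E = k(j(q^{pd}) : d ∣ M)`, for `p ∤ M`. -/
lemma succ_le_natDegree_minpoly {p M : ℕ} (hp : p.Prime) (hM : M ≠ 0) (hpM : ¬ p ∣ M)
    (h : Hyp k (p * M)) :
    p + 1 ≤ (minpoly ((KK k M).map (SSa k p)) (SS k M jj)).natDegree := by
  have hp0 := hp.ne_zero
  obtain ⟨Φ, hΦ⟩ := h.modPoly p hp (dvd_mul_right p M)
  obtain ⟨ζ, hζ⟩ := h.prim p hp (dvd_mul_right p M)
  set E := (KK k M).map (SSa k p) with hE
  have hmem : SS k (p * M) jj ∈ E := by
    rw [← SS_SS hp0 hM, hE, mem_map_SSa_iff]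
    exact mem_KK dvd_rfl
  obtain ⟨hint, hle⟩ := le_natDegree_minpoly hp hΦ hζ E (map_le_Rg p _) hM hpM hmem
  obtain ⟨ΦA, hmon, hdeg, hfac⟩ := hΦ.exists_over hp.two_le hζ E hM hmem
  have : NeZero p := ⟨hp0⟩
  have hroot : aeval (SS k M jj) ΦA = 0 := by
    rw [aeval_def, ← eval_map, hfac, eval_prod]
    apply Finset.prod_eq_zero (Finset.mem_univ (some 0))
    rw [rootFam_some_zero]
    simp
  obtain ⟨Q, hQ⟩ := minpoly.dvd E _ hroot
  by_contra hlt
  have hdegm : (minpoly E (SS k M jj)).natDegree = p := by omega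
  have hmm : (minpoly E (SS k M jj)).Monic := minpoly.monic hint
  have hQmon : Q.Monic := by
    rw [hQ] at hmon
    exact hmm.of_mul_monic_left hmon
  have hQdeg : Q.natDegree = 1 := by
    have := congr_arg natDegree hQ
    rw [hmm.natDegree_mul hQmon, hdeg, hdegm] at this
    omega
  -- the root of `Q`
  set c : E := - Q.coeff 0 with hc
  have hQc : Q.eval c = 0 := by
    rw [eval_eq_sum_range, hQdeg, Finset.sum_range_succ, Finset.sum_range_one]
    have : Q.coeff 1 = 1 := by
      have := hQmon.coeff_natDegree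
      rwa [hQdeg] at this
    rw [this, hc]
    ring
  have hcroot : (ΦA.map (algebraMap E L)).eval (c : L) = 0 := by
    rw [eval_map, ← aeval_def]
    change aeval (algebraMap E L c) ΦA = 0
    rw [aeval_algebraMap_apply, hQ, aeval_def, eval₂_mul]
    have : eval₂ (algebraMap E E) c Q = 0 := by
      rw [Algebra.algebraMap_self, eval₂_id]
      exact hQc
    rw [this, mul_zero, map_zero]
  rw [hfac, eval_prod, Finset.prod_eq_zero_iff] at hcroot
  obtain ⟨i, -, hi⟩ := hcroot
  rw [eval_sub, eval_X, eval_C, sub_eq_zero] at hi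
  have hcE : (c : L) ∈ E := c.2
  rw [hi] at hcE
  rcases i with _ | b
  · have h1 : SS k M (rootFam p ζ none) = SS k p (SS k (p * M) jj) := by
      simp only [rootFam]
      rw [SS_SS hM (mul_ne_zero hp0 hp0), SS_SS hp0 (mul_ne_zero hp0 hM)]
      congr 2
      ring
    rw [h1, hE, mem_map_SSa_iff] at hcE
    exact lemmaB hp hM hpM h hcE
  · refine not_mem_Rg hp0 (m := (M : ℤ) * (-1)) ?_ ?_ (map_le_Rg p _ hcE)
    · rw [coeff_SS_mul hM]
      simp only [rootFam]
      rw [coeff_twist_jj]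
      exact Units.ne_zero _
    · rw [mul_neg_one, dvd_neg, Int.natCast_dvd_natCast]
      exact hpM

/-- the inductive step. -/
lemma relrank_step {p M : ℕ} (hp : p.Prime) (hM : M ≠ 0) (h : Hyp k (p * M)) :
    ((if p ∣ M then p else p + 1 : ℕ) : Cardinal) * relrank (YY k M) (KK k M) ≤
      relrank (YY k (p * M)) (KK k (p * M)) := by
  have hp0 := hp.ne_zero
  set E := (KK k M).map (SSa k p) with hE
  have h1 : YY k (p * M) ≤ E := by
    rw [← YY_map hp0 hM, hE]
    exact IntermediateField.map_mono _ (YY_le_KK M)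
  have h2 : E ≤ KK k (p * M) := KK_map_le hp0 hM
  rw [← relrank_mul_relrank h1 h2, ← YY_map hp0 hM, hE, relrank_map_map, mul_comm]
  refine mul_le_mul' le_rfl ?_
  split_ifs with hpM
  · obtain ⟨Φ, hΦ⟩ := h.modPoly p hp (dvd_mul_right p M)
    obtain ⟨ζ, hζ⟩ := h.prim p hp (dvd_mul_right p M)
    have hmem : SS k (p * 1) jj ∈ E := by
      rw [← SS_SS hp0 one_ne_zero, hE, mem_map_SSa_iff]
      exact mem_KK (one_dvd _)
    have := (le_natDegree_minpoly hp hΦ hζ E (map_le_Rg p _) one_ne_zero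
      (by simpa using hp.one_lt.ne') hmem).2
    exact le_relrank_of_le_natDegree_minpoly h2 (mem_KK (one_dvd _)) this
  · exact le_relrank_of_le_natDegree_minpoly h2 (mem_KK (dvd_mul_left M p))
      (succ_le_natDegree_minpoly hp hM hpM h)

/-- **the degree bound** `ψ(N) ≤ [k(j(q^d) : d ∣ N) : k(j(q^N))]`. -/
theorem dedekindPsi_le_relrank (N : ℕ) (hN : N ≠ 0) (h : Hyp k N) :
    (dedekindPsi N : Cardinal) ≤ relrank (YY k N) (KK k N) := by
  induction N using Nat.strong_induction_on with
  | _ N ih =>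
    by_cases hN1 : N = 1
    · subst hN1
      rw [dedekindPsi_one, Nat.cast_one]
      rw [relrank_eq_rank_of_le (YY_le_KK 1)]
      exact Cardinal.one_le_iff_ne_zero.mpr rank_pos.ne'
    · have hp := Nat.minFac_prime hN1
      obtain ⟨M, hM⟩ := Nat.minFac_dvd N
      set p := N.minFac with hpdef
      have hM0 : M ≠ 0 := by
        rintro rfl
        exact hN (by simpa using hM)
      have hlt : M < N := by
        calc M = 1 * M := (one_mul _).symm
          _ < p * M := Nat.mul_lt_mul_of_pos_right hp.one_lt (Nat.pos_of_ne_zero hM0)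
          _ = N := hM.symm
      have ihM := ih M hlt hM0 (h.of_dvd ⟨p, by rw [hM, mul_comm]⟩)
      have hstep := relrank_step hp hM0 (hM ▸ h)
      rw [← hM] at hstep
      refine le_trans ?_ hstep
      have hψ : dedekindPsi N = (if p ∣ M then p else p + 1) * dedekindPsi M := by
        rw [hM, mul_comm p M]
        split_ifs with hpM
        · exact FAGenus.dedekindPsi_mul_of_dvd M p hM0 hp hpM
        · exact FAGenus.dedekindPsi_mul_of_not_dvd M p hM0 hp hpM
      rw [hψ, Nat.cast_mul]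
      exact mul_le_mul' le_rfl ihM

/-- transitivity of integrality in the form we need. -/
lemma isIntegral_step (A : IntermediateField k L) {y x : L} (hy : IsIntegral A y)
    (hx : ∀ B : IntermediateField k L, y ∈ B → IsIntegral B x) : IsIntegral A x := by
  let A' : IntermediateField A L := A⟮y⟯
  have : Algebra.IsIntegral A A' := (isAlgebraic_adjoin_simple hy).isIntegral
  have h1 : IsIntegral (restrictScalars k A') x := hx _ (mem_adjoin_simple_self A y)
  have h2 : IsIntegral A' x := h1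
  exact isIntegral_trans x h2

/-- every `j(q^d)`, `d ∣ N`, is integral over `k(j(q^N))`. -/
lemma isIntegral_YY {N : ℕ} (hN : N ≠ 0) (h : Hyp k N) :
    ∀ d, d ∣ N → IsIntegral (YY k N) (SS k d jj) := by
  apply chain_induction hN
  · exact isIntegral_algebraMap (x := (⟨SS k N jj, mem_YY N⟩ : YY k N))
  · intro d p hp hdp hP
    have hd0 : d ≠ 0 := by
      rintro rfl
      exact hN (by simpa using hdp)
    have hpN : p ∣ N := (dvd_mul_left p d).trans hdp
    obtain ⟨Φ, hΦ⟩ := h.modPoly p hp hpN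
    obtain ⟨ζ, hζ⟩ := h.prim p hp hpN
    have : NeZero p := ⟨hp.ne_zero⟩
    refine isIntegral_step _ hP fun B hB => ?_
    rw [mul_comm] at hB
    obtain ⟨ΦA, hmon, -, hfac⟩ := hΦ.exists_over hp.two_le hζ B hd0 hB
    refine ⟨ΦA, hmon, ?_⟩
    rw [← eval_map, hfac, eval_prod]
    apply Finset.prod_eq_zero (Finset.mem_univ (some 0))
    rw [rootFam_some_zero]
    simp

/-- the `ℤ`-algebra generated by the `j(q^d)`, `d ∣ N`, as a set. -/
def TT (k : Type*) [Field k] (N : ℕ) : Set (LaurentSeries k) :=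
  (fun P : MvPolynomial ℕ ℤ => MvPolynomial.aeval (jdT k) P) ''
    (MvPolynomial.supported ℤ (↑N.divisors : Set ℕ) : Set (MvPolynomial ℕ ℤ))

lemma KK_le_span {N : ℕ} (hN : N ≠ 0) (h : Hyp k N) {x : L} (hx : x ∈ KK k N) :
    x ∈ Submodule.span (YY k N) (TT k N) := by
  set S : Set L := (fun d => SS k d jj) '' {d | d ∣ N} with hS
  have h1 : KK k N ≤ restrictScalars k (adjoin (YY k N) S) := by
    rw [KK, adjoin_le_iff]
    intro y hy
    exact subset_adjoin (YY k N) S hy
  have h2 : x ∈ (adjoin (YY k N) S).toSubalgebra := h1 hx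
  rw [adjoin_toSubalgebra_of_isAlgebraic, ← Subalgebra.mem_toSubmodule, Algebra.adjoin_eq_span]
    at h2
  · refine Submodule.span_mono ?_ h2
    let T' : Submonoid L :=
      ((MvPolynomial.supported ℤ (↑N.divisors : Set ℕ)).map
        (MvPolynomial.aeval (jdT k))).toSubsemiring.toSubmonoid
    have hT' : (T' : Set L) = TT k N := rfl
    rw [← hT']
    change Submonoid.closure S ≤ T'
    rw [Submonoid.closure_le]
    rintro y ⟨d, hd, rfl⟩
    have hd0 : d ≠ 0 := by
      rintro rfl
      exact hN (by simpa using hd)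
    refine ⟨MvPolynomial.X d, ?_, ?_⟩
    · apply MvPolynomial.X_mem_supported.mpr
      simpa using ⟨hd, hN⟩
    · change MvPolynomial.aeval (jdT k) (MvPolynomial.X d) = _
      rw [MvPolynomial.aeval_X, jdT_eq_SS hd0]
  · rintro y ⟨d, hd, rfl⟩
    exact (isIntegral_YY hN h d hd).isAlgebraic

/-- `ψ(N)` elements of `ℤ[j(q^d) : d ∣ N]` which are linearly independent over `k(j(q^N))`. -/
theorem exists_linearIndependent_of_hyp {N : ℕ} (hN : N ≠ 0) (h : Hyp k N) :
    ∃ b : Fin (dedekindPsi N) → MvPolynomial ℕ ℤ,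
      (∀ i, b i ∈ MvPolynomial.supported ℤ (↑N.divisors : Set ℕ)) ∧
      LinearIndependent (YY k N) (fun i => MvPolynomial.aeval (jdT k) (b i)) := by
  obtain ⟨B, hBT, hspan, hli⟩ := exists_linearIndependent (YY k N) (TT k N)
  have h1 : (dedekindPsi N : Cardinal) ≤ Cardinal.mk B := by
    rw [← rank_span_set hli, hspan]
    refine (dedekindPsi_le_relrank N hN h).trans ?_
    rw [relrank_eq_rank_of_le (YY_le_KK N)]
    have hle : (extendScalars (YY_le_KK (k := k) N)).toSubalgebra.toSubmodule ≤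
        Submodule.span (YY k N) (TT k N) := fun x hx => KK_le_span hN h hx
    exact Submodule.rank_mono hle
  have h2 : Nonempty (Fin (dedekindPsi N) ↪ B) := by
    rw [← Cardinal.lift_mk_le']
    simpa using h1
  obtain ⟨e⟩ := h2
  have h3 : ∀ i, ∃ P ∈ MvPolynomial.supported ℤ (↑N.divisors : Set ℕ),
      MvPolynomial.aeval (jdT k) P = ((e i : B) : L) := fun i => hBT (e i).2
  choose b hb1 hb2 using h3
  refine ⟨b, hb1, ?_⟩
  have h4 := hli.comp e e.injective
  have h5 : (fun i => MvPolynomial.aeval (jdT k) (b i)) = Subtype.val ∘ e := by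
    ext1 i
    exact hb2 i
  rw [h5]
  exact h4

section descent

variable {k₀ : Type*} [Field k₀] (f : k₀ →+* k)

lemma coeffMap_inj_field : Function.Injective (coeffMap f) := by
  intro x y hxy
  ext n
  have := congr_arg (fun z => HahnSeries.coeff z n) hxy
  exact f.injective this

lemma coeffMap_jdT (d : ℕ) : coeffMap f (jdT k₀ d) = jdT k d := by
  by_cases hd : d = 0
  · simp [jdT, hd]
  · have : NeZero d := ⟨hd⟩
    rw [jdT_eq, jdT_eq, coeffMap_qExpand, coeffMap_jqModC]

lemma coeffMap_aeval_jdT (P : MvPolynomial ℕ ℤ) :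
    coeffMap f (MvPolynomial.aeval (jdT k₀) P) = MvPolynomial.aeval (jdT k) P := by
  induction P using MvPolynomial.induction_on with
  | C a => simp
  | add p q hp hq => rw [map_add, map_add, map_add, hp, hq]
  | mul_X p n hp => rw [map_mul, map_mul, map_mul, hp, MvPolynomial.aeval_X, MvPolynomial.aeval_X,
      coeffMap_jdT]

lemma coeffMap_mem_YY {N : ℕ} [NeZero N] {c : LaurentSeries k₀}
    (hc : c ∈ adjoin k₀ {jqNModC k₀ N}) : coeffMap f c ∈ YY k N := by
  induction hc using adjoin_induction with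
  | mem x hx =>
    rw [Set.mem_singleton_iff] at hx
    rw [hx, coeffMap_jqNModC, jqNModC, ← SS_eq]
    exact mem_YY N
  | algebraMap c =>
    rw [algebraMap_eq_C, HahnSeries.C_apply, coeffMap_single, ← HahnSeries.C_apply,
      ← algebraMap_eq_C]
    exact (YY k N).algebraMap_mem _
  | add x y _ _ hx hy => rw [map_add]; exact add_mem hx hy
  | inv x _ hx => rw [map_inv₀]; exact inv_mem hx
  | mul x y _ _ hx hy => rw [map_mul]; exact mul_mem hx hy

include f in
/-- descent of linear independence along a field extension of the coefficients. -/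
theorem linearIndependent_descent {N : ℕ} [NeZero N] {n : ℕ} (b : Fin n → MvPolynomial ℕ ℤ)
    (h : LinearIndependent (YY k N) (fun i => MvPolynomial.aeval (jdT k) (b i))) :
    LinearIndependent ↥(adjoin k₀ {jqNModC k₀ N})
      (fun i => MvPolynomial.aeval (jdT k₀) (b i)) := by
  rw [Fintype.linearIndependent_iff] at h ⊢
  intro g hg i
  have h1 := congr_arg (coeffMap f) hg
  rw [map_sum, map_zero] at h1
  have h2 := h (fun i => ⟨coeffMap f (g i : LaurentSeries k₀), coeffMap_mem_YY f (g i).2⟩) (by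
    rw [← h1]
    apply Finset.sum_congr rfl
    intro i _
    change coeffMap f (g i : LaurentSeries k₀) * _ = coeffMap f ((g i : LaurentSeries k₀) * _)
    rw [map_mul, coeffMap_aeval_jdT]) i
  have h3 : coeffMap f (g i : LaurentSeries k₀) = 0 := congr_arg Subtype.val h2
  have h4 : (g i : LaurentSeries k₀) = 0 := coeffMap_inj_field f (by rw [h3, map_zero])
  exact Subtype.ext h4

end descent

end FAIg
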