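import Fermat.Agent.X0Genus.Degree
import Fermat.Agent.Genus.CardCoset

/-! S28 (A4), part 1: relations of degree `≤ ψ(N)` over `ℚ[j]` for the rational function field. -/

set_option autoImplicit false

open Polynomial IntermediateField ModularCurve
open scoped MatrixGroups

noncomputable section

namespace FAIg

/-- coefficientwise embedding `ℚ((q)) → ℂ((q))`. -/
abbrev cQ : LaurentSeries ℚ →+* LaurentSeries ℂ := coeffMap (algebraMap ℚ ℂ)

lemma cQ_injective : Function.Injective cQ := cQ.injective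

/-- a `ℚ`-linear functional on `ℂ` with prescribed nonzero value. -/
lemma exists_retractionQ (l : ℂ) (hl : l ≠ 0) :
    ∃ π : ℂ →+ ℚ, (∀ (z : ℂ) (a : ℚ), π (z * (a : ℂ)) = π z * a) ∧ π l = 1 := by
  have hinj : LinearMap.ker (LinearMap.toSpanSingleton ℚ ℂ l) = ⊥ := by
    rw [LinearMap.ker_eq_bot, injective_iff_map_eq_zero]
    intro a ha
    rw [LinearMap.toSpanSingleton_apply] at ha
    rcases smul_eq_zero.mp ha with h | h
    · exact h
    · exact absurd h hl
  obtain ⟨g, hg⟩ := LinearMap.exists_leftInverse_of_injective _ hinj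
  refine ⟨g.toAddMonoidHom, fun z a => ?_, ?_⟩
  · show g (z * (a : ℂ)) = g z * a
    have : z * (a : ℂ) = a • z := by rw [Rat.smul_def, mul_comm]
    rw [this, map_smul, smul_eq_mul, mul_comm]
  · have := congrArg (fun φ : ℚ →ₗ[ℚ] ℚ => φ 1) hg
    simpa [LinearMap.toSpanSingleton_apply] using this

/-- descent of algebraic relations from `ℂ` to `ℚ` -/
lemma descentQ (X₀ Y₀ : LaurentSeries ℚ) (P : ℂ[X][X]) (hP0 : P ≠ 0)
    (hP : P.eval₂ (eval₂RingHom HahnSeries.C (cQ X₀)) (cQ Y₀) = 0) :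
    ∃ Q : ℚ[X][X], Q ≠ 0 ∧ Q.natDegree ≤ P.natDegree ∧
      Q.eval₂ (eval₂RingHom HahnSeries.C X₀) Y₀ = 0 := by
  obtain ⟨i₀, hi₀⟩ : ∃ i, P.coeff i ≠ 0 := by
    by_contra h
    push Not at h
    exact hP0 (Polynomial.ext (by simpa using h))
  obtain ⟨a₀, ha₀⟩ : ∃ a, (P.coeff i₀).coeff a ≠ 0 := by
    by_contra h
    push Not at h
    exact hi₀ (Polynomial.ext (by simpa using h))
  obtain ⟨π, hπ, hπ1⟩ := exists_retractionQ _ ha₀
  refine ⟨FA24.pmap (FA24.pmap π) P, ?_, FA24.natDegree_pmap_le _ _, ?_⟩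
  · intro h
    have := congrArg (fun q : ℚ[X][X] => (q.coeff i₀).coeff a₀) h
    simp only [FA24.coeff_pmap, hπ1, coeff_zero] at this
    exact one_ne_zero this
  · obtain ⟨M, hM⟩ : ∃ M : ℕ, ∀ i, (P.coeff i).natDegree < M := by
      refine ⟨(∑ i ∈ P.support, (P.coeff i).natDegree) + 1, fun i => ?_⟩
      by_cases hi : i ∈ P.support
      · exact Nat.lt_succ_of_le
          (Finset.single_le_sum (f := fun i => (P.coeff i).natDegree) (fun _ _ => Nat.zero_le _) hi)
      · rw [notMem_support_iff.mp hi]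
        simp
    have e1 : ∀ (c : ℕ → ℕ → ℂ), (∑ i ∈ Finset.range (P.natDegree + 1),
        (∑ a ∈ Finset.range M, HahnSeries.C (c i a) * cQ X₀ ^ a) * cQ Y₀ ^ i) =
        ∑ i ∈ Finset.range (P.natDegree + 1), ∑ a ∈ Finset.range M,
          HahnSeries.C (c i a) * cQ (X₀ ^ a * Y₀ ^ i) := by
      intro c
      refine Finset.sum_congr rfl fun i _ => ?_
      rw [Finset.sum_mul]
      refine Finset.sum_congr rfl fun a _ => ?_
      rw [map_mul, map_pow, map_pow, mul_assoc]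
    have e2 : ∀ (c : ℕ → ℕ → ℚ), (∑ i ∈ Finset.range (P.natDegree + 1),
        (∑ a ∈ Finset.range M, HahnSeries.C (c i a) * X₀ ^ a) * Y₀ ^ i) =
        ∑ i ∈ Finset.range (P.natDegree + 1), ∑ a ∈ Finset.range M,
          HahnSeries.C (c i a) * (X₀ ^ a * Y₀ ^ i) := by
      intro c
      refine Finset.sum_congr rfl fun i _ => ?_
      rw [Finset.sum_mul]
      refine Finset.sum_congr rfl fun a _ => ?_
      rw [mul_assoc]
    rw [eval₂_eq_sum_range' _ (Nat.lt_succ_self _)] at hP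
    simp only [coe_eval₂RingHom] at hP
    simp only [eval₂_eq_sum_range' _ (hM _)] at hP
    rw [e1 fun i a => (P.coeff i).coeff a] at hP
    rw [eval₂_eq_sum_range' _ (Nat.lt_succ_of_le (FA24.natDegree_pmap_le _ _))]
    simp only [coe_eval₂RingHom]
    simp only [FA24.coeff_pmap,
      eval₂_eq_sum_range' _ (lt_of_le_of_lt (FA24.natDegree_pmap_le _ _) (hM _))]
    rw [e2 fun i a => π ((P.coeff i).coeff a)]
    ext n
    have h3 := congrArg (fun s : LaurentSeries ℂ => π (s.coeff n)) hP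
    simp only [HahnSeries.coeff_sum, HahnSeries.coeff_zero, map_zero, map_sum,
      HahnSeries.C_mul_eq_smul, HahnSeries.coeff_smul, smul_eq_mul] at h3 ⊢
    rw [← h3]
    refine Finset.sum_congr rfl fun i _ => Finset.sum_congr rfl fun a _ => ?_
    exact (hπ _ _).symm

variable {N : ℕ} [NeZero N]

/-- the rational function field inside the geometric one -/
def embBar (f : ↥(modularFunctionFieldFull N)) : FA24.FN N :=
  ⟨coeffEmb FA24.Kb f.1, coeffEmb_mem_laurentBaseChange _ f.2⟩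

/-- relation of degree `≤ ψ(N)` over `ℚ[j]`. -/
theorem exists_relation_x (f : LaurentSeries ℚ) (hf : f ∈ modularFunctionFieldFull N) :
    ∃ Q : ℚ[X][X], Q ≠ 0 ∧ Q.natDegree ≤ dedekindPsi N ∧
      Q.eval₂ (eval₂RingHom HahnSeries.C jq) f = 0 := by
  obtain ⟨P, hP0, hPd, hP⟩ := FA24.exists_relation_lau (embBar ⟨f, hf⟩)
  rw [FA24.xN_val, FA24.cm_coeffEmb] at hP
  have h2 : FA24.cm (embBar ⟨f, hf⟩).1 = cQ f := FA24.cm_coeffEmb f
  rw [h2] at hP
  obtain ⟨Q, hQ0, hQd, hQ⟩ := descentQ _ _ P hP0 hP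
  refine ⟨Q, hQ0, hQd.trans (hPd.trans ?_), hQ⟩
  rw [← FAGenus.card_coset N, Nat.card_eq_fintype_card]

end FAIg
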