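import Fermat.Agent.Igusa.Series

/-!
# S28 (B1): the substitution `q ↦ q^n` as a total function, and the formal factorisation of the
modular equation of prime level.
-/

open ModularCurve Polynomial

namespace FAIg

section SS

variable (R : Type*) [CommRing R]

/-- total version of `qExpand` (junk value `id` at `0`). -/
noncomputable def SS (n : ℕ) : LaurentSeries R →+* LaurentSeries R :=
  if h : n = 0 then RingHom.id _ else @qExpand R _ n ⟨h⟩

lemma SS_eq (n : ℕ) [NeZero n] : SS R n = qExpand R n := by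
  rw [SS, dif_neg (NeZero.ne n)]

variable {R}

lemma SS_SS {m n : ℕ} (hm : m ≠ 0) (hn : n ≠ 0) (x : LaurentSeries R) :
    SS R m (SS R n x) = SS R (m * n) x := by
  have : NeZero m := ⟨hm⟩
  have : NeZero n := ⟨hn⟩
  rw [SS_eq, SS_eq, SS_eq, qExpand_qExpand]

lemma SS_one (x : LaurentSeries R) : SS R 1 x = x := by
  rw [SS_eq, qExpand_one_apply]

lemma SS_C (n : ℕ) (r : R) : SS R n (HahnSeries.C r) = HahnSeries.C r := by
  by_cases hn : n = 0
  · rw [SS, dif_pos hn]; rfl
  · haveI : NeZero n := ⟨hn⟩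
    rw [SS_eq, qExpand_C]

lemma SS_injective (n : ℕ) : Function.Injective (SS R n) := by
  by_cases hn : n = 0
  · rw [SS, dif_pos hn]; exact fun _ _ h => h
  · haveI : NeZero n := ⟨hn⟩
    rw [SS_eq]; exact qExpand_injective n

lemma coeff_SS_mul {n : ℕ} (hn : n ≠ 0) (x : LaurentSeries R) (c : ℤ) :
    (SS R n x).coeff ((n : ℤ) * c) = x.coeff c := by
  have : NeZero n := ⟨hn⟩
  rw [SS_eq, qExpand_coeff_mul]

lemma coeff_SS_of_not_dvd {n : ℕ} (hn : n ≠ 0) (x : LaurentSeries R) {m : ℤ}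
    (h : ¬ (n : ℤ) ∣ m) : (SS R n x).coeff m = 0 := by
  have : NeZero n := ⟨hn⟩
  rw [SS_eq, qExpand_coeff_of_not_dvd n _ h]

lemma twist_SS (ξ : Rˣ) {n : ℕ} (hn : n ≠ 0) (x : LaurentSeries R) :
    twist ξ (SS R n x) = SS R n (twist (ξ ^ n) x) := by
  have : NeZero n := ⟨hn⟩
  rw [SS_eq, twist_qExpand]

lemma jdT_eq_SS {d : ℕ} (hd : d ≠ 0) : jdT R d = SS R d (jqModC R) := by
  have : NeZero d := ⟨hd⟩
  rw [jdT_eq, SS_eq]

lemma comp_evalAt {S' : Type*} [CommRing S'] (φ : LaurentSeries R →+* S') (u : LaurentSeries R) :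
    φ.comp (evalAt R u) = Polynomial.eval₂RingHom (φ.comp HahnSeries.C) (φ u) := by
  apply Polynomial.ringHom_ext
  · intro a
    simp [evalAt]
  · simp [evalAt]

lemma SS_comp_evalAt (n : ℕ) (u : LaurentSeries R) :
    (SS R n).comp (evalAt R u) = evalAt R (SS R n u) := by
  rw [comp_evalAt, evalAt]
  congr 1
  ext r : 1
  exact SS_C n r

lemma twist_comp_evalAt (ξ : Rˣ) (u : LaurentSeries R) :
    (twist ξ).comp (evalAt R u) = evalAt R (twist ξ u) := by
  rw [comp_evalAt, evalAt]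
  congr 1
  ext r : 1
  exact twist_C ξ r

end SS

section factor

variable {k : Type*} [Field k]

local notation "jj" => jqModC k

/-- the modular equation of level `p` over the field `k`. -/
structure ModPoly (p : ℕ) (Φ : Polynomial (Polynomial k)) : Prop where
  monic : Φ.Monic
  deg : Φ.natDegree = p + 1
  root1 : Φ.eval₂ (evalAt k jj) (SS k p jj) = 0
  root2 : Φ.eval₂ (evalAt k (SS k p jj)) jj = 0

lemma HasModPoly.exists_modPoly {p : ℕ} [NeZero p] (h : HasModPoly k p) :
    ∃ Φ : Polynomial (Polynomial k), ModPoly p Φ := by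
  obtain ⟨Φ, h1, h2, h3, h4⟩ := h
  exact ⟨Φ, h1, h2, by rw [SS_eq]; exact h3, by rw [SS_eq]; exact h4⟩

lemma coeff_twist_jj (ξ : kˣ) : (twist ξ jj).coeff (-1) = ((ξ⁻¹ : kˣ) : k) := by
  rw [coeff_twist, coeff_jqModC_neg_one, mul_one, zpow_neg_one]

variable {p : ℕ} {Φ : Polynomial (Polynomial k)}

/-- the `p + 1` roots. -/
noncomputable def rootFam (p : ℕ) (ζ : kˣ) : Option (Fin p) → LaurentSeries k
  | none => SS k (p * p) jj
  | some b => twist (ζ ^ (b : ℕ)) jj

lemma rootFam_injective (hp : 2 ≤ p) {ζ : kˣ} (hζ : IsPrimitiveRoot ζ p) :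
    Function.Injective (rootFam p ζ) := by
  have hpp : p * p ≠ 0 := by positivity
  have hnone : (rootFam p ζ none).coeff (-1) = 0 := by
    apply coeff_SS_of_not_dvd hpp
    intro h
    have h1 : ((p * p : ℕ) : ℤ) ∣ 1 := by simpa using h
    have h2 : p * p ∣ 1 := by exact_mod_cast h1
    have h3 := Nat.le_of_dvd one_pos h2
    nlinarith
  have hsome : ∀ b : Fin p, (rootFam p ζ (some b)).coeff (-1) = (((ζ ^ (b : ℕ))⁻¹ : kˣ) : k) :=
    fun b => coeff_twist_jj _
  intro a b hab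
  have hc := congr_arg (fun x => HahnSeries.coeff x (-1)) hab
  beta_reduce at hc
  rcases a with _ | a <;> rcases b with _ | b
  · rfl
  · rw [hnone, hsome] at hc
    exact absurd hc.symm (Units.ne_zero _)
  · rw [hnone, hsome] at hc
    exact absurd hc (Units.ne_zero _)
  · rw [hsome, hsome] at hc
    have h1 : ζ ^ (a : ℕ) = ζ ^ (b : ℕ) := inv_injective (Units.ext hc)
    have h2 := hζ.pow_inj a.2 b.2 h1
    rw [Fin.ext h2]

lemma ModPoly.rootFam_isRoot (h : ModPoly p Φ) (hp : p ≠ 0) {ζ : kˣ} (hζ : ζ ^ p = 1)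
    (i : Option (Fin p)) : (Φ.map (evalAt k (SS k p jj))).IsRoot (rootFam p ζ i) := by
  rw [IsRoot.def, eval_map]
  rcases i with _ | b
  · have := congr_arg (SS k p) h.root1
    rw [hom_eval₂, SS_comp_evalAt, SS_SS hp hp, map_zero] at this
    exact this
  · have := congr_arg (twist (ζ ^ (b : ℕ))) h.root2
    rw [hom_eval₂, twist_comp_evalAt, twist_SS _ hp, ← pow_mul, mul_comm, pow_mul, hζ, one_pow,
      twist_one, map_zero] at this
    exact this

theorem ModPoly.factor (h : ModPoly p Φ) (hp : 2 ≤ p) {ζ : kˣ} (hζ : IsPrimitiveRoot ζ p) :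
    Φ.map (evalAt k (SS k p jj)) = ∏ i : Option (Fin p), (X - C (rootFam p ζ i)) := by
  have hp0 : p ≠ 0 := by omega
  have hmon : (Φ.map (evalAt k (SS k p jj))).Monic := h.monic.map _
  have hdeg : (Φ.map (evalAt k (SS k p jj))).natDegree = p + 1 := by
    rw [h.monic.natDegree_map, h.deg]
  have hQmon : (∏ i : Option (Fin p), (X - C (rootFam p ζ i))).Monic :=
    monic_prod_of_monic _ _ fun i _ => monic_X_sub_C _
  have hQdeg : (∏ i : Option (Fin p), (X - C (rootFam p ζ i))).natDegree = p + 1 := by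
    rw [natDegree_prod_of_monic _ _ fun i _ => monic_X_sub_C _]
    simp
  have hdvd : (∏ i : Option (Fin p), (X - C (rootFam p ζ i))) ∣ Φ.map (evalAt k (SS k p jj)) := by
    apply Finset.prod_dvd_of_coprime
    · intro i _ j _ hij
      exact pairwise_coprime_X_sub_C (rootFam_injective hp hζ) hij
    · intro i _
      exact dvd_iff_isRoot.mpr (h.rootFam_isRoot hp0 hζ.pow_eq_one i)
  exact eq_of_monic_of_dvd_of_natDegree_le hQmon hmon hdvd (by rw [hdeg, hQdeg])

/-- all roots of `Φ(X; φ(j(q^p)))` in a domain. -/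
theorem ModPoly.root_cases (h : ModPoly p Φ) (hp : 2 ≤ p) {ζ : kˣ} (hζ : IsPrimitiveRoot ζ p)
    {Ω : Type*} [CommRing Ω] [IsDomain Ω] (φ : LaurentSeries k →+* Ω) (x : Ω)
    (hx : Φ.eval₂ (φ.comp (evalAt k (SS k p jj))) x = 0) :
    ∃ i : Option (Fin p), x = φ (rootFam p ζ i) := by
  have h1 := congr_arg (Polynomial.map φ) (h.factor hp hζ)
  rw [Polynomial.map_map, Polynomial.map_prod] at h1
  have h2 := congr_arg (Polynomial.eval x) h1
  rw [eval_map, hx, eval_prod] at h2
  obtain ⟨i, _, hi⟩ := Finset.prod_eq_zero_iff.mp h2.symm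
  refine ⟨i, ?_⟩
  simp only [Polynomial.map_sub, map_X, map_C, eval_sub, eval_X, eval_C] at hi
  exact sub_eq_zero.mp hi

end factor

end FAIg
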