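import Fermat.Agent.Igusa.FactorB

/-!
# S28 (B): orders of Laurent series, the fields `k(j(q^d) : d ∣ M)`, and degree lower bounds.
-/

open ModularCurve Polynomial IntermediateField

namespace FAIg

section order

variable {k : Type*} [Field k]

lemma order_eq_of_coeff' {x : LaurentSeries k} {n : ℤ} (h1 : x.coeff n ≠ 0)
    (h2 : ∀ m < n, x.coeff m = 0) : x.order = n := by
  have hx : x ≠ 0 := by
    rintro rfl
    simp at h1
  apply le_antisymm (HahnSeries.order_le_of_coeff_ne_zero h1)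
  rw [HahnSeries.le_order_iff_forall hx]
  exact h2

lemma order_SS {n : ℕ} (hn : n ≠ 0) (x : LaurentSeries k) :
    (SS k n x).order = (n : ℤ) * x.order := by
  by_cases hx : x = 0
  · simp [hx]
  apply order_eq_of_coeff'
  · rw [coeff_SS_mul hn]
    exact fun h => hx (HahnSeries.coeff_order_eq_zero.mp h)
  · intro m hm
    by_cases hd : (n : ℤ) ∣ m
    · obtain ⟨c, rfl⟩ := hd
      rw [coeff_SS_mul hn]
      apply HahnSeries.coeff_eq_zero_of_lt_order
      have hn' : (0 : ℤ) < n := by exact_mod_cast Nat.pos_of_ne_zero hn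
      exact lt_of_mul_lt_mul_left hm hn'.le
    · exact coeff_SS_of_not_dvd hn x hd

lemma order_twist (ξ : kˣ) (x : LaurentSeries k) : (twist ξ x).order = x.order := by
  by_cases hx : x = 0
  · simp [hx]
  apply order_eq_of_coeff'
  · rw [coeff_twist]
    exact mul_ne_zero (Units.ne_zero _) fun h => hx (HahnSeries.coeff_order_eq_zero.mp h)
  · intro m hm
    rw [coeff_twist, HahnSeries.coeff_eq_zero_of_lt_order hm, mul_zero]

lemma order_jj : (jqModC k).order = -1 := by
  apply order_eq_of_coeff'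
  · rw [coeff_jqModC_neg_one]; exact one_ne_zero
  · intro m hm
    exact coeff_jqModC_of_lt k hm

lemma jj_ne_zero : jqModC k ≠ 0 := jqModC_ne_zero_of_nontrivial k

/-- a sum of series whose nonzero terms have pairwise distinct orders is nonzero. -/
lemma sum_ne_zero_of_order_injOn {ι : Type*} (s : Finset ι) (f : ι → LaurentSeries k)
    (hne : ∃ i ∈ s, f i ≠ 0)
    (hinj : ∀ i ∈ s, ∀ i' ∈ s, f i ≠ 0 → f i' ≠ 0 → (f i).order = (f i').order → i = i') :
    ∑ i ∈ s, f i ≠ 0 := by
  classical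
  obtain ⟨i1, hi1, hi1'⟩ := hne
  have hne' : (s.filter fun i => f i ≠ 0).Nonempty := ⟨i1, Finset.mem_filter.mpr ⟨hi1, hi1'⟩⟩
  obtain ⟨i0, hi0, hmin⟩ := Finset.exists_min_image _ (fun i => (f i).order) hne'
  rw [Finset.mem_filter] at hi0
  intro hsum
  have h1 := congr_arg (fun x => HahnSeries.coeff x (f i0).order) hsum
  beta_reduce at h1
  rw [HahnSeries.coeff_sum, Finset.sum_eq_single i0, HahnSeries.coeff_zero] at h1
  · exact hi0.2 (HahnSeries.coeff_order_eq_zero.mp h1)
  · intro i hi hne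
    by_cases hfi : f i = 0
    · rw [hfi, HahnSeries.coeff_zero]
    · apply HahnSeries.coeff_eq_zero_of_lt_order
      have h2 := hmin i (Finset.mem_filter.mpr ⟨hi, hfi⟩)
      rcases lt_or_eq_of_le h2 with h3 | h3
      · exact h3
      · exact absurd (hinj i0 hi0.1 i hi hi0.2 hfi h3).symm hne
  · intro h
    exact absurd hi0.1 h

/-- If all orders of elements of `A` are divisible by `p` and the order of `u` is prime to `p`,
then `u` satisfies no nontrivial equation of degree `< p` over `A`. -/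
lemma aeval_ne_zero_of_natDegree_lt (A : IntermediateField k (LaurentSeries k)) (p : ℕ)
    (hA : ∀ c ∈ A, (p : ℤ) ∣ HahnSeries.order c) (u : LaurentSeries k) (hu0 : u ≠ 0)
    (hu : IsCoprime u.order (p : ℤ)) (P : Polynomial A) (hP : P ≠ 0) (hdeg : P.natDegree < p) :
    aeval u P ≠ 0 := by
  rw [aeval_eq_sum_range' hdeg]
  have hterm : ∀ i, P.coeff i ≠ 0 → (P.coeff i • u ^ i) ≠ 0 ∧
      (P.coeff i • u ^ i).order = ((P.coeff i : A) : LaurentSeries k).order + i * u.order := by
    intro i hi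
    have h1 : ((P.coeff i : A) : LaurentSeries k) ≠ 0 := by
      simpa using hi
    have h2 : P.coeff i • u ^ i = ((P.coeff i : A) : LaurentSeries k) * u ^ i := rfl
    rw [h2]
    refine ⟨mul_ne_zero h1 (pow_ne_zero _ hu0), ?_⟩
    rw [HahnSeries.order_mul h1 (pow_ne_zero _ hu0), HahnSeries.order_pow]
    simp
  apply sum_ne_zero_of_order_injOn
  · obtain ⟨i, hi⟩ : ∃ i, P.coeff i ≠ 0 := by
      by_contra hcon
      push Not at hcon
      exact hP (Polynomial.ext (by simpa using hcon))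
    refine ⟨i, ?_, (hterm i hi).1⟩
    rw [Finset.mem_range]
    exact lt_of_le_of_lt (le_natDegree_of_ne_zero hi) hdeg
  · intro i hi i' hi' h1 h2 h3
    have hc : P.coeff i ≠ 0 := by
      intro h; apply h1; rw [h, zero_smul]
    have hc' : P.coeff i' ≠ 0 := by
      intro h; apply h2; rw [h, zero_smul]
    rw [(hterm i hc).2, (hterm i' hc').2] at h3
    obtain ⟨a, ha⟩ := hA _ (P.coeff i).2
    obtain ⟨a', ha'⟩ := hA _ (P.coeff i').2
    rw [ha, ha'] at h3
    have h4 : (p : ℤ) ∣ ((i : ℤ) - i') * u.order := ⟨a' - a, by linarith⟩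
    have h5 : (p : ℤ) ∣ (i : ℤ) - i' := hu.symm.dvd_of_dvd_mul_right h4
    rw [Finset.mem_range] at hi hi'
    obtain ⟨c, hc⟩ := h5
    have hp : (0 : ℤ) < p := by omega
    have : c = 0 := by
      by_contra hc0
      rcases lt_or_gt_of_ne hc0 with h | h
      · have : (p : ℤ) * c ≤ -p := by nlinarith
        omega
      · have : (p : ℤ) ≤ p * c := by nlinarith
        omega
    rw [this, mul_zero] at hc
    omega

end order

section fields

variable (k : Type*) [Field k]

local notation "L" => LaurentSeries k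
local notation "jj" => jqModC k

lemma algebraMap_eq_C (c : k) : algebraMap k L c = HahnSeries.C c := by
  rw [algebraMap_laurentSeries_eq_single]
  rfl

/-- `q ↦ q^n` as a `k`-algebra homomorphism. -/
noncomputable def SSa (n : ℕ) : L →ₐ[k] L :=
  { SS k n with
    commutes' := fun c => by
      change SS k n (algebraMap k L c) = algebraMap k L c
      rw [algebraMap_eq_C, SS_C] }

@[simp] lemma SSa_apply (n : ℕ) (x : L) : SSa k n x = SS k n x := rfl

/-- `k(j(q^d) : d ∣ M)`. -/
noncomputable def KK (M : ℕ) : IntermediateField k L :=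
  adjoin k ((fun d => SS k d jj) '' {d | d ∣ M})

/-- `k(j(q^M))`. -/
noncomputable def YY (M : ℕ) : IntermediateField k L := adjoin k {SS k M jj}

/-- `k((q^p))`. -/
noncomputable def Rg (p : ℕ) : IntermediateField k L := (SSa k p).fieldRange

lemma KK_eq (M : ℕ) [NeZero M] : KK k M = modularFunctionFieldFullC k M := by
  unfold KK modularFunctionFieldFullC
  congr 1
  ext x
  constructor
  · rintro ⟨d, hd, rfl⟩
    have hd0 : d ≠ 0 := fun h => NeZero.ne M (by simpa [h] using hd)
    exact ⟨d, ⟨hd0⟩, hd, by have : NeZero d := ⟨hd0⟩; simp only [SS_eq]⟩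
  · rintro ⟨d, hd0, hd, rfl⟩
    exact ⟨d, hd, by simp only [SS_eq]⟩

variable {k}

lemma mem_KK {d M : ℕ} (h : d ∣ M) : SS k d jj ∈ KK k M :=
  subset_adjoin k _ ⟨d, h, rfl⟩

lemma mem_YY (M : ℕ) : SS k M jj ∈ YY k M := mem_adjoin_simple_self k _

lemma YY_le_KK (M : ℕ) : YY k M ≤ KK k M := by
  rw [YY, adjoin_simple_le_iff]
  exact mem_KK dvd_rfl

lemma KK_map {p M : ℕ} (hp : p ≠ 0) (hM : M ≠ 0) :
    (KK k M).map (SSa k p) = adjoin k ((fun d => SS k (p * d) jj) '' {d | d ∣ M}) := by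
  rw [KK, adjoin_map, Set.image_image]
  congr 1
  apply Set.image_congr
  intro d hd
  have hd0 : d ≠ 0 := fun h => hM (by simpa [h] using hd)
  rw [SSa_apply, SS_SS hp hd0]

lemma KK_map_le {p M : ℕ} (hp : p ≠ 0) (hM : M ≠ 0) :
    (KK k M).map (SSa k p) ≤ KK k (p * M) := by
  rw [KK_map hp hM, adjoin_le_iff]
  rintro x ⟨d, hd, rfl⟩
  exact mem_KK (Nat.mul_dvd_mul_left p hd)

lemma YY_map {p M : ℕ} (hp : p ≠ 0) (hM : M ≠ 0) :
    (YY k M).map (SSa k p) = YY k (p * M) := by
  rw [YY, adjoin_map, Set.image_singleton, SSa_apply, SS_SS hp hM, YY]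

lemma map_le_Rg (p : ℕ) (A : IntermediateField k L) : A.map (SSa k p) ≤ Rg k p := by
  rintro x ⟨y, _, rfl⟩
  exact ⟨y, rfl⟩

lemma mem_Rg_iff {p : ℕ} {x : L} : x ∈ Rg k p ↔ ∃ y, SS k p y = x := Iff.rfl

lemma order_dvd_of_mem_Rg {p : ℕ} (hp : p ≠ 0) {x : L} (hx : x ∈ Rg k p) :
    (p : ℤ) ∣ x.order := by
  obtain ⟨y, rfl⟩ := hx
  change (p : ℤ) ∣ (SS k p y).order
  rw [order_SS hp]
  exact dvd_mul_right _ _

lemma not_mem_Rg {p : ℕ} (hp : p ≠ 0) {x : L} {m : ℤ} (hm : x.coeff m ≠ 0) (hpm : ¬ (p : ℤ) ∣ m) :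
    x ∉ Rg k p := by
  rintro ⟨y, rfl⟩
  exact hm (coeff_SS_of_not_dvd hp y hpm)

lemma mem_map_SSa_iff {p : ℕ} {A : IntermediateField k L} {x : L} :
    SS k p x ∈ A.map (SSa k p) ↔ x ∈ A := by
  constructor
  · rintro ⟨y, hy, hxy⟩
    have : y = x := SS_injective p hxy
    rwa [← this]
  · intro hx
    exact ⟨x, hx, rfl⟩

/-- a lower bound for the relative rank from the degree of a minimal polynomial. -/
lemma le_relrank_of_le_natDegree_minpoly {A B : IntermediateField k L} (hAB : A ≤ B) {u : L}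
    (hu : u ∈ B) {n : ℕ} (hn : n ≤ (minpoly A u).natDegree) :
    (n : Cardinal) ≤ relrank A B := by
  rw [relrank_eq_rank_of_le hAB]
  have h1 := linearIndependent_pow (K := A) (⟨u, hu⟩ : extendScalars hAB)
  have h2 := h1.cardinal_lift_le_rank
  rw [Cardinal.mk_fin, IntermediateField.minpoly_eq, Cardinal.lift_natCast, Cardinal.lift_uzero]
    at h2
  exact le_trans (by exact_mod_cast hn) h2

end fields

end FAIg
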