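import Fermat.Agent.Igusa.Fields
import Fermat.Agent.IntStr.AutC

/-!
# S28 (B), Lemma B : `j(q^{pM}) ∉ k(j(q^d) : d ∣ M)` for `p ∤ M`.
-/

open ModularCurve Polynomial IntermediateField

namespace FAIg

/-- downward induction along chains of prime divisions. -/
lemma chain_induction {M : ℕ} (hM : M ≠ 0) (P : ℕ → Prop) (h0 : P M)
    (hstep : ∀ d p', p'.Prime → d * p' ∣ M → P (d * p') → P d) : ∀ d, d ∣ M → P d := by
  intro d hd
  obtain ⟨c, hc⟩ := hd
  induction c using Nat.strong_induction_on generalizing d with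
  | _ c ih =>
    by_cases hc1 : c = 1
    · rw [hc1, mul_one] at hc
      rwa [← hc]
    · have hc0 : c ≠ 0 := by
        rintro rfl
        exact hM (by simpa using hc)
      have hp := Nat.minFac_prime hc1
      obtain ⟨c', hc'⟩ := Nat.minFac_dvd c
      have hc'0 : c' ≠ 0 := by
        rintro rfl
        exact hc0 (by simpa using hc')
      have hlt : c' < c := by
        calc c' = 1 * c' := (one_mul _).symm
          _ < c.minFac * c' := Nat.mul_lt_mul_of_pos_right hp.one_lt (Nat.pos_of_ne_zero hc'0)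
          _ = c := hc'.symm
      have hM' : M = d * c.minFac * c' := by rw [hc, mul_assoc, ← hc']
      exact hstep d c.minFac hp ⟨c', hM'⟩ (ih c' hlt (d * c.minFac) hM')

variable (k : Type*) [Field k]

local notation "L" => LaurentSeries k
local notation "jj" => jqModC k

/-- the hypotheses of part (B) at level `N`. -/
structure Hyp (N : ℕ) : Prop where
  modPoly : ∀ p, p.Prime → p ∣ N → ∃ Φ : Polynomial (Polynomial k), ModPoly p Φ
  lemmaA : ∀ p, p.Prime → p ∣ N → SS k p jj ∉ adjoin k {jj}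
  prim : ∀ p, p.Prime → p ∣ N → ∃ ζ : kˣ, IsPrimitiveRoot ζ p
  root : ∀ p, p.Prime → p ∣ N → ∀ ξ : kˣ, ∃ ξ' : kˣ, ξ' ^ p = ξ

variable {k}

lemma Hyp.of_dvd {N M : ℕ} (h : Hyp k N) (hMN : M ∣ N) : Hyp k M :=
  ⟨fun p hp hpM => h.modPoly p hp (hpM.trans hMN), fun p hp hpM => h.lemmaA p hp (hpM.trans hMN),
    fun p hp hpM => h.prim p hp (hpM.trans hMN), fun p hp hpM => h.root p hp (hpM.trans hMN)⟩

/-- one step of the chain argument. -/
lemma chain_step {Ω : Type*} [Field Ω] (ι g : L →+* Ω) (hgC : ∀ c : k, g (HahnSeries.C c) =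
    ι (HahnSeries.C c)) {p d p' : ℕ} (hp : p ≠ 0) (hd : d ≠ 0) (hp' : p'.Prime)
    {Φ : Polynomial (Polynomial k)} (hΦ : ModPoly p' Φ) {ζ : kˣ} (hζ : IsPrimitiveRoot ζ p')
    (hroot : ∀ ξ : kˣ, ∃ ξ' : kˣ, ξ' ^ p' = ξ)
    (h : ∃ (ξ : kˣ) (e : ℕ), e ≠ 0 ∧ d * p' ∣ e ∧
      g (SS k p (SS k (d * p') jj)) = ι (SS k p (SS k e (twist ξ jj)))) :
    ∃ (ξ : kˣ) (e : ℕ), e ≠ 0 ∧ d ∣ e ∧ g (SS k p (SS k d jj)) = ι (SS k p (SS k e (twist ξ jj))) := by
  obtain ⟨ξ, e, he0, hde, hg⟩ := h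
  obtain ⟨ξ', hξ'⟩ := hroot ξ
  have hp'0 : p' ≠ 0 := hp'.ne_zero
  obtain ⟨e', rfl⟩ : p' ∣ e := (dvd_mul_left p' d).trans hde
  have he'0 : e' ≠ 0 := by
    rintro rfl
    exact he0 (mul_zero _)
  set ψ : L →+* Ω := g.comp ((SS k p).comp (SS k d)) with hψ
  set φ : L →+* Ω := ι.comp ((SS k p).comp ((SS k e').comp (twist ξ'))) with hφ
  have h1 := congr_arg ψ hΦ.root2
  rw [hom_eval₂, map_zero] at h1
  have h2 : ψ.comp (evalAt k (SS k p' jj)) = φ.comp (evalAt k (SS k p' jj)) := by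
    rw [comp_evalAt, comp_evalAt]
    congr 1
    · ext c : 1
      simp only [hψ, hφ, RingHom.comp_apply, SS_C, twist_C, hgC]
    · simp only [hψ, hφ, RingHom.comp_apply]
      rw [SS_SS hd hp'0, hg, twist_SS _ hp'0, hξ', SS_SS he'0 hp'0, mul_comm e' p']
  rw [h2] at h1
  obtain ⟨i, hi⟩ := hΦ.root_cases hp'.two_le hζ φ _ h1
  have hψj : ψ jj = g (SS k p (SS k d jj)) := rfl
  rw [hψj] at hi
  rcases i with _ | b
  · refine ⟨ξ' ^ (p' * p'), e' * (p' * p'), by positivity, ?_, ?_⟩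
    · exact (dvd_mul_right d p').trans (hde.trans ⟨p', by ring⟩)
    · rw [hi]
      simp only [hφ, RingHom.comp_apply, rootFam]
      rw [twist_SS _ (by positivity), SS_SS he'0 (by positivity)]
  · refine ⟨ξ' * ζ ^ (b : ℕ), e', he'0, ?_, ?_⟩
    · rw [mul_comm d p'] at hde
      exact Nat.dvd_of_mul_dvd_mul_left hp'.pos hde
    · rw [hi]
      simp only [hφ, RingHom.comp_apply, rootFam]
      rw [twist_twist]


/-- a ring homomorphism `E → Ω` fixing `F` and moving `z` to a given conjugate. -/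
lemma exists_conj_hom {F E Ω : Type*} [Field F] [Field E] [Field Ω] [Algebra F E] [Algebra E Ω]
    [Algebra F Ω] [IsScalarTower F E Ω] [IsAlgClosed Ω] {z y : E} (hz : IsIntegral F z)
    (hconj : IsConjRoot F z y) :
    ∃ g : E →+* Ω, (∀ x : F, g (algebraMap F E x) = algebraMap F Ω x) ∧
      g z = algebraMap E Ω y := by
  classical
  have hy : IsIntegral F y := hconj.isIntegral hz
  let A := algebraicClosure F Ω
  have hzA : algebraMap E Ω z ∈ A :=
    (mem_algebraicClosure_iff).2 (hz.isAlgebraic.algebraMap (A := Ω))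
  have hyA : algebraMap E Ω y ∈ A :=
    (mem_algebraicClosure_iff).2 (hy.isAlgebraic.algebraMap (A := Ω))
  have _i1 : IsAlgClosure F A := algebraicClosure.isAlgClosure F Ω
  have _i2 : Normal F A := IsAlgClosure.normal F A
  have hc : IsConjRoot F (⟨algebraMap E Ω y, hyA⟩ : A) (⟨algebraMap E Ω z, hzA⟩ : A) := by
    rw [isConjRoot_def, IntermediateField.minpoly_eq, IntermediateField.minpoly_eq]
    change minpoly F (algebraMap E Ω y) = minpoly F (algebraMap E Ω z)
    rw [minpoly.algebraMap_eq (algebraMap E Ω).injective,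
      minpoly.algebraMap_eq (algebraMap E Ω).injective]
    exact hconj.symm
  obtain ⟨σ, hσ⟩ := hc.exists_algEquiv
  obtain ⟨σ', hσ'⟩ := FA_IS_exists_ringEquiv_extend (K := Ω) σ.toRingEquiv
  refine ⟨σ'.toRingHom.comp (algebraMap E Ω), ?_, ?_⟩
  · intro x
    have h1 : algebraMap E Ω (algebraMap F E x) = algebraMap A Ω (algebraMap F A x) := by
      rw [← IsScalarTower.algebraMap_apply, ← IsScalarTower.algebraMap_apply]
    have h2 := hσ' (algebraMap F A x)
    change σ' (algebraMap E Ω (algebraMap F E x)) = _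
    rw [h1, h2]
    change algebraMap A Ω (σ (algebraMap F A x)) = _
    rw [σ.commutes, ← IsScalarTower.algebraMap_apply]
  · have h2 := hσ' ⟨algebraMap E Ω z, hzA⟩
    change σ' (algebraMap E Ω z) = _
    have h1 : algebraMap E Ω z = algebraMap A Ω ⟨algebraMap E Ω z, hzA⟩ := rfl
    rw [h1, h2]
    change algebraMap A Ω (σ ⟨algebraMap E Ω z, hzA⟩) = _
    rw [hσ]
    rfl

/-- **Lemma B.** -/
theorem lemmaB {p M : ℕ} (hp : p.Prime) (hM : M ≠ 0) (hpM : ¬ p ∣ M) (h : Hyp k (p * M)) :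
    SS k (p * M) jj ∉ KK k M := by
  intro hz0
  have hp0 := hp.ne_zero
  have hpM0 : p * M ≠ 0 := mul_ne_zero hp0 hM
  obtain ⟨Φ, hΦ⟩ := h.modPoly p hp (dvd_mul_right p M)
  obtain ⟨ζ, hζ⟩ := h.prim p hp (dvd_mul_right p M)
  set B' := YY k (p * M) with hB'
  set z := SS k p (SS k (p * M) jj) with hz
  have hzE : z ∈ (KK k M).map (SSa k p) := mem_map_SSa_iff.mpr hz0
  -- the modular polynomial over `B'`
  let gen : B' := ⟨SS k (p * M) jj, mem_YY _⟩
  let evB : Polynomial k →+* B' := (aeval gen).toRingHom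
  have hev : (algebraMap B' L).comp evB = evalAt k (SS k (p * M) jj) := by
    apply Polynomial.ringHom_ext
    · intro a
      simp only [evB, evalAt, RingHom.comp_apply, AlgHom.toRingHom_eq_coe, RingHom.coe_coe,
        aeval_C, coe_eval₂RingHom, eval₂_C]
      rw [← IsScalarTower.algebraMap_apply, algebraMap_eq_C]
    · simp only [evB, evalAt, RingHom.comp_apply, AlgHom.toRingHom_eq_coe, RingHom.coe_coe,
        aeval_X, coe_eval₂RingHom, eval₂_X]
      rfl
  set ΦB := Φ.map evB with hΦB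
  set r : Option (Fin p) → L := fun i => SS k M (rootFam p ζ i) with hr
  have hrinj : Function.Injective r := (SS_injective M).comp (rootFam_injective hp.two_le hζ)
  have hfac : ΦB.map (algebraMap B' L) = ∏ i, (X - C (r i)) := by
    rw [hΦB, Polynomial.map_map, hev]
    have := congr_arg (Polynomial.map (SS k M)) (hΦ.factor hp.two_le hζ)
    rw [Polynomial.map_map, SS_comp_evalAt, SS_SS hM hp0, Polynomial.map_prod, mul_comm M p] at this
    rw [this]
    apply Finset.prod_congr rfl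
    intro i _
    simp [hr]
  have hrnone : r none = z := by
    simp only [hr, hz, rootFam]
    rw [SS_SS hM (mul_ne_zero hp0 hp0), SS_SS hp0 hpM0]
    congr 2
    ring
  have hΦBmon : ΦB.Monic := hΦ.monic.map _
  have hroot : ∀ x : L, aeval x ΦB = 0 ↔ ∃ i, x = r i := by
    intro x
    rw [aeval_def, ← eval_map, hfac, eval_prod, Finset.prod_eq_zero_iff]
    simp only [Finset.mem_univ, true_and, eval_sub, eval_X, eval_C, sub_eq_zero]
  have hzroot : aeval z ΦB = 0 := (hroot z).mpr ⟨none, hrnone.symm⟩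
  have hzint : IsIntegral B' z := ⟨ΦB, hΦBmon, hzroot⟩
  have hdvd : minpoly B' z ∣ ΦB := minpoly.dvd B' z hzroot
  have hsep : IsSeparable B' z := by
    have h1 : ΦB.Separable := by
      rw [← separable_map (algebraMap B' L), hfac]
      exact separable_prod_X_sub_C_iff.mpr hrinj
    exact h1.of_dvd hdvd
  have hsplit : ((minpoly B' z).map (algebraMap B' L)).Splits := by
    refine Splits.of_dvd (g := ΦB.map (algebraMap B' L)) ?_ (hΦBmon.map _).ne_zero
      (Polynomial.map_dvd _ hdvd)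
    rw [hfac]
    exact Splits.prod fun i _ => Splits.X_sub_C _
  have hnot : z ∉ (⊥ : Subalgebra B' L) := by
    rw [Algebra.mem_bot]
    rintro ⟨⟨x, hx⟩, hxz⟩
    have hzB : z ∈ B' := by rw [← hxz]; exact hx
    have h1 : z = SS k (p * M) (SS k p jj) := by
      rw [hz, SS_SS hp0 hpM0, SS_SS hpM0 hp0, mul_comm]
    have h2 : B' = (adjoin k {jj}).map (SSa k (p * M)) := by
      rw [adjoin_map, Set.image_singleton, SSa_apply]
      rfl
    rw [h1, h2, mem_map_SSa_iff] at hzB
    exact h.lemmaA p hp (dvd_mul_right p M) hzB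
  obtain ⟨y, hyz, hconj⟩ := (notMem_iff_exists_ne_and_isConjRoot hsep hsplit).mp hnot
  have hyroot : aeval y ΦB = 0 := by
    obtain ⟨c, hc⟩ := hdvd
    rw [hc, map_mul, isConjRoot_def.mp hconj, minpoly.aeval, zero_mul]
  obtain ⟨i, hi⟩ := (hroot y).mp hyroot
  obtain ⟨b, rfl⟩ : ∃ b, i = some b := by
    rcases i with _ | b
    · exact absurd (hi.trans hrnone).symm hyz
    · exact ⟨b, rfl⟩
  -- the conjugating homomorphism
  obtain ⟨g, hg1, hg2⟩ := exists_conj_hom (Ω := AlgebraicClosure L) hzint hconj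
  set ι : L →+* AlgebraicClosure L := algebraMap L (AlgebraicClosure L) with hι
  have hgB : ∀ x ∈ B', g x = ι x := by
    intro x hx
    have := hg1 ⟨x, hx⟩
    rw [IsScalarTower.algebraMap_apply B' L (AlgebraicClosure L)] at this
    exact this
  have hgC : ∀ c : k, g (HahnSeries.C c) = ι (HahnSeries.C c) := by
    intro c
    apply hgB
    rw [← algebraMap_eq_C]
    exact B'.algebraMap_mem c
  -- the chain argument
  have hchain : ∀ d, d ∣ M → ∃ (ξ : kˣ) (e : ℕ), e ≠ 0 ∧ d ∣ e ∧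
      g (SS k p (SS k d jj)) = ι (SS k p (SS k e (twist ξ jj))) := by
    apply chain_induction hM
    · refine ⟨1, M, hM, dvd_rfl, ?_⟩
      rw [twist_one]
      apply hgB
      rw [SS_SS hp0 hM]
      exact mem_YY _
    · intro d p' hp' hdp' hP
      have hd0 : d ≠ 0 := by
        rintro rfl
        exact hM (by simpa using hdp')
      have hp'N : p' ∣ p * M := ((dvd_mul_left p' d).trans hdp').trans (dvd_mul_left M p)
      obtain ⟨Φ', hΦ'⟩ := h.modPoly p' hp' hp'N
      obtain ⟨ζ', hζ'⟩ := h.prim p' hp' hp'N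
      exact chain_step ι g hgC hp0 hd0 hp' hΦ' hζ' (h.root p' hp' hp'N) hP
  -- `g` maps `E` into `ι (k((q^p)))`
  have hE : ∀ x ∈ (KK k M).map (SSa k p), g x ∈ (Rg k p).toSubfield.map ι := by
    intro x hx
    rw [KK_map hp0 hM] at hx
    induction hx using adjoin_induction with
    | mem x hx =>
      obtain ⟨d, hd, rfl⟩ := hx
      have hd0 : d ≠ 0 := by
        rintro rfl
        exact hM (by simpa using hd)
      obtain ⟨ξ, e, -, -, hge⟩ := hchain d hd
      change g (SS k (p * d) jj) ∈ _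
      rw [← SS_SS hp0 hd0, hge]
      exact ⟨_, ⟨_, rfl⟩, rfl⟩
    | algebraMap c =>
      rw [algebraMap_eq_C, hgC]
      exact ⟨_, ⟨HahnSeries.C c, SS_C p c⟩, rfl⟩
    | add x y _ _ hx hy => rw [map_add]; exact add_mem hx hy
    | inv x _ hx => rw [map_inv₀]; exact inv_mem hx
    | mul x y _ _ hx hy => rw [map_mul]; exact mul_mem hx hy
  obtain ⟨w, hw, hwy⟩ := hE z hzE
  rw [hg2] at hwy
  have hwy' : w = y := ι.injective hwy
  rw [hwy', hi] at hw
  refine not_mem_Rg (k := k) (x := r (some b)) (m := (M : ℤ) * (-1)) hp0 ?_ ?_ hw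
  · simp only [hr, rootFam]
    rw [coeff_SS_mul hM, coeff_twist_jj]
    exact Units.ne_zero _
  · intro hdiv
    apply hpM
    have : (p : ℤ) ∣ (M : ℤ) := by simpa using hdiv
    exact_mod_cast this

end FAIg
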