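import Fermat.Agent.Igusa.ModEq
import Fermat.Agent.Igusa.LemmaA
import Fermat.Agent.Igusa.LemmaB

/-! S28: glue between the analytic input (A) and the characteristic `ℓ` part (B). -/

set_option autoImplicit false

open ModularCurve Polynomial

namespace FAIg

section dict

variable {R : Type*} [CommRing R]

lemma evalJ_eq_evalAt (y : LaurentSeries R) : evalJ y = evalAt R y := rfl

lemma thetaL_eq_theta (x : LaurentSeries R) : thetaL x = theta R x := rfl

lemma deltaL_eq_dq : deltaL R = dq R := rfl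

lemma deltaInvL_eq_dqInv : deltaInvL R = dqInv R := rfl

lemma twistL_eq_twist (ξ : Rˣ) (x : LaurentSeries R) : twistL ξ x = twist ξ x := rfl

end dict

section field

variable (k : Type*) [Field k]

theorem thetaIdentity_of : ThetaIdentity k := thetaL_jq_pow_six k

variable {k}

lemma geom_sum_units {p : ℕ} (hp : p.Prime) {ζ : kˣ} (hζ : IsPrimitiveRoot ζ p) :
    ∑ i ∈ Finset.range p, (ζ : k) ^ i = 0 :=
  (IsPrimitiveRoot.coe_units_iff.mpr hζ).geom_sum_eq_zero hp.one_lt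

theorem hasModPoly_of {p : ℕ} [NeZero p] (hp : p.Prime) {ζ : kˣ} (hζ : IsPrimitiveRoot ζ p) :
    HasModPoly k p := by
  have : Fact p.Prime := ⟨hp⟩
  have : NeZero (p ^ 2) := ⟨pow_ne_zero 2 hp.ne_zero⟩
  obtain ⟨Φ, hmon, hdeg, hfac⟩ := modularEquation k p ζ (geom_sum_units hp hζ)
  have hroot2 : Φ.eval₂ (evalAt k (qExpand k p (jqModC k))) (jqModC k) = 0 := by
    rw [← evalJ_eq_evalAt, ← eval_map, hfac, eval_mul, eval_prod]
    apply mul_eq_zero_of_right
    apply Finset.prod_eq_zero (Finset.mem_range.mpr hp.pos)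
    simp
  have hroot1' : Φ.eval₂ (evalAt k (qExpand k p (jqModC k))) (qExpand k (p ^ 2) (jqModC k)) = 0 := by
    rw [← evalJ_eq_evalAt, ← eval_map, hfac, eval_mul]
    apply mul_eq_zero_of_left
    simp
  refine ⟨Φ, hmon, hdeg, ?_, hroot2⟩
  apply qExpand_injective (R := k) p
  have e : qExpand k (p * p) (jqModC k) = qExpand k (p ^ 2) (jqModC k) := by
    rw [← SS_eq, ← SS_eq, sq]
  rw [map_zero, hom_eval₂, qExpand_qExpand, e, ← SS_eq k p, SS_comp_evalAt, SS_eq]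
  exact hroot1'

theorem hasUnitPoly_of {p : ℕ} [NeZero p] (hp : p.Prime) (hpk : (p : k) ≠ 0) {ζ : kˣ}
    (hζ : IsPrimitiveRoot ζ p) : HasUnitPoly k p := by
  have : Fact p.Prime := ⟨hp⟩
  obtain ⟨Ψ, hmon, hc0, hroot⟩ := unitEquation k p ζ (geom_sum_units hp hζ)
  have hc0' : ∃ u : k, u ≠ 0 ∧ Ψ.coeff 0 = C u := by
    rcases hc0 with h | h
    · exact ⟨(p : k) ^ 12, pow_ne_zero _ hpk, h⟩
    · exact ⟨-(p : k) ^ 12, neg_ne_zero.mpr (pow_ne_zero _ hpk), by rw [h, C_neg]⟩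
  obtain ⟨u, hu, hcu⟩ := hc0'
  set c : k := (p : k) ^ 12 with hc
  have hcne : c ≠ 0 := pow_ne_zero _ hpk
  refine ⟨Ψ.scaleRoots (C c⁻¹), (monic_scaleRoots_iff _).mpr hmon,
    ⟨u * c⁻¹ ^ Ψ.natDegree, ?_, ?_⟩, ?_⟩
  · exact (mul_ne_zero hu (pow_ne_zero _ (inv_ne_zero hcne))).isUnit
  · rw [coeff_scaleRoots, hcu, Nat.sub_zero, C_mul, C_pow]
  · have h1 := scaleRoots_eval₂_mul (p := Ψ) (evalAt k (jqModC k))
      ((p : LaurentSeries k) ^ 12 * qExpand k p (deltaL k) * deltaInvL k) (C c⁻¹)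
    rw [evalJ_eq_evalAt] at hroot
    rw [hroot, mul_zero] at h1
    have h2 : evalAt k (jqModC k) (C c⁻¹) *
        ((p : LaurentSeries k) ^ 12 * qExpand k p (deltaL k) * deltaInvL k) =
        qExpand k p (dq k) * dqInv k := by
      have h3 : evalAt k (jqModC k) (C c⁻¹) * (p : LaurentSeries k) ^ 12 = 1 := by
        have : (p : LaurentSeries k) ^ 12 = HahnSeries.C c := by
          rw [hc, map_pow, map_natCast]
        rw [this, evalAt, coe_eval₂RingHom, eval₂_C, ← map_mul, inv_mul_cancel₀ hcne, map_one]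
      rw [deltaL_eq_dq, deltaInvL_eq_dqInv, ← mul_assoc, ← mul_assoc, h3, one_mul]
    rw [h2] at h1
    exact h1

end field

theorem hyp_of_isAlgClosed (k : Type*) [Field k] [IsAlgClosed k] (N : ℕ)
    (h : ∀ p, p.Prime → p ∣ N → (p : k) ≠ 0) : Hyp k N := by
  have hprim : ∀ p, p.Prime → p ∣ N → ∃ ζ : kˣ, IsPrimitiveRoot ζ p := by
    intro p hp hpN
    have : NeZero (p : k) := ⟨h p hp hpN⟩
    have : NeZero p := ⟨hp.ne_zero⟩
    obtain ⟨ζ, hζ⟩ := HasEnoughRootsOfUnity.exists_primitiveRoot k p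
    exact ⟨hζ.isUnit hp.ne_zero |>.unit, IsPrimitiveRoot.coe_units_iff.mp (by simpa using hζ)⟩
  refine ⟨?_, ?_, hprim, ?_⟩
  · intro p hp hpN
    have : NeZero p := ⟨hp.ne_zero⟩
    obtain ⟨ζ, hζ⟩ := hprim p hp hpN
    exact (hasModPoly_of hp hζ).exists_modPoly
  · intro p hp hpN
    have : NeZero p := ⟨hp.ne_zero⟩
    obtain ⟨ζ, hζ⟩ := hprim p hp hpN
    rw [SS_eq]
    exact jp_not_mem_adjoin k p hp.two_le (h p hp hpN) (hasUnitPoly_of hp (h p hp hpN) hζ)
      (thetaIdentity_of k)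
  · intro p hp _ ξ
    obtain ⟨z, hz⟩ := IsAlgClosed.exists_pow_nat_eq (ξ : k) hp.pos
    have hz0 : z ≠ 0 := by
      rintro rfl
      rw [zero_pow hp.ne_zero] at hz
      exact ξ.ne_zero hz.symm
    exact ⟨Units.mk0 z hz0, Units.ext (by simpa using hz)⟩

theorem hyp_algClosure (l N : ℕ) [Fact l.Prime] (_hN : N ≠ 0) (h : ¬ l ∣ N) :
    Hyp (AlgebraicClosure (ZMod l)) N := by
  apply hyp_of_isAlgClosed
  intro p hp hpN h0
  rw [CharP.cast_eq_zero_iff (AlgebraicClosure (ZMod l)) l p] at h0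
  have : l = p := (Nat.prime_dvd_prime_iff_eq Fact.out hp).mp h0
  exact h (this ▸ hpN)

end FAIg
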