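import Fermat.Agent.Igusa.DegreeB
import Fermat.Agent.Igusa.Glue

/-!
# S28 (B): final export.
-/

open ModularCurve IntermediateField

namespace FAIg

/-- `ψ(N)` elements of `ℤ[j(q^d) : d ∣ N]` whose reductions mod `l` are linearly independent over
`𝔽_l(j(q^N))`, for `l ∤ N`. -/
theorem exists_linearIndependent_zmod (N l : ℕ) [NeZero N] [Fact l.Prime] (h : ¬ l ∣ N) :
    ∃ b : Fin (dedekindPsi N) → MvPolynomial ℕ ℤ,
      (∀ i, b i ∈ MvPolynomial.supported ℤ (↑N.divisors : Set ℕ)) ∧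
      LinearIndependent ↥(IntermediateField.adjoin (ZMod l) {jqNModC (ZMod l) N})
        (fun i => MvPolynomial.aeval (FAIg.jdT (ZMod l)) (b i)) := by
  obtain ⟨b, hb1, hb2⟩ := exists_linearIndependent_of_hyp (NeZero.ne N)
    (hyp_algClosure l N (NeZero.ne N) h)
  exact ⟨b, hb1, linearIndependent_descent (algebraMap (ZMod l) (AlgebraicClosure (ZMod l))) b hb2⟩

end FAIg
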