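import Fermat.Agent.Igusa.DegreeX

/-! S28 (A4), part 2: the Fricke involution at the level of polynomial relations. -/

set_option autoImplicit false

open Polynomial IntermediateField ModularCurve UpperHalfPlane FA_IS
open scoped MatrixGroups

noncomputable section

namespace FAIg

variable (N : ℕ) [NeZero N]

/-- the divisors of `N` -/
abbrev Dv : Type := {d : ℕ // d ∣ N}

variable {N}

lemma Dv.pos (d : Dv N) : 0 < d.1 := Nat.pos_of_dvd_of_pos d.2 (Nat.pos_of_ne_zero (NeZero.ne N))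

instance Dv.neZero (d : Dv N) : NeZero d.1 := ⟨d.pos.ne'⟩

/-- the complementary divisor -/
def Dv.inv (d : Dv N) : Dv N := ⟨N / d.1, Nat.div_dvd_of_dvd d.2⟩

@[simp] lemma Dv.inv_inv (d : Dv N) : d.inv.inv = d :=
  Subtype.ext (Nat.div_div_self d.2 (NeZero.ne N))

omit [NeZero N] in
lemma Dv.mul_inv (d : Dv N) : d.1 * d.inv.1 = N := Nat.mul_div_cancel' d.2

/-- the generators `j(q^d)` -/
def jser (d : Dv N) : LaurentSeries ℚ := qExpand ℚ d.1 jq

/-- evaluation of polynomials at the `q`-series `j(q^d)` -/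
def evq : MvPolynomial (Dv N) ℚ →ₐ[ℚ] LaurentSeries ℚ := MvPolynomial.aeval jser

/-- evaluation of polynomials at the functions `j(dτ)` -/
def evan : MvPolynomial (Dv N) ℚ →+* FA24.RN N :=
  MvPolynomial.eval₂Hom (FA24.cstHom.comp (algebraMap ℚ ℂ)) (fun d => FA24.jdR d.2)

lemma Lam_evan (P : MvPolynomial (Dv N) ℚ) : FA24.Lam (evan P) = cQ (evq P) := by
  have : (FA24.Lam (N := N)).comp evan = cQ.comp (evq (N := N)).toRingHom := by
    apply MvPolynomial.ringHom_ext
    · intro a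
      simp only [RingHom.comp_apply, evan, MvPolynomial.coe_eval₂Hom, MvPolynomial.eval₂_C,
        AlgHom.toRingHom_eq_coe, RingHom.coe_coe, evq, MvPolynomial.aeval_C]
      rw [algebraMap_apply_eq_single, coeffMap_single]
      exact FA24.Lam_cst _
    · intro d
      simp only [RingHom.comp_apply, evan, MvPolynomial.coe_eval₂Hom, MvPolynomial.eval₂_X,
        AlgHom.toRingHom_eq_coe, RingHom.coe_coe, evq, MvPolynomial.aeval_X]
      rw [FA24.Lam_jdR, FA24.cm_coeffEmb]
      rfl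
  exact RingHom.congr_fun this P

/-- the Fricke involution on `ℍ`. -/
def wN (N : ℕ) (τ : ℍ) : ℍ := ModularGroup.S • affPt N 1 0 τ

lemma jd_wN (d : Dv N) (τ : ℍ) : FA24.jd d.1 (wN N τ) = FA24.jd d.inv.1 τ := by
  have hN : 0 < N := Nat.pos_of_ne_zero (NeZero.ne N)
  show FA24.jf (affPt d.1 1 0 (wN N τ)) = FA24.jf (affPt d.inv.1 1 0 τ)
  rw [← FA24.jf_smul ModularGroup.S (affPt d.inv.1 1 0 τ)]
  congr 1
  ext
  have hS : ∀ z : ℍ, ((ModularGroup.S • z : ℍ) : ℂ) = (-(z : ℂ))⁻¹ := fun z => by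
    rw [modular_S_smul]
  rw [coe_affPt d.pos one_pos, wN, hS, hS, coe_affPt hN one_pos, coe_affPt d.inv.pos one_pos]
  have h1 : (N : ℂ) = (d.1 : ℂ) * (d.inv.1 : ℂ) := by exact_mod_cast d.mul_inv.symm
  have h2 : (d.1 : ℂ) ≠ 0 := by exact_mod_cast d.pos.ne'
  have h3 : (d.inv.1 : ℂ) ≠ 0 := by exact_mod_cast d.inv.pos.ne'
  have h4 : (τ : ℂ) ≠ 0 := τ.ne_zero
  rw [h1]
  field_simp
  simp
  ring

lemma evan_rename (P : MvPolynomial (Dv N) ℚ) (τ : ℍ) :
    (evan (MvPolynomial.rename Dv.inv P)).1 τ = (evan P).1 (wN N τ) := by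
  have : ((Pi.evalRingHom (fun _ : ℍ => ℂ) τ).comp ((FA24.RN N).subtype.comp
      (evan.comp (MvPolynomial.rename Dv.inv).toRingHom))) =
      (Pi.evalRingHom (fun _ : ℍ => ℂ) (wN N τ)).comp ((FA24.RN N).subtype.comp evan) := by
    apply MvPolynomial.ringHom_ext
    · intro a
      simp [evan, FA24.cstHom, FA24.cst]
    · intro d
      simp only [RingHom.comp_apply, AlgHom.toRingHom_eq_coe, RingHom.coe_coe,
        MvPolynomial.rename_X, evan, MvPolynomial.coe_eval₂Hom, MvPolynomial.eval₂_X]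
      exact (jd_wN d τ).symm
  exact RingHom.congr_fun this P

/-- **Fricke**: polynomial relations between the `j(q^d)` are stable under `d ↦ N/d`. -/
theorem evq_rename_eq_zero {P : MvPolynomial (Dv N) ℚ} (h : evq P = 0) :
    evq (MvPolynomial.rename Dv.inv P) = 0 := by
  have h1 : evan P = 0 := by
    apply FA24.Lam_injective
    rw [Lam_evan, h, map_zero, map_zero]
  have h2 : evan (MvPolynomial.rename Dv.inv P) = 0 := by
    apply Subtype.ext
    funext τ
    rw [evan_rename, h1]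
    rfl
  apply cQ_injective
  rw [← Lam_evan, h2, map_zero, map_zero]

lemma rename_inv_inv (P : MvPolynomial (Dv N) ℚ) :
    MvPolynomial.rename Dv.inv (MvPolynomial.rename Dv.inv P) = P := by
  rw [MvPolynomial.rename_rename]
  have : (Dv.inv ∘ Dv.inv : Dv N → Dv N) = id := funext fun d => d.inv_inv
  rw [this, MvPolynomial.rename_id_apply]

theorem evq_rename_eq_zero_iff {P : MvPolynomial (Dv N) ℚ} :
    evq (MvPolynomial.rename Dv.inv P) = 0 ↔ evq P = 0 :=
  ⟨fun h => by
    have := evq_rename_eq_zero h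
    rwa [rename_inv_inv] at this, evq_rename_eq_zero⟩

end FAIg
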