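import Fermat.Agent.Igusa.Degree

/-! S28: the Fricke involution as a field automorphism of `ℚ(j(q^d) : d ∣ N)`. -/

set_option autoImplicit false

open Polynomial IntermediateField ModularCurve FA_IS

noncomputable section

namespace FAIg

variable {N : ℕ} [NeZero N]

/-- evaluation of polynomials at the `j(q^d)`, with values in the function field -/
def evF : MvPolynomial (Dv N) ℚ →+* FQ N := (MvPolynomial.aeval (R := ℚ) (jF (N := N))).toRingHom

lemma coe_evF (P : MvPolynomial (Dv N) ℚ) : ((evF P : FQ N) : LaurentSeries ℚ) = evq P :=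
  inclF_mvAeval P

lemma evF_X (d : Dv N) : evF (MvPolynomial.X d) = jF d := by
  simp [evF]

lemma evF_eq_zero_iff {P : MvPolynomial (Dv N) ℚ} : evF P = 0 ↔ evq P = 0 := by
  rw [← coe_evF]
  exact ⟨fun h => by rw [h]; rfl, fun h => Subtype.ext h⟩

/-- the renaming `d ↦ N/d` -/
def rnI : MvPolynomial (Dv N) ℚ →+* MvPolynomial (Dv N) ℚ :=
  (MvPolynomial.rename (R := ℚ) (Dv.inv (N := N))).toRingHom

lemma rnI_rnI (P : MvPolynomial (Dv N) ℚ) : rnI (rnI P) = P := rename_inv_inv P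

omit [NeZero N] in
lemma rnI_X (d : Dv N) : rnI (MvPolynomial.X d) = MvPolynomial.X d.inv := by
  simp [rnI]

lemma evF_rnI_eq_zero_iff {P : MvPolynomial (Dv N) ℚ} : evF (rnI P) = 0 ↔ evF P = 0 := by
  rw [evF_eq_zero_iff, evF_eq_zero_iff]
  exact evq_rename_eq_zero_iff

lemma exists_fracF (f : FQ N) :
    ∃ P : MvPolynomial (Dv N) ℚ × MvPolynomial (Dv N) ℚ, evF P.2 ≠ 0 ∧ f * evF P.2 = evF P.1 := by
  obtain ⟨P₁, P₂, h0, h⟩ := exists_frac f.2
  refine ⟨(P₁, P₂), fun h' => h0 (evF_eq_zero_iff.mp h'), ?_⟩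
  apply Subtype.ext
  show (f : LaurentSeries ℚ) * ((evF P₂ : FQ N) : LaurentSeries ℚ) = _
  rw [coe_evF, coe_evF]
  exact h

/-- the Fricke involution as a function -/
def frickeFun (f : FQ N) : FQ N :=
  evF (rnI (exists_fracF f).choose.1) / evF (rnI (exists_fracF f).choose.2)

lemma frickeFun_eq {f : FQ N} {A B : MvPolynomial (Dv N) ℚ} (hB : evF B ≠ 0)
    (h : f * evF B = evF A) : frickeFun f = evF (rnI A) / evF (rnI B) := by
  obtain ⟨h0, h1⟩ := (exists_fracF f).choose_spec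
  set P := (exists_fracF f).choose with hP
  have hB' : evF (rnI B) ≠ 0 := fun h' => hB (evF_rnI_eq_zero_iff.mp h')
  have h0' : evF (rnI P.2) ≠ 0 := fun h' => h0 (evF_rnI_eq_zero_iff.mp h')
  have key : evF (P.1 * B - A * P.2) = 0 := by
    rw [map_sub, map_mul, map_mul, ← h, ← h1]
    ring
  have key' := evF_rnI_eq_zero_iff.mpr key
  rw [map_sub, map_mul, map_mul, map_sub, map_mul, map_mul, sub_eq_zero] at key'
  show evF (rnI P.1) / evF (rnI P.2) = _
  rw [div_eq_div_iff h0' hB']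
  exact key'

/-- the Fricke involution as a ring homomorphism -/
def frickeHom : FQ N →+* FQ N where
  toFun := frickeFun
  map_one' := by
    rw [frickeFun_eq (f := 1) (A := 1) (B := 1) (by simp) (by simp)]
    simp
  map_zero' := by
    rw [frickeFun_eq (f := 0) (A := 0) (B := 1) (by simp) (by simp)]
    simp
  map_mul' f g := by
    obtain ⟨P, hP0, hP⟩ := exists_fracF f
    obtain ⟨Q, hQ0, hQ⟩ := exists_fracF g
    rw [frickeFun_eq hP0 hP, frickeFun_eq hQ0 hQ,
      frickeFun_eq (f := f * g) (A := P.1 * Q.1) (B := P.2 * Q.2)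
        (by rw [map_mul]; exact mul_ne_zero hP0 hQ0)
        (by rw [map_mul, map_mul, ← hP, ← hQ]; ring)]
    simp only [map_mul]
    rw [div_mul_div_comm]
  map_add' f g := by
    obtain ⟨P, hP0, hP⟩ := exists_fracF f
    obtain ⟨Q, hQ0, hQ⟩ := exists_fracF g
    have hP0' : evF (rnI P.2) ≠ 0 := fun h' => hP0 (evF_rnI_eq_zero_iff.mp h')
    have hQ0' : evF (rnI Q.2) ≠ 0 := fun h' => hQ0 (evF_rnI_eq_zero_iff.mp h')
    rw [frickeFun_eq hP0 hP, frickeFun_eq hQ0 hQ,
      frickeFun_eq (f := f + g) (A := P.1 * Q.2 + P.2 * Q.1) (B := P.2 * Q.2)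
        (by rw [map_mul]; exact mul_ne_zero hP0 hQ0)
        (by simp only [map_mul, map_add]; rw [← hP, ← hQ]; ring)]
    simp only [map_mul, map_add]
    rw [div_add_div _ _ hP0' hQ0']

lemma frickeHom_evF (P : MvPolynomial (Dv N) ℚ) : frickeHom (evF P) = evF (rnI P) := by
  show frickeFun (evF P) = _
  rw [frickeFun_eq (A := P) (B := 1) (by simp) (by simp)]
  simp

lemma frickeHom_jF (d : Dv N) : frickeHom (jF d) = jF d.inv := by
  rw [← evF_X, frickeHom_evF, rnI_X, evF_X]

lemma frickeHom_frickeHom (f : FQ N) : frickeHom (frickeHom f) = f := by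
  obtain ⟨P, hP0, hP⟩ := exists_fracF f
  have : f = evF P.1 / evF P.2 := by rw [← hP, mul_div_cancel_right₀ _ hP0]
  rw [this, map_div₀, map_div₀, frickeHom_evF, frickeHom_evF, frickeHom_evF, frickeHom_evF,
    rnI_rnI, rnI_rnI]

/-- the Fricke involution as a ring automorphism -/
def frickeEquiv : FQ N ≃+* FQ N where
  toFun := frickeHom
  invFun := frickeHom
  left_inv := frickeHom_frickeHom
  right_inv := frickeHom_frickeHom
  map_mul' := map_mul frickeHom
  map_add' := map_add frickeHom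

lemma frickeEquiv_apply (f : FQ N) : frickeEquiv f = frickeHom f := rfl

lemma frickeEquiv_symm_apply (f : FQ N) : frickeEquiv.symm f = frickeHom f := rfl

omit [NeZero N] in
lemma inv_dOne : (dOne : Dv N).inv = dTop := Subtype.ext (Nat.div_one N)

variable (N)

/-- **The Fricke involution** of `F = ℚ(j(q^d) : d ∣ N)`. -/
theorem exists_fricke : ∃ W : FQ N ≃ₐ[ℚ] FQ N, W (xF N) = yF N ∧ W (yF N) = xF N ∧
    (∀ d : Dv N, W (jF d) = jF d.inv) ∧ ∀ f, W (W f) = f := by
  refine ⟨AlgEquiv.ofRingEquiv (f := frickeEquiv) fun r => ?_, ?_, ?_, ?_, ?_⟩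
  · simp
  · show frickeHom (jF dOne) = jF dTop
    rw [frickeHom_jF, inv_dOne]
  · show frickeHom (jF dTop) = jF dOne
    rw [frickeHom_jF, inv_dTop]
  · exact frickeHom_jF
  · exact frickeHom_frickeHom

end FAIg
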