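import Fermat.Agent.Igusa.ModEqC

/-! S28-(A1′): `j(q^N)` is integral over `ℤ[j(q)]` and `j(q)` is integral over `ℤ[j(q^N)]`. -/

set_option autoImplicit false
set_option linter.unusedSectionVars false
set_option linter.unusedVariables false

open ModularCurve Polynomial

namespace FAIg

/-- `x` is integral over `ℤ[y]`. -/
def IntOver {B : Type*} [CommRing B] (y x : B) : Prop :=
  (eval₂RingHom (Int.castRingHom B) y).IsIntegralElem x

section general

variable {A B B' : Type*} [CommRing A] [CommRing B] [CommRing B']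

/-- a root of a monic polynomial with integral coefficients is integral. -/
lemma isIntegral_of_monic_of_coeff [Algebra A B] (Ψ : B[X]) (hm : Ψ.Monic)
    (hc : ∀ i, IsIntegral A (Ψ.coeff i)) (x : B) (hx : Ψ.eval x = 0) : IsIntegral A x := by
  have hl : Ψ ∈ lifts (algebraMap (integralClosure A B) B) := by
    rw [lifts_iff_coeff_lifts]
    intro n
    exact ⟨⟨Ψ.coeff n, hc n⟩, rfl⟩
  obtain ⟨q, hq, -, hqm⟩ := lifts_and_natDegree_eq_and_monic hl hm
  have hx' : IsIntegral (integralClosure A B) x := ⟨q, hqm, by rw [← eval_map, hq, hx]⟩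
  exact isIntegral_trans (R := A) (A := integralClosure A B) x hx'

lemma isIntegralElem_of_monic_of_coeff (f : A →+* B) (Ψ : B[X]) (hm : Ψ.Monic)
    (hc : ∀ i, f.IsIntegralElem (Ψ.coeff i)) (x : B) (hx : Ψ.eval x = 0) :
    f.IsIntegralElem x := by
  let _ := f.toAlgebra
  exact isIntegral_of_monic_of_coeff (A := A) Ψ hm hc x hx

lemma isIntegralElem_eval₂ {S : Type*} [CommRing S] (f : A →+* B) (g : S →+* B)
    (hg : ∀ s, f.IsIntegralElem (g s)) (y : B)
    (hy : f.IsIntegralElem y) (Q : S[X]) : f.IsIntegralElem (Q.eval₂ g y) := by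
  induction Q using Polynomial.induction_on' with
  | add p q hp hq => rw [eval₂_add]; exact hp.add f hq
  | monomial n a =>
    rw [eval₂_monomial]
    refine (hg a).mul f ?_
    induction n with
    | zero =>
      rw [pow_zero]
      have := f.isIntegralElem_map (x := (1 : A))
      rwa [map_one] at this
    | succ n ih => rw [pow_succ]; exact ih.mul f hy

lemma isIntegralElem_intCast (f : A →+* B) (n : ℤ) : f.IsIntegralElem (Int.castRingHom B n) := by
  have := f.isIntegralElem_map (x := (n : A))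
  rwa [map_intCast] at this

lemma IntOver.self (y : B) : IntOver y y := by
  have := (eval₂RingHom (Int.castRingHom B) y).isIntegralElem_map (x := X)
  rwa [coe_eval₂RingHom, eval₂_X] at this

lemma IntOver.map (f : B →+* B') {y x : B} (h : IntOver y x) : IntOver (f y) (f x) := by
  obtain ⟨P, hP, h0⟩ := h
  refine ⟨P, hP, ?_⟩
  have hc : (eval₂RingHom (Int.castRingHom B') (f y)) =
      f.comp (eval₂RingHom (Int.castRingHom B) y) := by
    apply Polynomial.ringHom_ext
    · intro a; simp
    · simp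
  rw [hc, ← hom_eval₂, h0, map_zero]

lemma IntOver.of_map (f : B →+* B') (hf : Function.Injective f) {y x : B}
    (h : IntOver (f y) (f x)) : IntOver y x := by
  obtain ⟨P, hP, h0⟩ := h
  refine ⟨P, hP, ?_⟩
  have hc : (eval₂RingHom (Int.castRingHom B') (f y)) =
      f.comp (eval₂RingHom (Int.castRingHom B) y) := by
    apply Polynomial.ringHom_ext
    · intro a; simp
    · simp
  rw [hc, ← hom_eval₂] at h0
  exact hf (by rw [h0, map_zero])

lemma IntOver.trans {z y x : B} (h1 : IntOver z y) (h2 : IntOver y x) : IntOver z x := by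
  obtain ⟨P, hP, h0⟩ := h2
  refine isIntegralElem_of_monic_of_coeff _ (P.map (eval₂RingHom (Int.castRingHom B) y))
    (hP.map _) (fun i => ?_) x (by rw [eval_map, h0])
  rw [coeff_map, coe_eval₂RingHom]
  exact isIntegralElem_eval₂ _ _ (isIntegralElem_intCast _) y h1 _

/-- elements integral over `ℤ` are integral over `ℤ[y]`. -/
lemma isIntegralElem_of_isIntegral_int (y : B) {c : B} (hc : IsIntegral ℤ c) :
    (eval₂RingHom (Int.castRingHom B) y).IsIntegralElem c := by
  obtain ⟨q, hq, h0⟩ := hc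
  refine ⟨q.map C, hq.map _, ?_⟩
  rw [eval₂_map]
  have : (eval₂RingHom (Int.castRingHom B) y).comp C = algebraMap ℤ B := RingHom.ext_int _ _
  rw [this, h0]

lemma IntOver.isIntegral_adjoin [Algebra ℤ B] {y x : B} (h : IntOver y x) :
    IsIntegral (Algebra.adjoin ℤ {y}) x := by
  obtain ⟨P, hP, h0⟩ := h
  let g : ℤ[X] →+* Algebra.adjoin ℤ {y} :=
    ((aeval (R := ℤ) (⟨y, Algebra.subset_adjoin rfl⟩ : Algebra.adjoin ℤ {y})) : ℤ[X] →+* _)
  refine ⟨P.map g, hP.map _, ?_⟩
  rw [eval₂_map]
  have : (algebraMap (Algebra.adjoin ℤ {y}) B).comp g = eval₂RingHom (Int.castRingHom B) y := by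
    apply Polynomial.ringHom_ext
    · intro a; simp [g]
    · simp [g]
  rw [this, h0]

end general

/-! ### the prime step -/

section prime

variable (p : ℕ) [hp : Fact p.Prime]

lemma intCast_cycRing_injective : Function.Injective (Int.castRingHom (CycRing p)) := by
  intro a b h
  have := congrArg (cycEmb p) h
  simpa using this

lemma isIntegralElem_evalJ_cyc (z y : LaurentSeries (CycRing p)) (hy : IntOver z y)
    (P : (CycRing p)[X]) :
    (eval₂RingHom (Int.castRingHom (LaurentSeries (CycRing p))) z).IsIntegralElem (evalJ y P) := by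
  refine isIntegralElem_eval₂ _ _ (fun s => ?_) y hy P
  exact isIntegralElem_of_isIntegral_int z (map_isIntegral_int _ (isIntegral_cycRing p s))

lemma intOver_prime_cyc :
    IntOver (qExpand (CycRing p) p (jqModC (CycRing p))) (jqModC (CycRing p)) ∧
    IntOver (jqModC (CycRing p)) (qExpand (CycRing p) p (jqModC (CycRing p))) := by
  obtain ⟨Φ, h1, -, h3⟩ := modularEquation_cyc p
  constructor
  · refine isIntegralElem_of_monic_of_coeff _ (Φ.map (evalJ (qExpand (CycRing p) p
      (jqModC (CycRing p))))) (h1.map _) (fun i => ?_) _ ?_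
    · rw [coeff_map]
      exact isIntegralElem_evalJ_cyc p _ _ (IntOver.self _) _
    · rw [h3, eval_prod]
      refine Finset.prod_eq_zero (Finset.mem_univ (some ⟨0, hp.out.pos⟩)) ?_
      simp [jFamL]
  · refine isIntegralElem_of_monic_of_coeff _ (Φ.map (evalJ (jqModC (CycRing p))))
      (h1.map _) (fun i => ?_) _ ?_
    · rw [coeff_map]
      exact isIntegralElem_evalJ_cyc p _ _ (IntOver.self _) _
    · apply qExpand_injective p
      have hcomp : (qExpand (CycRing p) p).comp (evalJ (jqModC (CycRing p))) =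
          evalJ (qExpand (CycRing p) p (jqModC (CycRing p))) :=
        RingHom.ext fun P => qExpand_evalJ p _ P
      rw [map_zero, eval_map, hom_eval₂, hcomp, ← eval_map, h3, eval_prod]
      refine Finset.prod_eq_zero (Finset.mem_univ none) ?_
      rw [qExpand_qExpand, qExpand_congr (sq p).symm]
      simp [jFamL]

lemma intOver_prime_int :
    IntOver (qExpand ℤ p (jqModC ℤ)) (jqModC ℤ) ∧
    IntOver (jqModC ℤ) (qExpand ℤ p (jqModC ℤ)) := by
  obtain ⟨h1, h2⟩ := intOver_prime_cyc p
  have hi := coeffMap_injective (Int.castRingHom (CycRing p)) (intCast_cycRing_injective p)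
  constructor
  · apply IntOver.of_map _ hi
    rwa [coeffMap_qExpand, coeffMap_jqModC]
  · apply IntOver.of_map _ hi
    rwa [coeffMap_qExpand, coeffMap_jqModC]

end prime

lemma intOver_int_aux (N : ℕ) : ∀ hN : N ≠ 0, haveI : NeZero N := ⟨hN⟩
    IntOver (qExpand ℤ N (jqModC ℤ)) (jqModC ℤ) ∧
    IntOver (jqModC ℤ) (qExpand ℤ N (jqModC ℤ)) := by
  induction N using induction_on_primes with
  | zero => intro h; exact absurd rfl h
  | one =>
    intro h
    rw [qExpand_one_apply]
    exact ⟨IntOver.self _, IntOver.self _⟩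
  | prime_mul p n hp ih =>
    intro h
    have hn : n ≠ 0 := fun h0 => h (by rw [h0, mul_zero])
    have : NeZero n := ⟨hn⟩
    have : Fact p.Prime := ⟨hp⟩
    have : NeZero (p * n) := ⟨h⟩
    obtain ⟨a1, a2⟩ := ih hn
    obtain ⟨b1, b2⟩ := intOver_prime_int p
    have c1 := b1.map (qExpand ℤ n)
    have c2 := b2.map (qExpand ℤ n)
    rw [qExpand_qExpand, qExpand_congr (mul_comm n p)] at c1 c2
    exact ⟨c1.trans a1, a2.trans c2⟩

theorem intOver_int (N : ℕ) [NeZero N] :
    IntOver (qExpand ℤ N (jqModC ℤ)) (jqModC ℤ) ∧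
    IntOver (jqModC ℤ) (qExpand ℤ N (jqModC ℤ)) :=
  intOver_int_aux N (NeZero.ne N)

/-- over any ring. -/
theorem intOver_jqModC (R : Type*) [CommRing R] (N : ℕ) [NeZero N] :
    IntOver (qExpand R N (jqModC R)) (jqModC R) ∧
    IntOver (jqModC R) (qExpand R N (jqModC R)) := by
  obtain ⟨h1, h2⟩ := intOver_int N
  have c1 := h1.map (coeffMap (Int.castRingHom R))
  have c2 := h2.map (coeffMap (Int.castRingHom R))
  rw [coeffMap_qExpand, coeffMap_jqModC] at c1 c2
  exact ⟨c1, c2⟩

/-- (A1') -/
theorem isIntegral_jqN (N : ℕ) [NeZero N] :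
    IsIntegral (Algebra.adjoin ℤ {jq}) (qExpand ℚ N jq) := by
  have := (intOver_jqModC ℚ N).2.isIntegral_adjoin
  rwa [jqModC_rat] at this

theorem isIntegral_jq (N : ℕ) [NeZero N] :
    IsIntegral (Algebra.adjoin ℤ {qExpand ℚ N jq}) jq := by
  have := (intOver_jqModC ℚ N).1.isIntegral_adjoin
  rwa [jqModC_rat] at this

/-- the form used in (C): inside any subfield of `ℚ((q))`. -/
theorem isIntegralElem_subfield (N : ℕ) [NeZero N] (F : IntermediateField ℚ (LaurentSeries ℚ))
    (h1 : jq ∈ F) (h2 : qExpand ℚ N jq ∈ F) :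
    (eval₂RingHom (Int.castRingHom F) (⟨jq, h1⟩ : F)).IsIntegralElem
        (⟨qExpand ℚ N jq, h2⟩ : F) ∧
    (eval₂RingHom (Int.castRingHom F) (⟨qExpand ℚ N jq, h2⟩ : F)).IsIntegralElem
        (⟨jq, h1⟩ : F) := by
  obtain ⟨a1, a2⟩ := intOver_jqModC ℚ N
  exact ⟨IntOver.of_map (algebraMap F (LaurentSeries ℚ)) (algebraMap F _).injective a2,
    IntOver.of_map (algebraMap F (LaurentSeries ℚ)) (algebraMap F _).injective a1⟩

end FAIg
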