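import Fermat.Agent.X0Genus.JOrd
import Fermat.Agent.Igusa.MeroRing
import Fermat.Agent.Igusa.Leads

/-! S28-(A3): `(θ j)^6 = Δ j^4 (j - 1728)^3`. -/

set_option autoImplicit false
set_option linter.unusedSectionVars false
set_option linter.unusedVariables false

open UpperHalfPlane ModularForm EisensteinSeries Function CongruenceSubgroup FA_IS FA24
open ModularCurve Derivative
open scoped Manifold MatrixGroups Real

namespace FAIg

local notation "Δ" => ModularForm.discriminant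
local notation "oPS" => HahnSeries.ofPowerSeries ℤ ℂ
local notation "𝕢" => Periodic.qParam

lemma hasDerivAt_qParam_one_aux (z : ℂ) : HasDerivAt (𝕢 1) (2 * π * Complex.I * 𝕢 1 z) z := by
  have h1 : HasDerivAt (fun z : ℂ => 2 * π * Complex.I * z / ((1 : ℝ) : ℂ)) (2 * π * Complex.I) z := by
    have := ((hasDerivAt_id z).const_mul (2 * π * Complex.I)).div_const (((1 : ℝ) : ℂ))
    simpa using this
  have h2 := h1.cexp
  have e : Complex.exp (2 * π * Complex.I * z / ((1 : ℝ) : ℂ)) * (2 * π * Complex.I) =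
      2 * π * Complex.I * 𝕢 1 z := by
    rw [mul_comm]
    rfl
  rw [e] at h2
  exact h2

/-- `D F (τ) = q G'(q)` where `G` is the cusp function. -/
lemma D_eq_cusp {F : ℍ → ℂ} (hF : Nice 1 F) (τ : ℍ) :
    D F τ = 𝕢 1 τ * deriv (cuspFunction 1 F) (𝕢 1 τ) := by
  have h1 : (F ∘ ofComplex) =ᶠ[nhds (τ : ℂ)] (cuspFunction 1 F ∘ 𝕢 1) := by
    filter_upwards [isOpen_upperHalfPlaneSet.mem_nhds τ.im_pos] with w hw
    have := eq_cuspFunction (⟨w, hw⟩ : ℍ) one_ne_zero hF.per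
    simp only [comp_apply, ofComplex_apply_of_im_pos hw]
    exact this.symm
  have h2 : DifferentiableAt ℂ (cuspFunction 1 F) (𝕢 1 τ) :=
    differentiableAt_cuspFunction one_pos hF.per hF.hol hF.bdd
      (Periodic.norm_qParam_lt_one one_pos τ.im_pos)
  have h3 : HasDerivAt (cuspFunction 1 F ∘ 𝕢 1)
      (deriv (cuspFunction 1 F) (𝕢 1 τ) * (2 * π * Complex.I * 𝕢 1 τ)) (τ : ℂ) :=
    h2.hasDerivAt.comp (τ : ℂ) (hasDerivAt_qParam_one_aux τ)
  rw [normalizedDerivOfComplex, h1.deriv_eq, h3.deriv]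
  have := two_pi_I_ne
  field_simp

lemma nice_Dh {F : ℍ → ℂ} (hF : Nice 1 F) : Nice 1 (D F) := by
  refine ⟨fun w => ?_, normalizedDerivOfComplex_mdifferentiable hF.hol, D_bdd hF.hol hF.bdd⟩
  by_cases hw : 0 < w.im
  · have hw' : 0 < (w + ((1 : ℝ) : ℂ)).im := by simpa using hw
    simp only [comp_apply]
    rw [D_eq_cusp hF, D_eq_cusp hF, ofComplex_apply_of_im_pos hw, ofComplex_apply_of_im_pos hw']
    have : 𝕢 1 (w + ((1 : ℝ) : ℂ)) = 𝕢 1 w := by
      simp only [Periodic.qParam, Complex.ofReal_one, div_one, mul_add, mul_one]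
      rw [Complex.exp_add, Complex.exp_two_pi_mul_I, mul_one]
    show 𝕢 1 (w + ((1 : ℝ) : ℂ)) * deriv (cuspFunction 1 F) (𝕢 1 (w + ((1 : ℝ) : ℂ))) =
      𝕢 1 w * deriv (cuspFunction 1 F) (𝕢 1 w)
    rw [this]
  · have hw1 : w.im ≤ 0 := not_lt.mp hw
    have hw' : (w + ((1 : ℝ) : ℂ)).im ≤ 0 := by simpa using hw1
    simp only [comp_apply]
    rw [ofComplex_apply_eq_of_im_nonpos hw' hw1]

lemma cuspFunction_D {F : ℍ → ℂ} (hF : Nice 1 F) :
    cuspFunction 1 (D F) =ᶠ[nhds 0] (fun q : ℂ => q) * deriv (cuspFunction 1 F) := by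
  have hA1 : AnalyticAt ℂ (cuspFunction 1 (D F)) 0 := (nice_Dh hF).analyticAt one_pos
  have hA2 : AnalyticAt ℂ ((fun q : ℂ => q) * deriv (cuspFunction 1 F)) 0 :=
    analyticAt_id.mul (hF.analyticAt one_pos).deriv
  apply (hA1.frequently_eq_iff_eventually_eq hA2).mp
  apply Filter.Eventually.frequently
  rw [eventually_nhdsWithin_iff]
  filter_upwards [Metric.ball_mem_nhds (0 : ℂ) one_pos] with q hq hq0
  have hq0' : q ≠ 0 := hq0
  have him := Periodic.im_invQParam_pos_of_norm_lt_one one_pos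
    (by simpa [dist_zero_right] using hq) hq0'
  have h1 := eq_cuspFunction (⟨_, him⟩ : ℍ) one_ne_zero (nice_Dh hF).per
  have h2 := D_eq_cusp hF (⟨_, him⟩ : ℍ)
  simp only [Periodic.qParam_right_inv one_ne_zero hq0'] at h1 h2
  rw [h1, h2]
  rfl

lemma tay0_deriv_coeff (G : ℂ → ℂ) (n : ℕ) :
    PowerSeries.coeff n (tay0 (deriv G)) = (n + 1) * PowerSeries.coeff (n + 1) (tay0 G) := by
  rw [coeff_tay0, coeff_tay0, ← iteratedDeriv_succ', Nat.factorial_succ]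
  have h1 : ((n.factorial : ℕ) : ℂ) ≠ 0 := by exact_mod_cast Nat.factorial_ne_zero n
  have h2 : ((n : ℂ) + 1) ≠ 0 := by exact_mod_cast Nat.succ_ne_zero n
  push_cast
  field_simp

lemma coeff_qExpansion_D {F : ℍ → ℂ} (hF : Nice 1 F) (n : ℕ) :
    PowerSeries.coeff n (qExpansion 1 (D F)) = n * PowerSeries.coeff n (qExpansion 1 F) := by
  have h0 : ∀ G : ℍ → ℂ, qExpansion 1 G = tay0 (cuspFunction 1 G) := fun _ => rfl
  rw [h0, h0, tay0_congr (cuspFunction_D hF), tay0_mul (F := fun q => q) analyticAt_id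
    (hF.analyticAt one_pos).deriv, tay0_id]
  rcases n with _ | n
  · simp
  · rw [PowerSeries.coeff_succ_X_mul, tay0_deriv_coeff]
    push_cast
    ring

lemma oPS_qExp_D {F : ℍ → ℂ} (hF : Nice 1 F) :
    oPS (qExpansion 1 (D F)) = thetaL (oPS (qExpansion 1 F)) := by
  ext k
  rw [coeff_thetaL]
  rcases lt_or_ge k 0 with hj | hj
  · rw [ofPowerSeries_coeff_of_neg _ hj, ofPowerSeries_coeff_of_neg _ hj, mul_zero]
  · lift k to ℕ using hj
    rw [HahnSeries.ofPowerSeries_apply_coeff, HahnSeries.ofPowerSeries_apply_coeff, coeff_qExpansion_D hF]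
    simp

/-- `q`-expansion as a Laurent series -/
noncomputable def LL (F : ℍ → ℂ) : LaurentSeries ℂ := oPS (qExpansion 1 F)

lemma LL_mul {F G : ℍ → ℂ} (hF : Nice 1 F) (hG : Nice 1 G) : LL (F * G) = LL F * LL G := by
  rw [LL, hF.qExpansion_mul hG one_pos, map_mul]
  rfl

lemma LL_sub {F G : ℍ → ℂ} (hF : Nice 1 F) (hG : Nice 1 G) : LL (F - G) = LL F - LL G := by
  rw [LL, hF.qExpansion_sub hG one_pos, map_sub]
  rfl

lemma LL_pow {F : ℍ → ℂ} (hF : Nice 1 F) (n : ℕ) : LL (F ^ n) = LL F ^ n := by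
  rw [LL, hF.qExpansion_pow one_pos, map_pow]
  rfl

lemma LL_smul {F : ℍ → ℂ} (hF : Nice 1 F) (c : ℂ) : LL (c • F) = HahnSeries.C c * LL F := by
  rw [LL, hF.qExpansion_smul one_pos, LL, ← HahnSeries.ofPowerSeries_C, ← map_mul]
  congr 1
  ext n
  simp

lemma LL_D {F : ℍ → ℂ} (hF : Nice 1 F) : LL (D F) = thetaL (LL F) := oPS_qExp_D hF

lemma LL_disc : LL Δ = deltaL ℂ := by
  rw [LL, qExpansion_discriminant, map_mul, HahnSeries.ofPowerSeries_X, deltaL]

lemma leadsWith_LL {F : ℍ → ℂ} (h : PowerSeries.coeff 0 (qExpansion 1 F) = 1) :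
    LeadsWith (LL F) 0 1 :=
  ⟨qExpansion 1 F, by rwa [← PowerSeries.coeff_zero_eq_constantCoeff_apply], by
    rw [LL, show HahnSeries.single (0 : ℤ) (1 : ℂ) = 1 from rfl, one_mul]⟩

lemma jq_eq_LL : jqModC ℂ = LL (⇑E₄) ^ 3 * deltaInvL ℂ := by
  rw [jqModC_eq, LL, qExpansion_E₄, map_pow, map_pow]

theorem thetaL_jq_pow_six_complex :
    thetaL (jqModC ℂ) ^ 6 = deltaL ℂ * jqModC ℂ ^ 4 * (jqModC ℂ - 1728) ^ 3 := by
  obtain ⟨c, hc⟩ := exists_D_jf_eq
  have n4 := nice_E₄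
  have n6 := nice_E₆
  have nd := nice_disc_one
  -- the identity of holomorphic functions
  have hfun : D (⇑E₄ ^ 3) * Δ - ⇑E₄ ^ 3 * D Δ = c • (⇑E₄ ^ 2 * ⇑E₆ * Δ) := by
    rw [← disc_sq_mul_D_jf]
    funext τ
    simp only [Pi.smul_apply, Pi.mul_apply, Pi.pow_apply, smul_eq_mul]
    rw [hc τ]
    have := discriminant_ne_zero τ
    field_simp
  have h1 := congrArg LL hfun
  rw [LL_sub ((nice_Dh (n4.pow 3)).mul nd) ((n4.pow 3).mul (nice_Dh nd)),
    LL_mul (nice_Dh (n4.pow 3)) nd, LL_mul (n4.pow 3) (nice_Dh nd), LL_D (n4.pow 3), LL_D nd,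
    LL_smul (((n4.pow 2).mul n6).mul nd), LL_mul ((n4.pow 2).mul n6) nd, LL_mul (n4.pow 2) n6,
    LL_pow n4, LL_pow n4, LL_disc] at h1
  -- `1728 Δ = E₄³ - E₆²`
  have hfun2 : (1728 : ℂ) • Δ = ⇑E₄ ^ 3 - ⇑E₆ ^ 2 := by
    funext τ
    simp only [Pi.smul_apply, Pi.sub_apply, Pi.pow_apply, smul_eq_mul]
    rw [discriminant_eq_E₄_cube_sub_E₆_sq]
    ring
  have h4 := congrArg LL hfun2
  rw [LL_smul nd, LL_sub (n4.pow 3) (n6.pow 2), LL_pow n4, LL_pow n6, LL_disc] at h4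
  have hC : (HahnSeries.C (1728 : ℂ) : LaurentSeries ℂ) = 1728 :=
    map_ofNat (HahnSeries.C : ℂ →+* LaurentSeries ℂ) 1728
  rw [hC] at h4
  have h2 := deltaL_mul_deltaInvL ℂ
  have h3 : thetaL (deltaL ℂ) * deltaInvL ℂ + deltaL ℂ * thetaL (deltaInvL ℂ) = 0 := by
    have := congrArg thetaL h2
    rw [Derivation.leibniz, Derivation.map_one_eq_zero, smul_eq_mul, smul_eq_mul] at this
    rw [← this]
    ring
  have hj := jq_eq_LL
  have hθj : thetaL (jqModC ℂ) =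
      thetaL (LL (⇑E₄) ^ 3) * deltaInvL ℂ + LL (⇑E₄) ^ 3 * thetaL (deltaInvL ℂ) := by
    rw [hj, Derivation.leibniz, smul_eq_mul, smul_eq_mul]
    ring
  have l4 : LeadsWith (LL (⇑E₄)) 0 1 := leadsWith_LL (E_qExpansion_coeff_zero _ ⟨2, rfl⟩)
  have l6 : LeadsWith (LL (⇑E₆)) 0 1 := leadsWith_LL (E_qExpansion_coeff_zero _ ⟨3, rfl⟩)
  generalize LL (⇑E₄) = a at *
  generalize LL (⇑E₆) = b at *
  generalize hT : thetaL (a ^ 3) = T at *
  generalize hU : thetaL (deltaL ℂ) = U at *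
  generalize hV : thetaL (deltaInvL ℂ) = V at *
  have hθ : thetaL (jqModC ℂ) = HahnSeries.C c * (a ^ 2 * b) * deltaInvL ℂ := by
    rw [hθj]
    linear_combination (deltaInvL ℂ) ^ 2 * h1 + a ^ 3 * deltaInvL ℂ * h3 -
      (T * deltaInvL ℂ + a ^ 3 * V - HahnSeries.C c * (a ^ 2 * b) * deltaInvL ℂ) * h2
  -- the constant
  have hc1 : c = -1 := by
    have e1 : (thetaL (jqModC ℂ)).coeff (-1) = -1 := by
      rw [coeff_thetaL, coeff_jqModC_neg_one]
      simp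
    have e2 := (((LeadsWith.const c).mul ((l4.mul l4).mul l6)).mul
      (leadsWith_deltaInvL ℂ)).coeff_self
    rw [show a * a = a ^ 2 by ring, ← hθ] at e2
    simp only [zero_add, mul_one] at e2
    rw [← e2, e1]
  rw [hθ, hc1, hj]
  have hm1 : (HahnSeries.C (-1 : ℂ) : LaurentSeries ℂ) = -1 := by simp
  rw [hm1]
  generalize deltaL ℂ = d at *
  generalize deltaInvL ℂ = d' at *
  have h5 : a ^ 3 * d' - 1728 = b ^ 2 * d' := by
    linear_combination (-d') * h4 + 1728 * h2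
  rw [h5]
  linear_combination (-(a ^ 12 * b ^ 6 * d' ^ 6)) * h2

end FAIg
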