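import Fermat.Agent.Igusa.UnitEqC
import Fermat.Agent.Igusa.ThetaC

/-! S28-(A): final statements of the analytic input, over an arbitrary ring. -/

set_option autoImplicit false
set_option linter.unusedSectionVars false
set_option linter.unusedVariables false

open ModularCurve Polynomial

namespace FAIg

variable (R : Type*) [CommRing R]

lemma evalJ_comp_mapRingHom {A B : Type*} [CommRing A] [CommRing B] (φ : A →+* B)
    (y : LaurentSeries A) :
    (evalJ (coeffMap φ y)).comp (mapRingHom φ) = (coeffMap φ).comp (evalJ y) := by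
  refine RingHom.ext fun P => ?_
  simp only [RingHom.comp_apply, coe_mapRingHom, coeffMap_evalJ]

/-- (A1) the modular equation of prime level `p` over any ring with a "primitive" `p`-th root
of unity. -/
theorem modularEquation [Nontrivial R] (p : ℕ) [Fact p.Prime] (ζ : Rˣ)
    (hζ : ∑ i ∈ Finset.range p, (ζ : R) ^ i = 0) :
    haveI : NeZero p := ⟨(Fact.out : p.Prime).ne_zero⟩
    haveI : NeZero (p ^ 2) := ⟨pow_ne_zero 2 (Fact.out : p.Prime).ne_zero⟩
    ∃ Φ : Polynomial (Polynomial R), Φ.Monic ∧ Φ.natDegree = p + 1 ∧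
      Φ.map (evalJ (qExpand R p (jqModC R))) =
        (X - C (qExpand R (p ^ 2) (jqModC R))) *
          ∏ b ∈ Finset.range p, (X - C (twistL (ζ ^ b) (jqModC R))) := by
  obtain ⟨Φ, h1, h2, h3⟩ := modularEquation_cyc p
  let φ := cycLift p (ζ : R) hζ
  refine ⟨Φ.map (mapRingHom φ), h1.map _, by rw [h1.natDegree_map, h2], ?_⟩
  have hc := evalJ_comp_mapRingHom φ (qExpand (CycRing p) p (jqModC (CycRing p)))
  rw [coeffMap_qExpand, coeffMap_jqModC] at hc
  rw [Polynomial.map_map, hc, ← Polynomial.map_map, h3, Polynomial.map_prod, Fintype.prod_option,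
    ← Fin.prod_univ_eq_prod_range (fun b => X - C (twistL (ζ ^ b) (jqModC R))) p]
  simp only [Polynomial.map_sub, map_X, map_C, coeffMap_jFamL]
  rw [show Units.map (φ : CycRing p →* R) (cycUnit p) = ζ from map_cycUnit p ζ hζ]
  rfl

/-- (A2) `p¹² Δ(q^p)/Δ(q)` is a root of a monic polynomial over `R[j]` with constant term
`p¹²`. -/
theorem unitEquation' (p : ℕ) [Fact p.Prime] (ζ : Rˣ)
    (hζ : ∑ i ∈ Finset.range p, (ζ : R) ^ i = 0) :
    haveI : NeZero p := ⟨(Fact.out : p.Prime).ne_zero⟩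
    ∃ Ψ : Polynomial (Polynomial R), Ψ.Monic ∧ Ψ.coeff 0 = C ((p : R) ^ 12) ∧
      Ψ.eval₂ (evalJ (jqModC R))
        ((p : LaurentSeries R) ^ 12 * qExpand R p (deltaL R) * deltaInvL R) = 0 := by
  obtain ⟨Ψ, h1, -, h0, h3⟩ := unitEquation_cyc p
  let φ := cycLift p (ζ : R) hζ
  refine ⟨Ψ.map (mapRingHom φ), h1.map _, ?_, ?_⟩
  · rw [coeff_map, h0, coe_mapRingHom, map_C, map_pow, map_natCast]
  have hc := evalJ_comp_mapRingHom φ (qExpand (CycRing p) p (jqModC (CycRing p)))
  rw [coeffMap_qExpand, coeffMap_jqModC] at hc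
  have h4 : (Ψ.map (mapRingHom φ)).map (evalJ (qExpand R p (jqModC R))) =
      ∏ x, (X - C (wFamL p ζ x)) := by
    rw [Polynomial.map_map, hc, ← Polynomial.map_map, h3, Polynomial.map_prod]
    simp only [Polynomial.map_sub, map_X, map_C, coeffMap_wFamL]
    rw [show Units.map (φ : CycRing p →* R) (cycUnit p) = ζ from map_cycUnit p ζ hζ]
  set w : LaurentSeries R := (p : LaurentSeries R) ^ 12 * qExpand R p (deltaL R) * deltaInvL R
    with hw
  have hw' : qExpand R p w = wFamL p ζ none := by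
    rw [hw, map_mul, map_mul, map_pow, map_natCast, qExpand_qExpand,
      qExpand_congr (sq p).symm]
    show _ = HahnSeries.C ((p : R) ^ 12) * qExpand R (p ^ 2) (deltaL R) * qExpand R p (deltaInvL R)
    rw [map_pow, map_natCast]
  apply qExpand_injective p
  rw [map_zero, hom_eval₂]
  have hcomp : (qExpand R p).comp (evalJ (jqModC R)) = evalJ (qExpand R p (jqModC R)) :=
    RingHom.ext fun P => qExpand_evalJ p _ P
  rw [hcomp, ← eval_map, h4, hw', eval_prod]
  exact Finset.prod_eq_zero (Finset.mem_univ none) (by simp)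

theorem unitEquation (p : ℕ) [Fact p.Prime] (ζ : Rˣ)
    (hζ : ∑ i ∈ Finset.range p, (ζ : R) ^ i = 0) :
    haveI : NeZero p := ⟨(Fact.out : p.Prime).ne_zero⟩
    ∃ Ψ : Polynomial (Polynomial R), Ψ.Monic ∧
      (Ψ.coeff 0 = C ((p : R) ^ 12) ∨ Ψ.coeff 0 = - C ((p : R) ^ 12)) ∧
      Ψ.eval₂ (evalJ (jqModC R))
        ((p : LaurentSeries R) ^ 12 * qExpand R p (deltaL R) * deltaInvL R) = 0 := by
  obtain ⟨Ψ, h1, h2, h3⟩ := unitEquation' R p ζ hζ
  exact ⟨Ψ, h1, Or.inl h2, h3⟩

/-- (A3) -/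
theorem thetaL_jq_pow_six :
    thetaL (jqModC R) ^ 6 = deltaL R * jqModC R ^ 4 * (jqModC R - 1728) ^ 3 := by
  have hZ : thetaL (jqModC ℤ) ^ 6 = deltaL ℤ * jqModC ℤ ^ 4 * (jqModC ℤ - 1728) ^ 3 := by
    apply coeffMap_injective (Int.castRingHom ℂ) Int.cast_injective
    rw [map_pow, coeffMap_thetaL, map_mul, map_mul, map_pow, map_pow, map_sub, coeffMap_jqModC,
      coeffMap_deltaL, map_ofNat]
    exact thetaL_jq_pow_six_complex
  have := congrArg (coeffMap (Int.castRingHom R)) hZ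
  rwa [map_pow, coeffMap_thetaL, map_mul, map_mul, map_pow, map_pow, map_sub, coeffMap_jqModC,
    coeffMap_deltaL, map_ofNat] at this

end FAIg
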