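import Fermat.Agent.Igusa.DefsA

/-! S28-(A0): the `q`-expansion principle for polynomials in `j`. -/

set_option autoImplicit false

open ModularCurve Polynomial

namespace FAIg

variable {R : Type*} [CommRing R]

lemma coeff_jqModC_pow_mem (S : Subring R) (n : ℕ) (k : ℤ) : ((jqModC R) ^ n).coeff k ∈ S := by
  rw [← coeffMap_jqModC (Int.castRingHom R), ← map_pow, coeffMap_coeff]
  exact intCast_mem S _

lemma evalJ_eq_sum (y : LaurentSeries R) (P : Polynomial R) :
    evalJ y P = ∑ i ∈ Finset.range (P.natDegree + 1), HahnSeries.C (P.coeff i) * y ^ i := by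
  rw [evalJ, coe_eval₂RingHom, eval₂_eq_sum_range]

lemma coeff_C_mul (r : R) (x : LaurentSeries R) (k : ℤ) :
    (HahnSeries.C r * x).coeff k = r * x.coeff k := by
  rw [HahnSeries.C_apply, HahnSeries.coeff_single_zero_mul]

lemma coeff_finset_sum {ι : Type*} (s : Finset ι) (f : ι → LaurentSeries R) (k : ℤ) :
    (∑ i ∈ s, f i).coeff k = ∑ i ∈ s, (f i).coeff k := by
  classical
  induction s using Finset.induction_on with
  | empty => simp
  | insert i t hi IH => rw [Finset.sum_insert hi, Finset.sum_insert hi, HahnSeries.coeff_add, IH]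

/-- the coefficient of `q^{-n}` in `P(j)`, `n = deg P`, is the leading coefficient. -/
lemma coeff_evalJ_jq_neg_natDegree (P : Polynomial R) :
    (evalJ (jqModC R) P).coeff (-(P.natDegree : ℤ)) = P.leadingCoeff := by
  rw [evalJ_eq_sum, coeff_finset_sum, Finset.sum_range_succ, coeff_C_mul, coeff_jqModC_pow_self,
    mul_one, Finset.sum_eq_zero, zero_add]
  · rfl
  · intro i hi
    rw [coeff_C_mul, coeff_jqModC_pow_of_lt, mul_zero]
    have := Finset.mem_range.mp hi
    omega

/-- (A0) if `P(j)` has all its `q`-coefficients in the subring `S`, so does `P`. -/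
theorem coeff_mem_of_evalJ_jq (S : Subring R) (P : Polynomial R)
    (h : ∀ k, (evalJ (jqModC R) P).coeff k ∈ S) : ∀ i, P.coeff i ∈ S := by
  induction hn : P.support.card using Nat.strong_induction_on generalizing P with
  | _ n ih =>
    by_cases hP : P = 0
    · intro i
      simp [hP]
    have hlead : P.leadingCoeff ∈ S := by
      rw [← coeff_evalJ_jq_neg_natDegree]
      exact h _
    have h1 : ∀ k, (evalJ (jqModC R) P.eraseLead).coeff k ∈ S := by
      intro k
      have e : P.eraseLead = P - C P.leadingCoeff * X ^ P.natDegree := by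
        rw [C_mul_X_pow_eq_monomial, eq_sub_iff_add_eq, eraseLead_add_monomial_natDegree_leadingCoeff]
      rw [e, map_sub, map_mul, map_pow, evalJ_X, evalJ_C, HahnSeries.coeff_sub, coeff_C_mul]
      exact sub_mem (h k) (mul_mem hlead (coeff_jqModC_pow_mem S _ _))
    have h2 := ih _ (by rw [← hn]; exact eraseLead_support_card_lt hP) P.eraseLead h1 rfl
    intro i
    by_cases hi : i = P.natDegree
    · rw [hi]
      exact hlead
    · rw [← eraseLead_coeff_of_ne i hi]
      exact h2 i

end FAIg
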