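import Mathlib
import Fermat.Prelude.Def_ModularCurve_IgusaScheme
import Fermat.Prelude.Def_ModularCurve_X0ModL

set_option autoImplicit false

open AlgebraicGeometry CategoryTheory CategoryTheory.Limits ModularCurve ModularCurve.IgusaScheme
open TopologicalSpace

noncomputable section

namespace FAIg

universe u

/-- A scheme covered by two integral open subschemes which meet is integral. -/
theorem isIntegral_of_two {X Y₁ Y₂ : Scheme.{u}} (j₁ : Y₁ ⟶ X) (j₂ : Y₂ ⟶ X)
    [IsOpenImmersion j₁] [IsOpenImmersion j₂] [IsIntegral Y₁] [IsIntegral Y₂]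
    (hcov : ∀ x : X, x ∈ Set.range j₁ ∨ x ∈ Set.range j₂)
    (hmeet : ∃ x : X, x ∈ Set.range j₁ ∧ x ∈ Set.range j₂) : IsIntegral X := by
  have hred : IsReduced X := by
    have : ∀ x : X, _root_.IsReduced (X.presheaf.stalk x) := by
      intro x
      rcases hcov x with ⟨y, rfl⟩ | ⟨y, rfl⟩
      · exact isReduced_of_injective (j₁.stalkMap y).hom
          (ConcreteCategory.bijective_of_isIso (j₁.stalkMap y)).injective
      · exact isReduced_of_injective (j₂.stalkMap y).hom
          (ConcreteCategory.bijective_of_isIso (j₂.stalkMap y)).injective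
    exact isReduced_of_isReduced_stalk X
  have hirr : IrreducibleSpace X := by
    let U : Bool → Opens X := fun b => cond b j₁.opensRange j₂.opensRange
    have h1 : IsPreirreducible (Set.range j₁) := by
      rw [← Set.image_univ]
      exact (PreirreducibleSpace.isPreirreducible_univ).image _ j₁.continuous.continuousOn
    have h2 : IsPreirreducible (Set.range j₂) := by
      rw [← Set.image_univ]
      exact (PreirreducibleSpace.isPreirreducible_univ).image _ j₂.continuous.continuousOn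
    obtain ⟨x, hx1, hx2⟩ := hmeet
    have hpre : IsPreirreducible (Set.univ : Set X) := by
      refine IsPreirreducible.of_subset_iUnion (U := U) ?_ ?_ isOpen_univ ?_
      · intro a b hab hd
        have : x ∈ (U a : Set X) ∩ (U b : Set X) := by
          cases a <;> cases b <;> first | exact absurd rfl hab | exact ⟨hx1, hx2⟩ | exact ⟨hx2, hx1⟩
        have hd' := (Opens.coe_disjoint.mpr hd)
        exact Set.disjoint_iff.mp hd' this
      · intro b
        cases b
        · exact h2
        · exact h1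
      · intro y _
        rcases hcov y with h | h
        · exact Set.mem_iUnion.mpr ⟨true, h⟩
        · exact Set.mem_iUnion.mpr ⟨false, h⟩
    exact { isPreirreducible_univ := hpre, toNonempty := ⟨x⟩ }
  exact isIntegral_of_irreducibleSpace_of_isReduced X

section BaseChange

variable {U X Y Z : Scheme.{u}} (ι : U ⟶ X) (f : X ⟶ Z) (g : Y ⟶ Z) (h : U ⟶ Z) (e : ι ≫ f = h)

/-- the base change of `ι` to the fibre product -/
def bc : pullback h g ⟶ pullback f g :=
  pullback.lift (pullback.fst h g ≫ ι) (pullback.snd h g)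
    (by rw [Category.assoc, e, pullback.condition])

@[reassoc (attr := simp)]
lemma bc_fst : bc ι f g h e ≫ pullback.fst f g = pullback.fst h g ≫ ι :=
  pullback.lift_fst _ _ _

@[reassoc (attr := simp)]
lemma bc_snd : bc ι f g h e ≫ pullback.snd f g = pullback.snd h g :=
  pullback.lift_snd _ _ _

lemma isPullback_bc : IsPullback (pullback.fst h g) (bc ι f g h e) ι (pullback.fst f g) := by
  refine IsPullback.of_bot ?_ (bc_fst ι f g h e).symm (IsPullback.of_hasPullback f g)
  rw [bc_snd, e]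
  exact IsPullback.of_hasPullback h g

instance isOpenImmersion_bc [IsOpenImmersion ι] : IsOpenImmersion (bc ι f g h e) :=
  MorphismProperty.of_isPullback (P := @IsOpenImmersion) (isPullback_bc ι f g h e) inferInstance

lemma range_bc : Set.range (bc ι f g h e) = (pullback.fst f g) ⁻¹' Set.range ι := by
  have h1 : bc ι f g h e = (isPullback_bc ι f g h e).isoPullback.hom ≫
      pullback.snd ι (pullback.fst f g) := by simp
  rw [h1, Scheme.Hom.comp_base, TopCat.coe_comp, Set.range_comp,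
    Set.range_eq_univ.mpr (isPullback_bc ι f g h e).isoPullback.hom.surjective, Set.image_univ,
    Scheme.Pullback.range_snd]

end BaseChange

section Main

open TensorProduct

/-- `ℤ_(ℓ)` -/
abbrev Rl (ℓ : ℕ) [Fact ℓ.Prime] : Type := ↥(GaloisRep.ratLocalizedAt ℓ)

variable (N : ℕ) [NeZero N] (ℓ : ℕ) [Fact ℓ.Prime]
  (K : Type) [Field K] [Algebra (Rl ℓ) K]

/-- the base change morphism -/
abbrev gK : Spec (CommRingCat.of K) ⟶ Spec (CommRingCat.of (Rl ℓ)) :=
  Spec.map (CommRingCat.ofHom (algebraMap (Rl ℓ) K))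

lemma mid_igusaTo : (fFin N ℓ ≫ ιFin N ℓ) ≫ igusaTo N ℓ =
    Spec.map (CommRingCat.ofHom (algebraMap (Rl ℓ) (chartAlgMid N ℓ))) := by
  rw [Category.assoc, ιFin_igusaTo, ← Spec.map_comp, ← CommRingCat.ofHom_comp]
  congr 2

/-- **S28 (E)**: the fibre of the Igusa scheme is integral as soon as the two charts are domains
after base change and the overlap is nonempty. -/
theorem isIntegral_pullback_of_domains'
    (hFin : IsDomain (chartAlgFin N ℓ ⊗[Rl ℓ] K)) (hInf : IsDomain (chartAlgInf N ℓ ⊗[Rl ℓ] K))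
    (hMid : Nontrivial (chartAlgMid N ℓ ⊗[Rl ℓ] K)) :
    IsIntegral ↑(pullback (igusaTo N ℓ) (gK ℓ K)) := by
  have i1 : IsIntegral (pullback
      (Spec.map (CommRingCat.ofHom (algebraMap (Rl ℓ) (chartAlgFin N ℓ)))) (gK ℓ K)) :=
    IsIntegral.of_isIso (pullbackSpecIso (Rl ℓ) (chartAlgFin N ℓ) K).inv
  have i2 : IsIntegral (pullback
      (Spec.map (CommRingCat.ofHom (algebraMap (Rl ℓ) (chartAlgInf N ℓ)))) (gK ℓ K)) :=
    IsIntegral.of_isIso (pullbackSpecIso (Rl ℓ) (chartAlgInf N ℓ) K).inv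
  refine isIntegral_of_two
    (bc (ιFin N ℓ) (igusaTo N ℓ) (gK ℓ K) _ (ιFin_igusaTo N ℓ))
    (bc (ιInf N ℓ) (igusaTo N ℓ) (gK ℓ K) _ (ιInf_igusaTo N ℓ)) ?_ ?_
  · intro x
    rw [range_bc, range_bc]
    exact mem_range_ιFin_or_mem_range_ιInf N ℓ _
  · obtain ⟨y⟩ : Nonempty (Spec (.of (chartAlgMid N ℓ ⊗[Rl ℓ] K))) :=
      inferInstanceAs (Nonempty (PrimeSpectrum (chartAlgMid N ℓ ⊗[Rl ℓ] K)))
    let w := (pullbackSpecIso (Rl ℓ) (chartAlgMid N ℓ) K).inv y
    refine ⟨bc (fFin N ℓ ≫ ιFin N ℓ) (igusaTo N ℓ) (gK ℓ K) _ (mid_igusaTo N ℓ) w, ?_, ?_⟩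
    · rw [range_bc, Set.mem_preimage, ← Scheme.Hom.comp_apply, bc_fst]
      exact ⟨fFin N ℓ ((pullback.fst (Spec.map (CommRingCat.ofHom
        (algebraMap (Rl ℓ) (chartAlgMid N ℓ)))) (gK ℓ K)) w), by simp⟩
    · rw [range_bc, Set.mem_preimage, ← Scheme.Hom.comp_apply, bc_fst, glue_condition]
      exact ⟨fInf N ℓ ((pullback.fst (Spec.map (CommRingCat.ofHom
        (algebraMap (Rl ℓ) (chartAlgMid N ℓ)))) (gK ℓ K)) w), by simp⟩

/-- The same with the tensor factors in the other order. -/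
theorem isIntegral_pullback_of_domains
    (hFin : IsDomain (K ⊗[Rl ℓ] chartAlgFin N ℓ)) (hInf : IsDomain (K ⊗[Rl ℓ] chartAlgInf N ℓ))
    (hMid : Nontrivial (K ⊗[Rl ℓ] chartAlgMid N ℓ)) :
    IsIntegral ↑(pullback (igusaTo N ℓ)
      (Spec.map (CommRingCat.ofHom (algebraMap ↥(GaloisRep.ratLocalizedAt ℓ) K)))) :=
  isIntegral_pullback_of_domains' N ℓ K
    ((Algebra.TensorProduct.comm (Rl ℓ) (chartAlgFin N ℓ) K).toMulEquiv.isDomain _)
    ((Algebra.TensorProduct.comm (Rl ℓ) (chartAlgInf N ℓ) K).toMulEquiv.isDomain _)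
    ((Algebra.TensorProduct.comm (Rl ℓ) (chartAlgMid N ℓ) K).toEquiv.nontrivial)

end Main

end FAIg
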