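import Mathlib
import Fermat.Prelude.Def_ModularCurve_LaurentCoeff
import Fermat.Prelude.Def_GaloisRep_Flat

set_option autoImplicit false

open TensorProduct ModularCurve

noncomputable section

namespace FAIg

section General

variable {R A K k : Type*} [CommRing R] [CommRing A] [Algebra R A] [Field K] [Algebra R K]
  [Field k] [Algebra k K]

/-- The comparison map `K ⊗[R] A → K((q))` attached to `φ : A → k((q))`. -/
def tensorToLaurent (φ : A →+* LaurentSeries k)
    (hφR : ∀ r : R, coeffMap (algebraMap k K) (φ (algebraMap R A r)) =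
      HahnSeries.C (algebraMap R K r)) : K ⊗[R] A →+* LaurentSeries K :=
  letI : Algebra R (LaurentSeries K) :=
    ((HahnSeries.C : K →+* LaurentSeries K).comp (algebraMap R K)).toAlgebra
  (Algebra.TensorProduct.productMap
    ({ (HahnSeries.C : K →+* LaurentSeries K) with
        commutes' := fun _ => rfl } : K →ₐ[R] LaurentSeries K)
    ({ (coeffMap (algebraMap k K)).comp φ with
        commutes' := fun r => hφR r } : A →ₐ[R] LaurentSeries K)).toRingHom

lemma tensorToLaurent_tmul (φ : A →+* LaurentSeries k)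
    (hφR : ∀ r : R, coeffMap (algebraMap k K) (φ (algebraMap R A r)) =
      HahnSeries.C (algebraMap R K r)) (κ : K) (a : A) :
    tensorToLaurent φ hφR (κ ⊗ₜ a) = HahnSeries.C κ * coeffMap (algebraMap k K) (φ a) := by
  let _ : Algebra R (LaurentSeries K) :=
    ((HahnSeries.C : K →+* LaurentSeries K).comp (algebraMap R K)).toAlgebra
  exact Algebra.TensorProduct.productMap_apply_tmul _ _ _ _

theorem nontrivial_tensor_of_laurent (φ : A →+* LaurentSeries k)
    (hφR : ∀ r : R, coeffMap (algebraMap k K) (φ (algebraMap R A r)) =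
      HahnSeries.C (algebraMap R K r)) : Nontrivial (K ⊗[R] A) :=
  (tensorToLaurent φ hφR).domain_nontrivial

/-- every element of `K ⊗[R] A` is a combination of basis vectors of `K/k` -/
lemma exists_finsupp_tmul (hsurj : ∀ c : k, ∃ r : R, algebraMap R K r = algebraMap k K c)
    {ι : Type*} (b : Module.Basis ι k K) (t : K ⊗[R] A) :
    ∃ a : ι →₀ A, t = a.sum fun i x => b i ⊗ₜ[R] x := by
  classical
  induction t using TensorProduct.induction_on with
  | zero => exact ⟨0, by simp⟩
  | tmul κ x =>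
    choose r hr using hsurj
    refine ⟨∑ i ∈ (b.repr κ).support, Finsupp.single i (r (b.repr κ i) • x), ?_⟩
    have hadd : ∀ (s : Finset ι) (g : ι → A),
        (∑ i ∈ s, Finsupp.single i (g i)).sum (fun i x => b i ⊗ₜ[R] x) =
          ∑ i ∈ s, b i ⊗ₜ[R] g i := by
      intro s g
      induction s using Finset.induction_on with
      | empty => simp
      | insert j s hj ih =>
        rw [Finset.sum_insert hj, Finset.sum_insert hj,
          Finsupp.sum_add_index' (by simp) (by intro i x y; rw [TensorProduct.tmul_add]), ih,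
          Finsupp.sum_single_index (by simp)]
    rw [hadd]
    conv_lhs => rw [← b.linearCombination_repr κ, Finsupp.linearCombination_apply, Finsupp.sum,
      TensorProduct.sum_tmul]
    refine Finset.sum_congr rfl fun i _ => ?_
    have e : (b.repr κ i) • b i = r (b.repr κ i) • b i := by
      rw [Algebra.smul_def, Algebra.smul_def, hr]
    rw [e, TensorProduct.smul_tmul]
  | add t t' h h' =>
    obtain ⟨a, rfl⟩ := h
    obtain ⟨a', rfl⟩ := h'
    refine ⟨a + a', ?_⟩
    rw [Finsupp.sum_add_index' (by simp) (by intro i x y; rw [TensorProduct.tmul_add])]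

theorem tensorToLaurent_injective (hsurj : ∀ c : k, ∃ r : R, algebraMap R K r = algebraMap k K c)
    (φ : A →+* LaurentSeries k)
    (hφR : ∀ r : R, coeffMap (algebraMap k K) (φ (algebraMap R A r)) =
      HahnSeries.C (algebraMap R K r))
    (hker : ∀ a : A, φ a = 0 → ∃ (r : R) (a' : A), algebraMap R K r = 0 ∧ a = r • a') :
    Function.Injective (tensorToLaurent φ hφR) := by
  classical
  rw [injective_iff_map_eq_zero]
  intro t ht
  let b := Module.Basis.ofVectorSpace k K
  obtain ⟨a, rfl⟩ := exists_finsupp_tmul (A := A) hsurj b t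
  have hcoeff : ∀ n : ℤ, Finsupp.linearCombination k b
      (a.mapRange (fun x => (φ x).coeff n) (by simp)) = 0 := by
    intro n
    have h1 := congrArg (fun s : LaurentSeries K => s.coeff n) ht
    simp only [HahnSeries.coeff_zero] at h1
    rw [map_finsuppSum] at h1
    rw [Finsupp.linearCombination_apply, Finsupp.sum_mapRange_index (by simp), ← h1]
    rw [Finsupp.sum, Finsupp.sum, HahnSeries.coeff_sum]
    refine Finset.sum_congr rfl fun i _ => ?_
    rw [tensorToLaurent_tmul, HahnSeries.C_mul_eq_smul, HahnSeries.coeff_smul, coeffMap_coeff,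
      Algebra.smul_def, smul_eq_mul, mul_comm]
  have hzero : ∀ i, φ (a i) = 0 := by
    intro i
    ext n
    have := (linearIndependent_iff.mp b.linearIndependent) _ (hcoeff n)
    have h2 := DFunLike.congr_fun this i
    simpa using h2
  rw [Finsupp.sum]
  refine Finset.sum_eq_zero fun i _ => ?_
  obtain ⟨r, a', hr, ha'⟩ := hker _ (hzero i)
  rw [ha', ← TensorProduct.smul_tmul, Algebra.smul_def, hr, zero_mul, TensorProduct.zero_tmul]

/-- **S28 (D)**, general form. -/
theorem isDomain_tensor_of_laurent (hsurj : ∀ c : k, ∃ r : R, algebraMap R K r = algebraMap k K c)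
    (φ : A →+* LaurentSeries k)
    (hφR : ∀ r : R, coeffMap (algebraMap k K) (φ (algebraMap R A r)) =
      HahnSeries.C (algebraMap R K r))
    (hker : ∀ a : A, φ a = 0 → ∃ (r : R) (a' : A), algebraMap R K r = 0 ∧ a = r • a') :
    IsDomain (K ⊗[R] A) :=
  (tensorToLaurent_injective hsurj φ hφR hker).isDomain _

end General

section Special

variable (ℓ : ℕ) [Fact ℓ.Prime]

omit [Fact ℓ.Prime] in
/-- Ring homomorphisms out of `ℤ_(ℓ)` are unique. -/
theorem ratLocalizedAt_ringHom_ext {S : Type*} [CommRing S]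
    (f g : ↥(GaloisRep.ratLocalizedAt ℓ) →+* S) : f = g := by
  ext ⟨q, hq⟩
  have hd : (q.den : ℚ) ≠ 0 := by exact_mod_cast q.den_nz
  let u : ↥(GaloisRep.ratLocalizedAt ℓ) := ⟨1 / (q.den : ℚ), by
    show ((1 : ℚ) / (q.den : ℚ)).den.Coprime ℓ
    have : ((1 : ℚ) / (q.den : ℚ)).den = q.den := by
      rw [one_div, Rat.inv_natCast_den_of_pos q.den_pos]
    rw [this]
    exact hq⟩
  have hu : u * (q.den : ↥(GaloisRep.ratLocalizedAt ℓ)) = 1 := by
    apply Subtype.ext
    show (1 / (q.den : ℚ)) * ((q.den : ↥(GaloisRep.ratLocalizedAt ℓ)) : ℚ) = 1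
    rw [show ((q.den : ↥(GaloisRep.ratLocalizedAt ℓ)) : ℚ) = (q.den : ℚ) by simp]
    field_simp
  have hq' : (⟨q, hq⟩ : ↥(GaloisRep.ratLocalizedAt ℓ)) = u * (q.num : ↥(GaloisRep.ratLocalizedAt ℓ)) := by
    apply Subtype.ext
    show q = (1 / (q.den : ℚ)) * ((q.num : ↥(GaloisRep.ratLocalizedAt ℓ)) : ℚ)
    rw [show ((q.num : ↥(GaloisRep.ratLocalizedAt ℓ)) : ℚ) = (q.num : ℚ) by simp]
    rw [one_div, mul_comm, ← div_eq_mul_inv, Rat.num_div_den]
  have hfu : f u * (q.den : S) = 1 := by
    rw [← map_natCast f, ← map_mul, hu, map_one]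
  have hgu : g u * (q.den : S) = 1 := by
    rw [← map_natCast g, ← map_mul, hu, map_one]
  have hfg : f u = g u := by
    calc f u = f u * (g u * (q.den : S)) := by rw [hgu, mul_one]
      _ = (f u * (q.den : S)) * g u := by ring
      _ = g u := by rw [hfu, one_mul]
  rw [hq', map_mul, map_mul, map_intCast, map_intCast, hfg]

variable (K : Type*) [Field K] [CharP K ℓ] [Algebra ↥(GaloisRep.ratLocalizedAt ℓ) K]
  {A : Type*} [CommRing A] [Algebra ↥(GaloisRep.ratLocalizedAt ℓ) A]

/-- **S28 (D1)**: if `A/ℓA` embeds in `𝔽_ℓ((q))`, then `K ⊗ A` is a domain for every field `K` of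
characteristic `ℓ`. -/
theorem isDomain_tensor_ratLocalizedAt (φ : A →+* LaurentSeries (ZMod ℓ))
    (hker : ∀ a : A, φ a = 0 → ∃ a' : A, a = (ℓ : A) * a') :
    IsDomain (K ⊗[↥(GaloisRep.ratLocalizedAt ℓ)] A) := by
  let _ := ZMod.algebra K ℓ
  refine isDomain_tensor_of_laurent (k := ZMod ℓ) ?_ φ ?_ ?_
  · intro c
    refine ⟨(c.val : ↥(GaloisRep.ratLocalizedAt ℓ)), ?_⟩
    conv_rhs => rw [← ZMod.natCast_zmod_val c]
    rw [map_natCast, map_natCast]
  · intro r
    exact RingHom.congr_fun (ratLocalizedAt_ringHom_ext ℓ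
      (((coeffMap (algebraMap (ZMod ℓ) K)).comp φ).comp (algebraMap _ A))
      ((HahnSeries.C : K →+* LaurentSeries K).comp (algebraMap _ K))) r
  · intro a ha
    obtain ⟨a', rfl⟩ := hker a ha
    refine ⟨(ℓ : ↥(GaloisRep.ratLocalizedAt ℓ)), a', ?_, ?_⟩
    · rw [map_natCast, CharP.cast_eq_zero]
    · rw [Nat.cast_smul_eq_nsmul, nsmul_eq_mul]

/-- **S28 (D2)**: any ring hom `A → 𝔽_ℓ((q))` shows that `K ⊗ A` is nontrivial. -/
theorem nontrivial_tensor_ratLocalizedAt (φ : A →+* LaurentSeries (ZMod ℓ)) :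
    Nontrivial (K ⊗[↥(GaloisRep.ratLocalizedAt ℓ)] A) := by
  let _ := ZMod.algebra K ℓ
  refine nontrivial_tensor_of_laurent (k := ZMod ℓ) φ ?_
  intro r
  exact RingHom.congr_fun (ratLocalizedAt_ringHom_ext ℓ
    (((coeffMap (algebraMap (ZMod ℓ) K)).comp φ).comp (algebraMap _ A))
    ((HahnSeries.C : K →+* LaurentSeries K).comp (algebraMap _ K))) r

end Special

end FAIg
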