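import Mathlib
import Fermat.Prelude.Def_ModularCurve_X0ModL

/-!
# S28 (B): formal Laurent series toolbox and the interface (A) → (B)

`twist ξ : f(q) ↦ f(ξ q)`, `theta = q d/dq`, `dq = Δ(q)`, `evalAt`, and the three hypotheses
`HasModPoly`, `HasUnitPoly`, `ThetaIdentity`.
-/

open ModularCurve

namespace FAIg

section ring

variable (R : Type*) [CommRing R]

/-- `Δ(q) = q ∏ (1 - q^n)^24`. -/
noncomputable def dq : LaurentSeries R :=
  HahnSeries.single (1 : ℤ) 1 *
    HahnSeries.ofPowerSeries ℤ R (dedekindEtaUnit.map (Int.castRingHom R))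

/-- `1 / Δ(q)`. -/
noncomputable def dqInv : LaurentSeries R :=
  HahnSeries.single (-1 : ℤ) 1 *
    HahnSeries.ofPowerSeries ℤ R (dedekindEtaUnitInv.map (Int.castRingHom R))

lemma dq_mul_dqInv : dq R * dqInv R = 1 := by
  unfold dq dqInv
  rw [mul_mul_mul_comm, HahnSeries.single_mul_single, ← map_mul, ← map_mul,
    dedekindEtaUnit_mul_inv]
  simp

variable {R} in
lemma coeffMap_dq {S : Type*} [CommRing S] (f : R →+* S) : coeffMap f (dq R) = dq S := by
  rw [dq, map_mul, coeffMap_single, map_one, coeffMap_ofPowerSeries,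
    ← RingHom.comp_apply (PowerSeries.map f) (PowerSeries.map (Int.castRingHom R)),
    ← PowerSeries.map_comp, RingHom.ext_int (f.comp (Int.castRingHom R)) (Int.castRingHom S)]
  rfl

variable {R} in
lemma coeffMap_dqInv {S : Type*} [CommRing S] (f : R →+* S) : coeffMap f (dqInv R) = dqInv S := by
  rw [dqInv, map_mul, coeffMap_single, map_one, coeffMap_ofPowerSeries,
    ← RingHom.comp_apply (PowerSeries.map f) (PowerSeries.map (Int.castRingHom R)),
    ← PowerSeries.map_comp, RingHom.ext_int (f.comp (Int.castRingHom R)) (Int.castRingHom S)]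
  rfl

/-- `θ = q d/dq`. -/
noncomputable def theta : LaurentSeries R →+ LaurentSeries R where
  toFun x :=
    { coeff := fun n => (n : R) * x.coeff n
      isPWO_support' := x.isPWO_support.mono (by
        intro n hn
        simp only [Function.mem_support, ne_eq] at hn ⊢
        intro h
        exact hn (by rw [h, mul_zero])) }
  map_zero' := by
    ext n
    simp
  map_add' x y := by
    ext n
    simp [mul_add]

variable {R}

@[simp] lemma coeff_theta (x : LaurentSeries R) (n : ℤ) :
    (theta R x).coeff n = (n : R) * x.coeff n := rfl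

lemma support_theta_subset (x : LaurentSeries R) : (theta R x).support ⊆ x.support := by
  intro n hn
  simp only [HahnSeries.mem_support, coeff_theta, ne_eq] at hn ⊢
  intro h
  exact hn (by rw [h, mul_zero])

lemma theta_mul (x y : LaurentSeries R) :
    theta R (x * y) = theta R x * y + x * theta R y := by
  ext n
  rw [coeff_theta, HahnSeries.coeff_add, HahnSeries.coeff_mul,
    HahnSeries.coeff_mul_left' x.isPWO_support (support_theta_subset x),
    HahnSeries.coeff_mul_right' y.isPWO_support (support_theta_subset y), Finset.mul_sum,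
    ← Finset.sum_add_distrib]
  apply Finset.sum_congr rfl
  intro ij hij
  have := (Finset.mem_antidiagonal.mp hij).2.2
  rw [coeff_theta, coeff_theta, ← this]
  push_cast
  ring

lemma theta_C (r : R) : theta R (HahnSeries.C r) = 0 := by
  ext n
  rw [coeff_theta, HahnSeries.C_apply, HahnSeries.coeff_single]
  split_ifs with h
  · simp [h]
  · simp

lemma theta_one : theta R 1 = 0 := by
  have := theta_C (1 : R)
  rwa [map_one] at this

lemma theta_pow (x : LaurentSeries R) (n : ℕ) :
    theta R (x ^ n) = (n : LaurentSeries R) * x ^ (n - 1) * theta R x := by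
  induction n with
  | zero => simp [theta_one]
  | succ n ih =>
    rw [pow_succ, theta_mul, ih]
    rcases n with _ | n
    · simp
    · simp only [Nat.add_sub_cancel]
      push_cast
      ring

lemma theta_qExpand (n : ℕ) [NeZero n] (x : LaurentSeries R) :
    theta R (qExpand R n x) = HahnSeries.C (n : R) * qExpand R n (theta R x) := by
  ext m
  rw [coeff_theta, HahnSeries.C_mul_eq_smul, HahnSeries.coeff_smul, smul_eq_mul]
  by_cases hm : (n : ℤ) ∣ m
  · obtain ⟨c, rfl⟩ := hm
    rw [qExpand_coeff_mul, qExpand_coeff_mul, coeff_theta]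
    push_cast
    ring
  · rw [qExpand_coeff_of_not_dvd n _ hm, qExpand_coeff_of_not_dvd n _ hm]
    simp

lemma coeffMap_theta {S : Type*} [CommRing S] (f : R →+* S) (x : LaurentSeries R) :
    coeffMap f (theta R x) = theta S (coeffMap f x) := by
  ext n
  simp

variable (R)

/-- evaluation of a polynomial at a Laurent series. -/
noncomputable def evalAt (u : LaurentSeries R) : Polynomial R →+* LaurentSeries R :=
  Polynomial.eval₂RingHom HahnSeries.C u

/-- `j(q^d)` as a total function of `d`. -/
noncomputable def jdT (d : ℕ) : LaurentSeries R :=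
  if h : d = 0 then 0 else @qExpand R _ d ⟨h⟩ (jqModC R)

lemma jdT_eq (d : ℕ) [NeZero d] : jdT R d = qExpand R d (jqModC R) := by
  rw [jdT, dif_neg (NeZero.ne d)]

/-- (A1) over `R`: the modular equation of prime level `p`. -/
def HasModPoly (p : ℕ) [NeZero p] : Prop :=
  ∃ Φ : Polynomial (Polynomial R), Φ.Monic ∧ Φ.natDegree = p + 1 ∧
    Φ.eval₂ (evalAt R (jqModC R)) (qExpand R p (jqModC R)) = 0 ∧
    Φ.eval₂ (evalAt R (qExpand R p (jqModC R))) (jqModC R) = 0

/-- (A2) over `R`: `Δ(q^p)/Δ(q)` is a root of a monic polynomial over `R[j]` whose constant term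
is a unit of `R`. -/
def HasUnitPoly (p : ℕ) [NeZero p] : Prop :=
  ∃ Ψ : Polynomial (Polynomial R), Ψ.Monic ∧ (∃ c : R, IsUnit c ∧ Ψ.coeff 0 = Polynomial.C c) ∧
    Ψ.eval₂ (evalAt R (jqModC R)) (qExpand R p (dq R) * dqInv R) = 0

/-- (A3) over `R`. -/
def ThetaIdentity : Prop :=
  (theta R (jqModC R)) ^ 6 = dq R * (jqModC R) ^ 4 * (jqModC R - 1728) ^ 3

end ring

section twist

variable {R : Type*} [CommRing R]

/-- underlying function of `twist`. -/
noncomputable def twistFun (ξ : Rˣ) (x : LaurentSeries R) : LaurentSeries R where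
  coeff n := ((ξ ^ n : Rˣ) : R) * x.coeff n
  isPWO_support' := x.isPWO_support.mono (by
    intro n hn
    simp only [Function.mem_support, ne_eq] at hn ⊢
    intro h
    exact hn (by rw [h, mul_zero]))

lemma coeff_twistFun (ξ : Rˣ) (x : LaurentSeries R) (n : ℤ) :
    (twistFun ξ x).coeff n = ((ξ ^ n : Rˣ) : R) * x.coeff n := rfl

lemma support_twistFun_subset (ξ : Rˣ) (x : LaurentSeries R) :
    (twistFun ξ x).support ⊆ x.support := by
  intro n hn
  simp only [HahnSeries.mem_support, coeff_twistFun, ne_eq] at hn ⊢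
  intro h
  exact hn (by rw [h, mul_zero])

lemma twistFun_mul (ξ : Rˣ) (x y : LaurentSeries R) :
    twistFun ξ (x * y) = twistFun ξ x * twistFun ξ y := by
  ext n
  rw [coeff_twistFun, HahnSeries.coeff_mul,
    HahnSeries.coeff_mul_left' x.isPWO_support (support_twistFun_subset ξ x), Finset.mul_sum]
  have h2 : ∀ (s : Set ℤ) (hs : s.IsPWO),
      ∑ ij ∈ Finset.antidiagonal hs (twistFun ξ y).isPWO_support n,
        (twistFun ξ x).coeff ij.1 * (twistFun ξ y).coeff ij.2 =
      ∑ ij ∈ Finset.antidiagonal hs y.isPWO_support n,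
        (twistFun ξ x).coeff ij.1 * (twistFun ξ y).coeff ij.2 := by
    intro s hs
    apply Finset.sum_subset
    · intro ij hij
      rw [Finset.mem_antidiagonal] at hij ⊢
      exact ⟨hij.1, support_twistFun_subset ξ y hij.2.1, hij.2.2⟩
    · intro ij hij hij2
      rw [Finset.mem_antidiagonal] at hij hij2
      have : (twistFun ξ y).coeff ij.2 = 0 := by
        by_contra h
        exact hij2 ⟨hij.1, h, hij.2.2⟩
      rw [this, mul_zero]
  rw [h2]
  apply Finset.sum_congr rfl
  intro ij hij
  have := (Finset.mem_antidiagonal.mp hij).2.2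
  rw [coeff_twistFun, coeff_twistFun, ← this, zpow_add]
  push_cast
  ring

/-- `f(q) ↦ f(ξ q)`. -/
noncomputable def twist (ξ : Rˣ) : LaurentSeries R →+* LaurentSeries R where
  toFun := twistFun ξ
  map_zero' := by
    ext n
    simp [coeff_twistFun]
  map_add' x y := by
    ext n
    simp [coeff_twistFun, mul_add]
  map_one' := by
    ext n
    rw [coeff_twistFun, HahnSeries.coeff_one]
    split_ifs with h
    · simp [h]
    · simp
  map_mul' := twistFun_mul ξ

@[simp] lemma coeff_twist (ξ : Rˣ) (x : LaurentSeries R) (n : ℤ) :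
    (twist ξ x).coeff n = ((ξ ^ n : Rˣ) : R) * x.coeff n := rfl

lemma twist_C (ξ : Rˣ) (r : R) : twist ξ (HahnSeries.C r) = HahnSeries.C r := by
  ext n
  rw [coeff_twist, HahnSeries.C_apply, HahnSeries.coeff_single]
  split_ifs with h
  · simp [h]
  · simp

lemma twist_twist (ξ η : Rˣ) (x : LaurentSeries R) : twist ξ (twist η x) = twist (ξ * η) x := by
  ext n
  rw [coeff_twist, coeff_twist, coeff_twist, mul_zpow]
  push_cast
  ring

lemma twist_one (x : LaurentSeries R) : twist (1 : Rˣ) x = x := by
  ext n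
  simp

lemma twist_injective (ξ : Rˣ) : Function.Injective (twist ξ) := by
  intro x y h
  have := congr_arg (twist ξ⁻¹) h
  rwa [twist_twist, twist_twist, inv_mul_cancel, twist_one, twist_one] at this

lemma twist_qExpand (ξ : Rˣ) (n : ℕ) [NeZero n] (x : LaurentSeries R) :
    twist ξ (qExpand R n x) = qExpand R n (twist (ξ ^ n) x) := by
  ext m
  rw [coeff_twist]
  by_cases hm : (n : ℤ) ∣ m
  · obtain ⟨c, rfl⟩ := hm
    rw [qExpand_coeff_mul, qExpand_coeff_mul, coeff_twist, zpow_mul, zpow_natCast]
  · rw [qExpand_coeff_of_not_dvd n _ hm, qExpand_coeff_of_not_dvd n _ hm, mul_zero]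

lemma twist_qExpand_of_pow_eq_one (ξ : Rˣ) (n : ℕ) [NeZero n] (h : ξ ^ n = 1)
    (x : LaurentSeries R) : twist ξ (qExpand R n x) = qExpand R n x := by
  rw [twist_qExpand, h, twist_one]

end twist

end FAIg
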