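import Mathlib
import Fermat.Prelude.Def_GaloisRep_Flat

/-!
# S28 (C), part 0: the ring `ℤ_(ℓ) = ratLocalizedAt ℓ` and its residue map
-/

set_option autoImplicit false

noncomputable section

namespace FAIg

variable (ℓ : ℕ) [Fact ℓ.Prime]

/-- `ℤ_(ℓ)` as a subring of `ℚ` -/
abbrev RlS : Subring ℚ := GaloisRep.ratLocalizedAt ℓ

variable {ℓ}

omit [Fact ℓ.Prime] in
lemma mem_RlS_iff {c : ℚ} : c ∈ RlS ℓ ↔ c.den.Coprime ℓ := Iff.rfl

lemma den_ne_zero_of_mem {c : ℚ} (hc : c ∈ RlS ℓ) : (c.den : ZMod ℓ) ≠ 0 := by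
  rw [Ne, ZMod.natCast_eq_zero_iff]
  intro h
  have h1 : ℓ ∣ Nat.gcd c.den ℓ := Nat.dvd_gcd h dvd_rfl
  rw [mem_RlS_iff.1 hc] at h1
  exact (Fact.out : ℓ.Prime).one_lt.ne' (Nat.dvd_one.1 h1)

variable (ℓ)

/-- the residue map `ℤ_(ℓ) → 𝔽_ℓ` -/
def resR : RlS ℓ →+* ZMod ℓ where
  toFun c := ((c : ℚ) : ZMod ℓ)
  map_one' := by simp
  map_zero' := by simp
  map_mul' a b := by
    show (((a : ℚ) * (b : ℚ) : ℚ) : ZMod ℓ) = _
    exact Rat.cast_mul_of_ne_zero (den_ne_zero_of_mem a.2) (den_ne_zero_of_mem b.2)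
  map_add' a b := by
    show (((a : ℚ) + (b : ℚ) : ℚ) : ZMod ℓ) = _
    exact Rat.cast_add_of_ne_zero (den_ne_zero_of_mem a.2) (den_ne_zero_of_mem b.2)

variable {ℓ}

lemma resR_apply (c : RlS ℓ) : resR ℓ c = ((c : ℚ) : ZMod ℓ) := rfl

omit [Fact ℓ.Prime] in
lemma intCast_mem (n : ℤ) : (n : ℚ) ∈ RlS ℓ := by
  rw [mem_RlS_iff]; simp

/-- a fraction with denominator prime to `ℓ` is in `ℤ_(ℓ)` -/
lemma div_mem {a : ℤ} {b : ℕ} (hb : ¬ ℓ ∣ b) : (a : ℚ) / (b : ℚ) ∈ RlS ℓ := by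
  rw [mem_RlS_iff]
  have hb0 : b ≠ 0 := fun h => hb (h ▸ dvd_zero _)
  have h1 : ((a : ℚ) / (b : ℚ)).den ∣ b := by
    have := Rat.den_dvd a (b : ℤ)
    rw [Rat.divInt_eq_div] at this
    exact_mod_cast this
  have h2 : Nat.Coprime b ℓ :=
    (Nat.Coprime.symm ((Nat.Prime.coprime_iff_not_dvd Fact.out).2 hb))
  exact Nat.Coprime.coprime_dvd_left h1 h2

lemma resR_eq_zero_iff (c : RlS ℓ) : resR ℓ c = 0 ↔ ∃ c' : RlS ℓ, c = (ℓ : RlS ℓ) * c' := by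
  constructor
  · intro h
    rw [resR_apply, Rat.cast_def, div_eq_zero_iff, or_iff_left (den_ne_zero_of_mem c.2),
      ZMod.intCast_zmod_eq_zero_iff_dvd] at h
    obtain ⟨m, hm⟩ := h
    have hden : ¬ ℓ ∣ (c : ℚ).den := by
      intro h
      exact den_ne_zero_of_mem c.2 ((ZMod.natCast_eq_zero_iff _ _).2 h)
    refine ⟨⟨(m : ℚ) / ((c : ℚ).den : ℚ), div_mem hden⟩, Subtype.ext ?_⟩
    show (c : ℚ) = ((ℓ : RlS ℓ) : ℚ) * ((m : ℚ) / ((c : ℚ).den : ℚ))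
    have h1 : ((ℓ : RlS ℓ) : ℚ) = (ℓ : ℚ) := by simp
    rw [h1]
    conv_lhs => rw [← Rat.num_div_den (c : ℚ), hm]
    push_cast
    ring
  · rintro ⟨c', rfl⟩
    rw [map_mul, map_natCast, ZMod.natCast_self, zero_mul]

lemma ell_ne_zero : ((ℓ : RlS ℓ)) ≠ 0 := by
  intro h
  have := congrArg (Subtype.val) h
  have h1 : ((ℓ : RlS ℓ) : ℚ) = (ℓ : ℚ) := by simp
  rw [h1] at this
  exact (Fact.out : ℓ.Prime).ne_zero (by exact_mod_cast this)

/-- every nonzero element of `ℤ_(ℓ)` is a power of `ℓ` times a unit -/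
lemma exists_pow_mul (c : RlS ℓ) (hc : c ≠ 0) :
    ∃ (m : ℕ) (u : RlS ℓ), resR ℓ u ≠ 0 ∧ c = (ℓ : RlS ℓ) ^ m * u := by
  have key : ∀ (n : ℕ) (c : RlS ℓ), c ≠ 0 → (c : ℚ).num.natAbs = n →
      ∃ (m : ℕ) (u : RlS ℓ), resR ℓ u ≠ 0 ∧ c = (ℓ : RlS ℓ) ^ m * u := by
    intro n
    induction n using Nat.strong_induction_on with
    | _ n ih =>
      intro c hc hn
      by_cases h : resR ℓ c = 0
      · obtain ⟨c', rfl⟩ := (resR_eq_zero_iff c).1 h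
        have hc' : c' ≠ 0 := by
          rintro rfl
          exact hc (mul_zero _)
        have hc'q : (c' : ℚ) ≠ 0 := fun h => hc' (Subtype.ext h)
        have h1 : (((ℓ : RlS ℓ) * c' : RlS ℓ) : ℚ) = (ℓ : ℚ) * (c' : ℚ) := by simp
        have h2 : ((ℓ : ℚ) * (c' : ℚ)).num = (ℓ : ℤ) * (c' : ℚ).num := by
          have hcop : Nat.Coprime ((ℓ : ℤ) * (c' : ℚ).num).natAbs (c' : ℚ).den := by
            rw [Int.natAbs_mul, Int.natAbs_natCast]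
            exact Nat.Coprime.mul_left (Nat.Coprime.symm c'.2) (c' : ℚ).reduced
          have h3 : (ℓ : ℚ) * (c' : ℚ) = (((ℓ : ℤ) * (c' : ℚ).num : ℤ) : ℚ) / ((c' : ℚ).den : ℚ) := by
            conv_lhs => rw [← Rat.num_div_den (c' : ℚ)]
            push_cast
            ring
          rw [h3]
          exact Rat.num_div_eq_of_coprime (by exact_mod_cast (c' : ℚ).den_pos) hcop
        have hlt : (c' : ℚ).num.natAbs < n := by
          rw [← hn, h1, h2, Int.natAbs_mul, Int.natAbs_natCast]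
          have hpos : 0 < (c' : ℚ).num.natAbs := Int.natAbs_pos.2 (Rat.num_ne_zero.2 hc'q)
          have := (Fact.out : ℓ.Prime).one_lt
          nlinarith
        obtain ⟨m, u, hu, hcu⟩ := ih _ hlt c' hc' rfl
        exact ⟨m + 1, u, hu, by rw [hcu, pow_succ]; ring⟩
      · exact ⟨0, c, h, by simp⟩
  exact key _ c hc rfl

/-- every rational number becomes `ℓ`-integral after multiplication by a power of `ℓ` -/
lemma exists_pow_mul_mem (c : ℚ) : ∃ m : ℕ, (ℓ : ℚ) ^ m * c ∈ RlS ℓ := by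
  obtain ⟨m, b, hb, hcb⟩ := Nat.exists_eq_pow_mul_and_not_dvd c.den_nz ℓ
    (Fact.out : ℓ.Prime).ne_one
  refine ⟨m, ?_⟩
  have : (ℓ : ℚ) ^ m * c = (c.num : ℚ) / (b : ℚ) := by
    have hl : (ℓ : ℚ) ≠ 0 := by exact_mod_cast (Fact.out : ℓ.Prime).ne_zero
    have hb0 : (b : ℚ) ≠ 0 := by
      intro h
      apply hb
      have : b = 0 := by exact_mod_cast h
      rw [this]; exact dvd_zero _
    conv_lhs => rw [← Rat.num_div_den c, hcb]
    push_cast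
    field_simp
  rw [this]
  exact div_mem hb

lemma inv_intCast_mem {b : ℤ} (hb : ¬ (ℓ : ℤ) ∣ b) : ((b : ℚ))⁻¹ ∈ RlS ℓ := by
  have hn : ¬ ℓ ∣ b.natAbs := fun h => hb (Int.natCast_dvd.2 h)
  rcases Int.natAbs_eq b with h | h
  · have : ((b : ℚ))⁻¹ = ((1 : ℤ) : ℚ) / (b.natAbs : ℚ) := by
      conv_lhs => rw [h]
      simp
    rw [this]
    exact div_mem hn
  · have : ((b : ℚ))⁻¹ = ((-1 : ℤ) : ℚ) / (b.natAbs : ℚ) := by
      conv_lhs => rw [h]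
      simp [neg_div, inv_neg]
    rw [this]
    exact div_mem hn

end FAIg
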