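import Mathlib

/-!
# S28 (C), part 2: abstract valuation theory
-/

set_option autoImplicit false

open Module Polynomial

noncomputable section

namespace FAIg

section Basis

variable {K₀ F : Type} [Field K₀] [Field F] [Algebra K₀ F] (V : ValuationSubring F)
  {κ : Type} [Field κ] (ρ : V →+* κ)

/-- the subring `V ∩ E` of `F` -/
def interS (E : IntermediateField K₀ F) : Subring F := V.toSubring ⊓ E.toSubfield.toSubring

lemma mem_interS {E : IntermediateField K₀ F} {f : F} : f ∈ interS V E ↔ f ∈ V ∧ f ∈ E := Iff.rfl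

variable {V}

lemma key_max (E : IntermediateField K₀ F) {n : ℕ} (b : Fin n → V)
    (hind : ∀ c : Fin n → V, (∀ i, (c i : F) ∈ E) → ∑ i, ρ (c i) * ρ (b i) = 0 → ∀ i, ρ (c i) = 0)
    (c : Fin n → F) (hcE : ∀ i, c i ∈ E) (hne : ∃ i, c i ≠ 0) :
    ∃ (i0 : Fin n) (w : V), c i0 ≠ 0 ∧ (∀ i, c i / c i0 ∈ V) ∧ ρ w ≠ 0 ∧
      ∑ i, c i * (b i : F) = c i0 * w := by
  obtain ⟨i1, hi1⟩ := hne
  obtain ⟨i0, -, hi0⟩ := Finset.exists_max_image Finset.univ (fun i => V.valuation (c i))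
    ⟨i1, Finset.mem_univ _⟩
  have h0 : c i0 ≠ 0 := by
    intro h
    have := hi0 i1 (Finset.mem_univ _)
    rw [h, map_zero, le_zero_iff, map_eq_zero] at this
    exact hi1 this
  have hV : ∀ i, c i / c i0 ∈ V := by
    intro i
    rw [← ValuationSubring.valuation_le_one_iff, map_div₀]
    exact (div_le_one₀ (zero_lt_iff.2 ((_root_.map_ne_zero _).2 h0))).2 (hi0 i (Finset.mem_univ _))
  let c' : Fin n → V := fun i => ⟨c i / c i0, hV i⟩
  refine ⟨i0, ∑ i, c' i * b i, h0, hV, ?_, ?_⟩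
  · intro h
    rw [map_sum] at h
    simp only [map_mul] at h
    have := hind c' (fun i => div_mem (hcE i) (hcE i0)) h i0
    have h1 : c' i0 = 1 := Subtype.ext (div_self h0)
    rw [h1, map_one] at this
    exact one_ne_zero this
  · push_cast
    rw [Finset.mul_sum]
    refine Finset.sum_congr rfl fun i _ => ?_
    show c i * (b i : F) = c i0 * (c i / c i0 * (b i : F))
    field_simp

theorem exists_coeffs (hloc : ∀ v : V, ρ v ≠ 0 → (v : F)⁻¹ ∈ V) (E : IntermediateField K₀ F)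
    [FiniteDimensional E F] {n : ℕ} (hn : finrank E F ≤ n) (b : Fin n → V)
    (hind : ∀ c : Fin n → V, (∀ i, (c i : F) ∈ E) → ∑ i, ρ (c i) * ρ (b i) = 0 → ∀ i, ρ (c i) = 0)
    (g : F) (hg : g ∈ V) :
    ∃ c : Fin n → F, (∀ i, c i ∈ interS V E) ∧ g = ∑ i, c i * (b i : F) := by
  have hli : LinearIndependent E (fun i => (b i : F)) := by
    rw [Fintype.linearIndependent_iff]
    intro c hc
    by_contra hne
    push Not at hne
    obtain ⟨i1, hi1⟩ := hne
    obtain ⟨i0, w, h0, -, hw, hsum⟩ := key_max ρ E b hind (fun i => (c i : F)) (fun i => (c i).2)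
      ⟨i1, fun h => hi1 (Subtype.ext h)⟩
    have hc' : ∑ i, (c i : F) * (b i : F) = 0 := by
      simpa [Algebra.smul_def] using hc
    rw [hc'] at hsum
    rcases mul_eq_zero.1 hsum.symm with h | h
    · exact h0 h
    · apply hw
      have : w = 0 := Subtype.ext h
      rw [this, map_zero]
  have hcard : Fintype.card (Fin n) = finrank E F := by
    have := hli.fintype_card_le_finrank
    simp only [Fintype.card_fin] at this ⊢
    omega
  have hspan := hli.span_eq_top_of_card_eq_finrank' hcard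
  have hgs : g ∈ Submodule.span E (Set.range fun i => (b i : F)) := hspan ▸ Submodule.mem_top
  obtain ⟨c, hc⟩ := (Submodule.mem_span_range_iff_exists_fun E).1 hgs
  have hc' : ∑ i, (c i : F) * (b i : F) = g := by
    simpa [Algebra.smul_def] using hc
  refine ⟨fun i => (c i : F), ?_, hc'.symm⟩
  by_cases hne : ∃ i, (c i : F) ≠ 0
  · obtain ⟨i0, w, h0, hV, hw, hsum⟩ := key_max ρ E b hind (fun i => (c i : F)) (fun i => (c i).2) hne
    rw [hc'] at hsum
    have hw0 : (w : F) ≠ 0 := by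
      intro h
      apply hw
      have : w = 0 := Subtype.ext h
      rw [this, map_zero]
    have hci0 : (c i0 : F) ∈ V := by
      have : (c i0 : F) = g * (w : F)⁻¹ := by
        rw [hsum]; field_simp
      rw [this]
      exact V.mul_mem _ _ hg (hloc w hw)
    intro i
    refine ⟨?_, (c i).2⟩
    have : (c i : F) = (c i : F) / (c i0 : F) * (c i0 : F) := by field_simp
    show (c i : F) ∈ V
    rw [this]
    exact V.mul_mem _ _ (hV i) hci0
  · push Not at hne
    intro i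
    show (c i : F) ∈ interS V E
    rw [hne i]
    exact zero_mem _

/-- `U(y)`: `V` is integral over `V ∩ E`. -/
theorem isIntegral_interS (hloc : ∀ v : V, ρ v ≠ 0 → (v : F)⁻¹ ∈ V) (E : IntermediateField K₀ F)
    [FiniteDimensional E F] {n : ℕ} (hn : finrank E F ≤ n) (b : Fin n → V)
    (hind : ∀ c : Fin n → V, (∀ i, (c i : F) ∈ E) → ∑ i, ρ (c i) * ρ (b i) = 0 → ∀ i, ρ (c i) = 0)
    (g : F) (hg : g ∈ V) : IsIntegral (interS V E) g := by
  let Nn : Submodule (interS V E) F := Submodule.span (interS V E) (Set.range fun i => (b i : F))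
  have hmem : ∀ f : F, f ∈ Nn ↔ f ∈ V := by
    intro f
    constructor
    · intro hf
      induction hf using Submodule.span_induction with
      | mem x hx =>
        obtain ⟨i, rfl⟩ := hx
        exact (b i).2
      | zero => exact zero_mem _
      | add x y _ _ hx hy => exact add_mem hx hy
      | smul a x _ hx => exact V.mul_mem _ _ a.2.1 hx
    · intro hf
      obtain ⟨c, hc, rfl⟩ := exists_coeffs ρ hloc E hn b hind f hf
      refine Submodule.sum_mem _ fun i _ => ?_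
      have : c i * (b i : F) = (⟨c i, hc i⟩ : interS V E) • (b i : F) := rfl
      rw [this]
      exact Submodule.smul_mem _ _ (Submodule.subset_span ⟨i, rfl⟩)
  refine isIntegral_of_smul_mem_submodule Nn ?_ ?_ g ?_
  · intro h
    have h1 : (1 : F) ∈ Nn := (hmem 1).2 (one_mem _)
    rw [h, Submodule.mem_bot] at h1
    exact one_ne_zero h1
  · exact Submodule.fg_span (Set.finite_range _)
  · intro f hf
    rw [hmem] at hf ⊢
    exact V.mul_mem _ _ hg hf

end Basis

section Normal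

variable {ℓ : ℕ} [Fact ℓ.Prime]

lemma map_zmod_ne_zero_of_not_dvd {P : ℤ[X]} (h : ¬ (C (ℓ : ℤ)) ∣ P) :
    P.map (Int.castRingHom (ZMod ℓ)) ≠ 0 := by
  intro h0
  apply h
  rw [Polynomial.C_dvd_iff_dvd_coeff]
  intro i
  have := congrArg (fun p => p.coeff i) h0
  simp only [coeff_map, eq_intCast, coeff_zero] at this
  exact (ZMod.intCast_zmod_eq_zero_iff_dvd _ _).1 this

lemma exists_normal_int (P : ℤ[X]) (hP : P ≠ 0) :
    ∃ (a : ℕ) (P₀ : ℤ[X]), P₀.map (Int.castRingHom (ZMod ℓ)) ≠ 0 ∧ P = C (ℓ : ℤ) ^ a * P₀ := by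
  have hu : ¬ IsUnit (C (ℓ : ℤ) : ℤ[X]) := by
    rw [Polynomial.isUnit_C, Int.isUnit_iff]
    have := (Fact.out : ℓ.Prime).one_lt
    omega
  obtain ⟨a, P₀, h0, h1⟩ := WfDvdMonoid.max_power_factor' hP hu
  exact ⟨a, P₀, map_zmod_ne_zero_of_not_dvd h0, h1⟩

lemma exists_normal_rat (P : ℚ[X]) (hP : P ≠ 0) :
    ∃ (n : ℤ) (b₀ : ℤ) (P₀ : ℤ[X]), ¬ (ℓ : ℤ) ∣ b₀ ∧ P₀.map (Int.castRingHom (ZMod ℓ)) ≠ 0 ∧
      C (b₀ : ℚ) * P = C ((ℓ : ℚ) ^ n) * P₀.map (Int.castRingHom ℚ) := by
  obtain ⟨b, hbM, hb⟩ := IsLocalization.integerNormalization_spec (nonZeroDivisors ℤ) P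
  set P₁ := IsLocalization.integerNormalization (nonZeroDivisors ℤ) P
  have hb0 : (b : ℤ) ≠ 0 := nonZeroDivisors.ne_zero hbM
  have hP₁ : P₁ ≠ 0 := by
    intro h
    rw [h, Polynomial.map_zero] at hb
    have := hb.symm
    rw [smul_eq_zero] at this
    rcases this with h | h
    · exact hb0 h
    · exact hP h
  obtain ⟨a, P₀, hP₀, h1⟩ := exists_normal_int (ℓ := ℓ) P₁ hP₁
  have hu : ¬ IsUnit (ℓ : ℤ) := by
    rw [Int.isUnit_iff]
    have := (Fact.out : ℓ.Prime).one_lt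
    omega
  obtain ⟨e, b₀, hb₀, h2⟩ := WfDvdMonoid.max_power_factor' hb0 hu
  refine ⟨(a : ℤ) - e, b₀, P₀, hb₀, hP₀, ?_⟩
  have hl : (ℓ : ℚ) ≠ 0 := by exact_mod_cast (Fact.out : ℓ.Prime).ne_zero
  rw [h1, h2] at hb
  rw [Polynomial.map_mul, Polynomial.map_pow, Polynomial.map_C, algebraMap_int_eq, eq_intCast,
    Int.cast_natCast] at hb
  rw [zpow_sub₀ hl, zpow_natCast, zpow_natCast]
  have h3 : C ((ℓ : ℚ) ^ e) * (C (b₀ : ℚ) * P) = C ((ℓ : ℚ) ^ e) * (C ((ℓ : ℚ) ^ a / (ℓ : ℚ) ^ e) *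
      P₀.map (Int.castRingHom ℚ)) := by
    rw [← mul_assoc, ← mul_assoc, ← C_mul, ← C_mul, mul_div_cancel₀ _ (pow_ne_zero e hl), C_pow, hb,
      zsmul_eq_mul]
    congr 1
    simp
  exact mul_left_cancel₀ (by rw [Ne, C_eq_zero]; exact pow_ne_zero e hl) h3

end Normal

section IC

variable {F : Type} [Field F]

/-- valuation rings are integrally closed -/
lemma mem_of_isIntegralElem (V' : ValuationSubring F) {A : Type} [CommRing A] (φ : A →+* F)
    (hφ : ∀ a, φ a ∈ V') {g : F} (hg : φ.IsIntegralElem g) : g ∈ V' := by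
  obtain ⟨p, hp, hpg⟩ := hg
  have h1 : IsIntegral V' g := by
    refine ⟨p.map (φ.codRestrict V'.toSubring hφ), hp.map _, ?_⟩
    rw [eval₂_map]
    exact hpg
  obtain ⟨y, rfl⟩ := IsIntegrallyClosed.isIntegral_iff.1 h1
  exact y.2

lemma eval₂_int_mem (S : Subring F) {t : F} (ht : t ∈ S) (P : ℤ[X]) :
    P.eval₂ (Int.castRingHom F) t ∈ S := by
  rw [eval₂_eq_sum_range]
  exact sum_mem fun i _ => mul_mem (by simp) (pow_mem ht i)

end IC

end FAIg
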