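import Mathlib
import Fermat.Agent.Igusa.ValU

/-!
# S28 (C), part 3: `V` is integral over `V ∩ ℚ(x)`
-/

set_option autoImplicit false

open Module Polynomial IntermediateField

noncomputable section

namespace FAIg

section UX

variable {ℓ : ℕ} [Fact ℓ.Prime] {F : Type} [Field F] {V : ValuationSubring F}
  {κ : Type} [Field κ] [Algebra (ZMod ℓ) κ] (ρ : V →+* κ)

/-- evaluation of an integer polynomial at an element of `V` -/
def evV (t : V) (P : ℤ[X]) : V := P.eval₂ (Int.castRingHom V) t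

lemma coe_evV (t : V) (P : ℤ[X]) : (evV t P : F) = P.eval₂ (Int.castRingHom F) (t : F) := by
  have := hom_eval₂ P (Int.castRingHom V) V.subtype t
  rw [RingHom.ext_int (V.subtype.comp (Int.castRingHom V)) (Int.castRingHom F)] at this
  exact this

lemma rho_evV (t : V) (P : ℤ[X]) :
    ρ (evV t P) = aeval (ρ t) (P.map (Int.castRingHom (ZMod ℓ))) := by
  rw [evV, hom_eval₂, aeval_def, eval₂_map]
  congr 1
  exact RingHom.ext_int _ _

lemma rho_evV_ne_zero {t : V} (ht : Transcendental (ZMod ℓ) (ρ t)) {P : ℤ[X]}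
    (hP : P.map (Int.castRingHom (ZMod ℓ)) ≠ 0) : ρ (evV t P) ≠ 0 := by
  rw [rho_evV (ℓ := ℓ)]
  exact fun h => hP ((transcendental_iff.1 ht) _ h)

lemma rho_ell : ρ (ℓ : V) = 0 := by
  rw [map_natCast, ← map_natCast (algebraMap (ZMod ℓ) κ), ZMod.natCast_self, map_zero]

include ρ in
lemma ell_inv_not_mem [CharZero F] : (ℓ : F)⁻¹ ∉ V := by
  intro h
  have h0 : (ℓ : F) ≠ 0 := Nat.cast_ne_zero.2 (Fact.out : ℓ.Prime).ne_zero
  have h1 : (ℓ : V) * ⟨_, h⟩ = 1 := Subtype.ext (by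
    show ((ℓ : V) : F) * (ℓ : F)⁻¹ = 1
    rw [show ((ℓ : V) : F) = (ℓ : F) by simp, mul_inv_cancel₀ h0])
  have := congrArg ρ h1
  rw [map_mul, rho_ell, zero_mul, map_one] at this
  exact zero_ne_one this

include ρ in
/-- `ℓ^n u ∈ V` with `u` a unit forces `n ≥ 0` -/
lemma nonneg_of_zpow_mul_mem [CharZero F] (hloc : ∀ v : V, ρ v ≠ 0 → (v : F)⁻¹ ∈ V) {n : ℤ} {u : V}
    (hu : ρ u ≠ 0) (h : (ℓ : F) ^ n * (u : F) ∈ V) : 0 ≤ n := by
  by_contra hn
  push Not at hn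
  have h0 : (ℓ : F) ≠ 0 := Nat.cast_ne_zero.2 (Fact.out : ℓ.Prime).ne_zero
  have hu0 : (u : F) ≠ 0 := by
    intro h
    apply hu
    rw [show u = 0 from Subtype.ext h, map_zero]
  obtain ⟨k, hk⟩ := Int.eq_ofNat_of_zero_le (show 0 ≤ -n - 1 by omega)
  apply ell_inv_not_mem (ℓ := ℓ) ρ
  have h1 : (ℓ : F)⁻¹ = ((ℓ : F) ^ n * (u : F)) * ((u : F)⁻¹ * (ℓ : F) ^ k) := by
    have hn' : n = -1 - k := by omega
    rw [hn', zpow_sub₀ h0, zpow_neg_one, zpow_natCast]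
    field_simp
  rw [h1]
  exact V.mul_mem _ _ h (V.mul_mem _ _ (hloc u hu) (pow_mem (_root_.natCast_mem _ _) k))

/-- normal form of the elements of `ℚ(t)` -/
lemma exists_normal_adjoin [Algebra ℚ F] (t : F) {c : F} (hc : c ∈ ℚ⟮t⟯) (hc0 : c ≠ 0) :
    ∃ (n : ℤ) (P Q : ℤ[X]), P.map (Int.castRingHom (ZMod ℓ)) ≠ 0 ∧
      Q.map (Int.castRingHom (ZMod ℓ)) ≠ 0 ∧
      c * Q.eval₂ (Int.castRingHom F) t = (ℓ : F) ^ n * P.eval₂ (Int.castRingHom F) t := by
  obtain ⟨r, s, rfl⟩ := (mem_adjoin_simple_iff ℚ c).1 hc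
  have hr : r ≠ 0 := by
    rintro rfl
    simp at hc0
  have hs : aeval t s ≠ 0 := by
    intro h
    rw [h, div_zero] at hc0
    exact hc0 rfl
  have hs' : s ≠ 0 := by
    rintro rfl
    simp at hs
  obtain ⟨n₁, b₁, R₀, hb₁, hR₀, h₁⟩ := exists_normal_rat (ℓ := ℓ) r hr
  obtain ⟨n₂, b₂, S₀, hb₂, hS₀, h₂⟩ := exists_normal_rat (ℓ := ℓ) s hs'
  have hev : ∀ P : ℤ[X], aeval t (P.map (Int.castRingHom ℚ)) = P.eval₂ (Int.castRingHom F) t := by
    intro P
    rw [aeval_def, eval₂_map]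
    congr 1
    exact RingHom.ext_int _ _
  have h₁' := congrArg (aeval t) h₁
  have h₂' := congrArg (aeval t) h₂
  simp only [map_mul, aeval_C, hev, map_intCast, map_zpow₀, map_natCast] at h₁' h₂'
  have hbz : ∀ b : ℤ, ¬ (ℓ : ℤ) ∣ b → (C b : ℤ[X]).map (Int.castRingHom (ZMod ℓ)) ≠ 0 := by
    intro b hb
    rw [Polynomial.map_C, Ne, C_eq_zero, eq_intCast, ZMod.intCast_zmod_eq_zero_iff_dvd]
    exact hb
  have h0 : (ℓ : F) ≠ 0 := by
    have : CharZero F := algebraRat.charZero F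
    exact Nat.cast_ne_zero.2 (Fact.out : ℓ.Prime).ne_zero
  refine ⟨n₁ - n₂, C b₂ * R₀, C b₁ * S₀, ?_, ?_, ?_⟩
  · rw [Polynomial.map_mul]; exact mul_ne_zero (hbz _ hb₂) hR₀
  · rw [Polynomial.map_mul]; exact mul_ne_zero (hbz _ hb₁) hS₀
  · rw [eval₂_mul, eval₂_mul, eval₂_C, eval₂_C, eq_intCast, eq_intCast, zpow_sub₀ h0]
    have hz := zpow_ne_zero n₂ h0
    field_simp
    linear_combination (-(aeval t r) * (b₁ : F)) * h₂' + (b₂ : F) * (aeval t s) * h₁'

lemma residue_eq_zero_of_inv_not_mem (V' : ValuationSubring F) (a : V') (ha : (a : F)⁻¹ ∉ V') :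
    IsLocalRing.residue V' a = 0 := by
  rw [IsLocalRing.residue_eq_zero_iff, IsLocalRing.mem_maximalIdeal, mem_nonunits_iff]
  intro hu
  obtain ⟨b, hb⟩ := hu.exists_right_inv
  apply ha
  have h1 : (a : F) * (b : F) = 1 := congrArg Subtype.val hb
  rw [inv_eq_of_mul_eq_one_right h1]
  exact b.2

variable [Algebra ℚ F]

/-- primitive polynomials in `y` are units in every valuation ring containing `V ∩ ℚ(x)` -/
lemma inv_eval_mem (hloc : ∀ v : V, ρ v ≠ 0 → (v : F)⁻¹ ∈ V)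
    (hstr : ∀ f : F, f ≠ 0 → ∃ (n : ℤ) (u : V), ρ u ≠ 0 ∧ f = (ℓ : F) ^ n * u)
    (x y : V) (hx : Transcendental (ZMod ℓ) (ρ x))
    (hxy : (eval₂RingHom (Int.castRingHom F) (x : F)).IsIntegralElem (y : F))
    (hyx : (eval₂RingHom (Int.castRingHom F) (y : F)).IsIntegralElem (x : F))
    (V' : ValuationSubring F) (hV' : interS V ℚ⟮(x : F)⟯ ≤ V'.toSubring)
    (Q : ℤ[X]) (hQ : Q.map (Int.castRingHom (ZMod ℓ)) ≠ 0) :
    (Q.eval₂ (Int.castRingHom F) (y : F))⁻¹ ∈ V' := by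
  have : CharZero F := algebraRat.charZero F
  have h0 : (ℓ : F) ≠ 0 := Nat.cast_ne_zero.2 (Fact.out : ℓ.Prime).ne_zero
  have hxV' : (x : F) ∈ V' := hV' ⟨x.2, mem_adjoin_simple_self ℚ _⟩
  have hyV' : (y : F) ∈ V' :=
    mem_of_isIntegralElem V' _ (fun P => eval₂_int_mem V'.toSubring hxV' P) hxy
  by_contra hu
  by_cases hl : (ℓ : F)⁻¹ ∈ V'
  · -- case A : `V'` contains `ℚ(x)`
    have hE : ∀ c ∈ ℚ⟮(x : F)⟯, c ∈ V' := by
      intro c hc
      by_cases hc0 : c = 0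
      · rw [hc0]; exact zero_mem _
      obtain ⟨n, w, hw, rfl⟩ := hstr c hc0
      have hlE : (ℓ : F) ^ n ∈ ℚ⟮(x : F)⟯ := zpow_mem (IntermediateField.natCast_mem _ _) n
      have hwE : (w : F) ∈ ℚ⟮(x : F)⟯ := by
        have : (w : F) = ((ℓ : F) ^ n)⁻¹ * ((ℓ : F) ^ n * w) := by
          rw [inv_mul_cancel_left₀ (zpow_ne_zero n h0)]
        rw [this]
        exact mul_mem (inv_mem hlE) hc
      have hwV' : (w : F) ∈ V' := hV' ⟨w.2, hwE⟩
      have hlV' : (ℓ : F) ^ n ∈ V' := by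
        obtain ⟨k, rfl | rfl⟩ := Int.eq_nat_or_neg n
        · rw [zpow_natCast]; exact pow_mem (_root_.natCast_mem _ _) k
        · rw [zpow_neg, zpow_natCast, ← inv_pow]; exact pow_mem hl k
      exact V'.mul_mem _ _ hlV' hwV'
    have hyint : IsIntegral ℚ⟮(x : F)⟯ (y : F) := by
      obtain ⟨p, hp, hpy⟩ := hxy
      let ψ : ℤ[X] →+* ℚ⟮(x : F)⟯ :=
        eval₂RingHom (Int.castRingHom ℚ⟮(x : F)⟯) (AdjoinSimple.gen ℚ (x : F))
      refine ⟨p.map ψ, hp.map _, ?_⟩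
      rw [eval₂_map]
      have hcomp : (algebraMap ℚ⟮(x : F)⟯ F).comp ψ = eval₂RingHom (Int.castRingHom F) (x : F) := by
        apply Polynomial.ringHom_ext
        · intro a; simp [ψ]
        · simp [ψ]
      rw [hcomp]
      exact hpy
    have huint : IsIntegral ℚ⟮(x : F)⟯ (Q.eval₂ (Int.castRingHom F) (y : F)) :=
      eval₂_int_mem (integralClosure ℚ⟮(x : F)⟯ F).toSubring hyint Q
    exact hu (mem_of_isIntegralElem V' (algebraMap ℚ⟮(x : F)⟯ F) (fun a => hE a a.2) huint.inv)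
  · -- case B : `ℓ` is in the maximal ideal of `V'`
    let κ' := IsLocalRing.ResidueField V'
    let res : V' →+* κ' := IsLocalRing.residue V'
    have hlres : (ℓ : κ') = 0 := by
      have := residue_eq_zero_of_inv_not_mem V' (ℓ : V') (by simpa using hl)
      rwa [map_natCast] at this
    have : CharP κ' ℓ := (CharP.charP_iff_prime_eq_zero Fact.out).2 hlres
    let _ : Algebra (ZMod ℓ) κ' := ZMod.algebra κ' ℓ
    let yV' : V' := ⟨y, hyV'⟩
    let xV' : V' := ⟨x, hxV'⟩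
    have h1 : res (evV yV' Q) = 0 :=
      residue_eq_zero_of_inv_not_mem V' _ (by rw [coe_evV]; exact hu)
    rw [rho_evV (ℓ := ℓ)] at h1
    have hyalg : IsIntegral (ZMod ℓ) (res yV') := isAlgebraic_iff_isIntegral.1 ⟨_, hQ, h1⟩
    let A := Algebra.adjoin (ZMod ℓ) {res yV'}
    have : Algebra.IsIntegral (ZMod ℓ) A := Algebra.IsIntegral.adjoin (by simpa using hyalg)
    have hxA : IsIntegral A (res xV') := by
      obtain ⟨p, hp, hpx⟩ := hyx
      let ψ : ℤ[X] →+* A :=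
        eval₂RingHom (Int.castRingHom A) ⟨res yV', Algebra.self_mem_adjoin_singleton _ _⟩
      refine ⟨p.map ψ, hp.map _, ?_⟩
      rw [eval₂_map]
      have hcomp : (algebraMap A κ').comp ψ = res.comp (eval₂RingHom (Int.castRingHom V') yV') := by
        apply Polynomial.ringHom_ext
        · intro a; simp [ψ]
        · simp [ψ]
      rw [hcomp, ← hom_eval₂]
      have hz : eval₂ (eval₂RingHom (Int.castRingHom V') yV') xV' p = 0 := by
        apply Subtype.ext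
        have := hom_eval₂ p (eval₂RingHom (Int.castRingHom V') yV') V'.subtype xV'
        have hcomp2 : V'.subtype.comp (eval₂RingHom (Int.castRingHom V') yV')
            = eval₂RingHom (Int.castRingHom F) (y : F) := by
          apply Polynomial.ringHom_ext
          · intro a; simp
          · simp [yV']
        rw [hcomp2] at this
        exact this.trans hpx
      rw [hz, map_zero]
    have hxint : IsIntegral (ZMod ℓ) (res xV') := isIntegral_trans _ hxA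
    obtain ⟨G, hG⟩ := Polynomial.map_surjective (Int.castRingHom (ZMod ℓ)) ZMod.intCast_surjective
      (minpoly (ZMod ℓ) (res xV'))
    have hG0 : G.map (Int.castRingHom (ZMod ℓ)) ≠ 0 := by rw [hG]; exact minpoly.ne_zero hxint
    have h2 : res (evV xV' G) = 0 := by rw [rho_evV (ℓ := ℓ), hG, minpoly.aeval]
    have hρ := rho_evV_ne_zero ρ hx hG0
    have h3 : ((evV x G : V) : F)⁻¹ ∈ V := hloc _ hρ
    have h4' : ((evV x G : V) : F)⁻¹ ∈ ℚ⟮(x : F)⟯ := inv_mem (by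
      rw [coe_evV]
      exact eval₂_int_mem ℚ⟮(x : F)⟯.toSubfield.toSubring (mem_adjoin_simple_self ℚ _) G)
    have h4 : ((evV x G : V) : F)⁻¹ ∈ V' := hV' ⟨h3, h4'⟩
    have hne : ((evV x G : V) : F) ≠ 0 := by
      intro h
      apply hρ
      rw [show evV x G = 0 from Subtype.ext h, map_zero]
    have h5 : evV xV' G * ⟨_, h4⟩ = 1 := by
      apply Subtype.ext
      show ((evV xV' G : V') : F) * ((evV x G : V) : F)⁻¹ = 1
      rw [coe_evV, coe_evV] at *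
      exact mul_inv_cancel₀ hne
    have h6 := congrArg res h5
    rw [map_mul, h2, zero_mul, map_one] at h6
    exact zero_ne_one h6

/-- the reduction of `V ∩ ℚ(t)` lies in `𝔽_ℓ(t̄)` -/
lemma rho_mem_adjoin (hloc : ∀ v : V, ρ v ≠ 0 → (v : F)⁻¹ ∈ V) (t : V)
    (ht : Transcendental (ZMod ℓ) (ρ t)) (c : V) (hc : (c : F) ∈ ℚ⟮(t : F)⟯) :
    ρ c ∈ (ZMod ℓ)⟮ρ t⟯ := by
  have : CharZero F := algebraRat.charZero F
  by_cases hc0 : (c : F) = 0
  · rw [show c = 0 from Subtype.ext hc0, map_zero]; exact zero_mem _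
  obtain ⟨n, P, Q, hP, hQ, h⟩ := exists_normal_adjoin (ℓ := ℓ) (t : F) hc hc0
  have hρP := rho_evV_ne_zero ρ ht hP
  have hρQ := rho_evV_ne_zero ρ ht hQ
  have hn : 0 ≤ n := by
    refine nonneg_of_zpow_mul_mem (ℓ := ℓ) ρ hloc hρP ?_
    rw [coe_evV, ← h, ← coe_evV]
    exact V.mul_mem _ _ c.2 (evV t Q).2
  obtain ⟨k, rfl⟩ := Int.eq_ofNat_of_zero_le hn
  have h' : c * evV t Q = (ℓ : V) ^ k * evV t P := by
    apply Subtype.ext
    push_cast
    rw [coe_evV, coe_evV, h, zpow_natCast]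
  have h'' := congrArg ρ h'
  rw [map_mul, map_mul, map_pow] at h''
  have hmem : ∀ P : ℤ[X], ρ (evV t P) ∈ (ZMod ℓ)⟮ρ t⟯ := by
    intro P
    rw [rho_evV (ℓ := ℓ)]
    exact (Algebra.adjoin_le_iff.2 (by
      rintro _ rfl
      exact mem_adjoin_simple_self _ _) : Algebra.adjoin (ZMod ℓ) {ρ t} ≤
        ((ZMod ℓ)⟮ρ t⟯).toSubalgebra) (aeval_mem_adjoin_singleton _ _)
  have : ρ c = ρ (ℓ : V) ^ k * ρ (evV t P) * (ρ (evV t Q))⁻¹ := by
    rw [← h'', mul_inv_cancel_right₀ hρQ]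
  rw [this, rho_ell (ℓ := ℓ)]
  exact mul_mem (mul_mem (pow_mem (zero_mem _) k) (hmem P)) (inv_mem (hmem Q))

/-- `U(x)`: `V` is integral over `V ∩ ℚ(x)`. -/
theorem isIntegral_interS_of (hloc : ∀ v : V, ρ v ≠ 0 → (v : F)⁻¹ ∈ V)
    (hstr : ∀ f : F, f ≠ 0 → ∃ (n : ℤ) (u : V), ρ u ≠ 0 ∧ f = (ℓ : F) ^ n * u)
    (x y : V) (hx : Transcendental (ZMod ℓ) (ρ x)) (hy : Transcendental (ZMod ℓ) (ρ y))
    (hxy : (eval₂RingHom (Int.castRingHom F) (x : F)).IsIntegralElem (y : F))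
    (hyx : (eval₂RingHom (Int.castRingHom F) (y : F)).IsIntegralElem (x : F))
    (hUy : ∀ g ∈ V, IsIntegral (interS V ℚ⟮(y : F)⟯) g) (g : F) (hg : g ∈ V) :
    IsIntegral (interS V ℚ⟮(x : F)⟯) g := by
  have : CharZero F := algebraRat.charZero F
  have h0 : (ℓ : F) ≠ 0 := Nat.cast_ne_zero.2 (Fact.out : ℓ.Prime).ne_zero
  have step4 : ∀ V' : ValuationSubring F, interS V ℚ⟮(x : F)⟯ ≤ V'.toSubring → g ∈ V' := by
    intro V' hV'
    have hxV' : (x : F) ∈ V' := hV' ⟨x.2, mem_adjoin_simple_self ℚ _⟩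
    have hyV' : (y : F) ∈ V' :=
      mem_of_isIntegralElem V' _ (fun P => eval₂_int_mem V'.toSubring hxV' P) hxy
    have step3 : ∀ c ∈ interS V ℚ⟮(y : F)⟯, c ∈ V' := by
      intro c hc
      by_cases hc0 : c = 0
      · rw [hc0]; exact zero_mem _
      obtain ⟨n, P, Q, hP, hQ, h⟩ := exists_normal_adjoin (ℓ := ℓ) (y : F) hc.2 hc0
      have hρP := rho_evV_ne_zero ρ hy hP
      have hρQ := rho_evV_ne_zero ρ hy hQ
      have hQ0 : Q.eval₂ (Int.castRingHom F) (y : F) ≠ 0 := by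
        intro hz
        apply hρQ
        rw [show evV y Q = 0 from Subtype.ext (by rw [coe_evV]; exact hz), map_zero]
      have hn : 0 ≤ n := by
        refine nonneg_of_zpow_mul_mem (ℓ := ℓ) ρ hloc hρP ?_
        rw [coe_evV, ← h, ← coe_evV]
        exact V.mul_mem _ _ hc.1 (evV y Q).2
      obtain ⟨k, rfl⟩ := Int.eq_ofNat_of_zero_le hn
      have hc' : c = (ℓ : F) ^ k * P.eval₂ (Int.castRingHom F) (y : F) *
          (Q.eval₂ (Int.castRingHom F) (y : F))⁻¹ := by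
        rw [zpow_natCast] at h
        rw [← h, mul_inv_cancel_right₀ hQ0]
      rw [hc']
      exact V'.mul_mem _ _ (V'.mul_mem _ _ (pow_mem (_root_.natCast_mem _ _) k)
        (eval₂_int_mem V'.toSubring hyV' P)) (inv_eval_mem ρ hloc hstr x y hx hxy hyx V' hV' Q hQ)
    exact mem_of_isIntegralElem V' (algebraMap (interS V ℚ⟮(y : F)⟯) F)
      (fun a => step3 a a.2) (hUy g hg)
  have key := iInf_valuationSubring_superset (K := F) (s := (interS V ℚ⟮(x : F)⟯ : Set F))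
  have hmem : g ∈ (⨅ V' : {V' : ValuationSubring F //
      (interS V ℚ⟮(x : F)⟯ : Set F) ⊆ V'.toSubring}, V'.1.toSubring) := by
    rw [Subring.mem_iInf]
    rintro ⟨V', hV'⟩
    exact step4 V' hV'
  rw [key] at hmem
  have h1 : IsIntegral (Subring.closure (interS V ℚ⟮(x : F)⟯ : Set F)) g := hmem
  rwa [Subring.closure_eq] at h1

end UX

end FAIg
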