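import Mathlib
import Fermat.Agent.Igusa.ValR
import Fermat.Agent.Igusa.ValX

/-!
# S28 (C), part 4: `A_t ∩ ℓV = ℓ A_t`
-/

set_option autoImplicit false

open Module Polynomial IntermediateField

noncomputable section

namespace FAIg

section Fin

variable {ℓ : ℕ} [Fact ℓ.Prime] {F : Type} [Field F] [Algebra ℚ F] {V : ValuationSubring F}
  {κ : Type} [Field κ] [Algebra (ZMod ℓ) κ] (ρ : V →+* κ)

include ρ in
lemma transcendental_rat_of (t : V) (ht : Transcendental (ZMod ℓ) (ρ t)) :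
    Transcendental ℚ (t : F) := by
  have : CharZero F := algebraRat.charZero F
  have h0 : (ℓ : F) ≠ 0 := Nat.cast_ne_zero.2 (Fact.out : ℓ.Prime).ne_zero
  rw [transcendental_iff]
  intro P hP
  by_contra hP0
  obtain ⟨n, b₀, P₀, hb₀, hP₀, h⟩ := exists_normal_rat (ℓ := ℓ) P hP0
  have hev : aeval (t : F) (P₀.map (Int.castRingHom ℚ)) = P₀.eval₂ (Int.castRingHom F) (t : F) := by
    rw [aeval_def, eval₂_map]
    congr 1
    exact RingHom.ext_int _ _
  have h' := congrArg (aeval (t : F)) h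
  simp only [map_mul, aeval_C, hev, hP, mul_zero, map_zpow₀, map_natCast] at h'
  have h1 : P₀.eval₂ (Int.castRingHom F) (t : F) = 0 :=
    (mul_eq_zero.1 h'.symm).resolve_left (zpow_ne_zero n h0)
  apply rho_evV_ne_zero ρ ht hP₀
  rw [show evV t P₀ = 0 from Subtype.ext (by rw [coe_evV]; exact h1), map_zero]

variable [Algebra (RlS ℓ) F] [IsScalarTower (RlS ℓ) ℚ F]

include ρ in
/-- Gauss lemma: `ℚ[t] ∩ V = ℤ_(ℓ)[t]` -/
lemma mem_adjoin_RlS (hloc : ∀ v : V, ρ v ≠ 0 → (v : F)⁻¹ ∈ V) (t : V)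
    (ht : Transcendental (ZMod ℓ) (ρ t)) {c : F} (hc : c ∈ Algebra.adjoin ℚ {(t : F)})
    (hcV : c ∈ V) : c ∈ Algebra.adjoin (RlS ℓ) {(t : F)} := by
  have : CharZero F := algebraRat.charZero F
  have h0 : (ℓ : F) ≠ 0 := Nat.cast_ne_zero.2 (Fact.out : ℓ.Prime).ne_zero
  rw [Algebra.adjoin_singleton_eq_range_aeval] at hc
  obtain ⟨P, rfl⟩ := hc
  by_cases hP0 : P = 0
  · rw [hP0]; simp
  obtain ⟨n, b₀, P₀, hb₀, hP₀, h⟩ := exists_normal_rat (ℓ := ℓ) P hP0
  have hev : aeval (t : F) (P₀.map (Int.castRingHom ℚ)) = P₀.eval₂ (Int.castRingHom F) (t : F) := by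
    rw [aeval_def, eval₂_map]
    congr 1
    exact RingHom.ext_int _ _
  have h' := congrArg (aeval (t : F)) h
  simp only [map_mul, aeval_C, hev, map_zpow₀, map_natCast, map_intCast] at h'
  have hb0 : (b₀ : F) ≠ 0 := by
    intro hz
    apply hb₀
    have : b₀ = 0 := by exact_mod_cast hz
    rw [this]; exact dvd_zero _
  have hn : 0 ≤ n := by
    refine nonneg_of_zpow_mul_mem (ℓ := ℓ) ρ hloc (rho_evV_ne_zero ρ ht hP₀) ?_
    rw [coe_evV, ← h']
    exact V.mul_mem _ _ (_root_.intCast_mem _ _) hcV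
  obtain ⟨k, rfl⟩ := Int.eq_ofNat_of_zero_le hn
  have hc' : (aeval (t : F)) P = (ℓ : F) ^ k * algebraMap (RlS ℓ) F ⟨_, inv_intCast_mem hb₀⟩ *
      P₀.eval₂ (Int.castRingHom F) (t : F) := by
    rw [IsScalarTower.algebraMap_apply (RlS ℓ) ℚ F]
    have : algebraMap (RlS ℓ) ℚ ⟨_, inv_intCast_mem hb₀⟩ = ((b₀ : ℚ))⁻¹ := rfl
    rw [this, map_inv₀, map_intCast]
    rw [zpow_natCast] at h'
    field_simp
    linear_combination h'
  show (aeval (t : F)) P ∈ Algebra.adjoin (RlS ℓ) {(t : F)}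
  rw [hc']
  exact mul_mem (mul_mem (pow_mem (_root_.natCast_mem _ _) k) (Subalgebra.algebraMap_mem _ _))
    (eval₂_int_mem (Algebra.adjoin (RlS ℓ) {(t : F)}).toSubring
      (Algebra.self_mem_adjoin_singleton _ _) P₀)

omit [Algebra ℚ F] in
lemma isIntegral_of_range_le {A B : Type} [CommRing A] [CommRing B] [Algebra A F] [Algebra B F]
    (h : ∀ a : A, ∃ b : B, algebraMap B F b = algebraMap A F a) {z : F} (hz : IsIntegral A z) :
    IsIntegral B z := by
  obtain ⟨q, hqm, hq⟩ := hz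
  have hlifts : q.map (algebraMap A F) ∈ Polynomial.lifts (algebraMap B F) :=
    (Polynomial.lifts_iff_coeff_lifts _).mpr fun i => by
      rw [coeff_map]
      exact h _
  obtain ⟨q', hq', -, hq'm⟩ := Polynomial.lifts_and_natDegree_eq_and_monic hlifts (hqm.map _)
  refine ⟨q', hq'm, ?_⟩
  rw [Polynomial.eval₂_eq_eval_map, hq', eval_map]
  exact hq

open scoped IntermediateField.algebraAdjoinAdjoin in
/-- coefficients of the minimal polynomial over `ℚ(t)` of an element integral over `ℚ[t]` -/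
lemma coeff_minpoly_mem_adjoin {t : F} (ht : Transcendental ℚ t) {g : F}
    (hg : IsIntegral (Algebra.adjoin ℚ {t}) g) (i : ℕ) :
    algebraMap ℚ⟮t⟯ F ((minpoly ℚ⟮t⟯ g).coeff i) ∈ Algebra.adjoin ℚ {t} := by
  have : IsPrincipalIdealRing (Algebra.adjoin ℚ {t}) :=
    IsPrincipalIdealRing.of_surjective
      (Polynomial.algEquivOfTranscendental ℚ t ht).toRingEquiv.toRingHom
      (Polynomial.algEquivOfTranscendental ℚ t ht).surjective
  have e1 := minpoly.isIntegrallyClosed_eq_field_fractions' ℚ⟮t⟯ hg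
  rw [e1, coeff_map]
  exact ((minpoly (Algebra.adjoin ℚ {t}) g).coeff i).2

/-- coefficients of the minimal polynomial over `E` of an element integral over `V ∩ E` -/
lemma coeff_minpoly_mem_V (E : IntermediateField ℚ F) {g : F}
    (hg : IsIntegral (interS V E) g) (i : ℕ) :
    algebraMap E F ((minpoly E g).coeff i) ∈ V := by
  let O' : ValuationSubring E := V.comap (algebraMap E F)
  let _ : Algebra O' F := ((algebraMap E F).comp (algebraMap O' E)).toAlgebra
  have : IsScalarTower O' E F := IsScalarTower.of_algebraMap_eq' rfl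
  have hg' : IsIntegral O' g :=
    isIntegral_of_range_le (fun c => ⟨⟨⟨c.1, c.2.2⟩, c.2.1⟩, rfl⟩) hg
  have e2 := minpoly.isIntegrallyClosed_eq_field_fractions' E hg'
  rw [e2, coeff_map]
  exact ((minpoly O' g).coeff i).2

include ρ in
/-- **Key claim (C\*)** : if `g ∈ V` and `ℓ g` is integral over `ℤ_(ℓ)[t]`, so is `g`. -/
theorem isIntegral_adjoin_RlS (hloc : ∀ v : V, ρ v ≠ 0 → (v : F)⁻¹ ∈ V) (t : V)
    (ht : Transcendental (ZMod ℓ) (ρ t))
    (hU : ∀ g ∈ V, IsIntegral (interS V ℚ⟮(t : F)⟯) g) (g : F) (hg : g ∈ V)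
    (hlg : IsIntegral (Algebra.adjoin (RlS ℓ) {(t : F)}) ((ℓ : F) * g)) :
    IsIntegral (Algebra.adjoin (RlS ℓ) {(t : F)}) g := by
  have : CharZero F := algebraRat.charZero F
  have h0 : (ℓ : F) ≠ 0 := Nat.cast_ne_zero.2 (Fact.out : ℓ.Prime).ne_zero
  have htQ := transcendental_rat_of ρ t ht
  -- `g` is integral over `ℚ[t]`
  have hle : Algebra.adjoin (RlS ℓ) {(t : F)} ≤
      (Algebra.adjoin ℚ {(t : F)}).restrictScalars (RlS ℓ) :=
    Algebra.adjoin_le (by
      rintro _ rfl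
      exact Algebra.self_mem_adjoin_singleton ℚ _)
  have h1 : IsIntegral (Algebra.adjoin ℚ {(t : F)}) ((ℓ : F) * g) := by
    exact isIntegral_of_range_le (fun a => ⟨⟨a.1, hle a.2⟩, rfl⟩) hlg
  have h2 : IsIntegral (Algebra.adjoin ℚ {(t : F)}) g := by
    have h3 : IsIntegral (Algebra.adjoin ℚ {(t : F)}) ((ℓ : F)⁻¹) := by
      have : (ℓ : F)⁻¹ = algebraMap (Algebra.adjoin ℚ {(t : F)}) F
          (algebraMap ℚ (Algebra.adjoin ℚ {(t : F)}) ((ℓ : ℚ)⁻¹)) := by
        rw [← IsScalarTower.algebraMap_apply, map_inv₀, map_natCast]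
      rw [this]
      exact isIntegral_algebraMap
    have := h3.mul h1
    rwa [inv_mul_cancel_left₀ h0] at this
  -- the minimal polynomial
  set E := ℚ⟮(t : F)⟯ with hE
  have hgE : IsIntegral E g := by
    open scoped IntermediateField.algebraAdjoinAdjoin in
    exact h2.tower_top
  set p : F[X] := (minpoly E g).map (algebraMap E F) with hp
  have hpm : p.Monic := (minpoly.monic hgE).map _
  have hpg : p.eval g = 0 := by
    rw [hp, eval_map_algebraMap, minpoly.aeval]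
  have hcoeff : ∀ i, p.coeff i ∈ Algebra.adjoin (RlS ℓ) {(t : F)} := by
    intro i
    rw [hp, coeff_map]
    exact mem_adjoin_RlS ρ hloc t ht (coeff_minpoly_mem_adjoin htQ h2 i)
      (coeff_minpoly_mem_V E (hU g hg) i)
  have hlifts : p ∈ Polynomial.lifts (algebraMap (Algebra.adjoin (RlS ℓ) {(t : F)}) F) :=
    (Polynomial.lifts_iff_coeff_lifts p).mpr fun i => ⟨⟨p.coeff i, hcoeff i⟩, rfl⟩
  obtain ⟨q, hq, -, hqm⟩ := Polynomial.lifts_and_natDegree_eq_and_monic hlifts hpm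
  refine ⟨q, hqm, ?_⟩
  rw [Polynomial.eval₂_eq_eval_map, hq, hpg]

end Fin

end FAIg
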