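import Mathlib
import Fermat.Prelude.Def_ModularCurve_LaurentCoeff
import Fermat.Agent.Igusa.ValR

/-!
# S28 (C), part 1: the Gauss valuation ring `W ⊂ ℚ((q))` and its reduction map
-/

set_option autoImplicit false

open ModularCurve

noncomputable section

namespace FAIg

variable (ℓ : ℕ) [Fact ℓ.Prime]

/-- the inclusion `ℤ_(ℓ)((q)) → ℚ((q))` -/
abbrev iotaL : LaurentSeries (RlS ℓ) →+* LaurentSeries ℚ := coeffMap (RlS ℓ).subtype

/-- the reduction `ℤ_(ℓ)((q)) → 𝔽_ℓ((q))` -/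
abbrev redL : LaurentSeries (RlS ℓ) →+* LaurentSeries (ZMod ℓ) := coeffMap (resR ℓ)

variable {ℓ}

omit [Fact ℓ.Prime] in
lemma iotaL_injective : Function.Injective (iotaL ℓ) := by
  intro a b h
  ext n
  have := congrArg (fun f : LaurentSeries ℚ => f.coeff n) h
  simpa using this

omit [Fact ℓ.Prime] in
lemma exists_iotaL_eq (f : LaurentSeries ℚ) (hf : ∀ n, f.coeff n ∈ RlS ℓ) :
    ∃ a : LaurentSeries (RlS ℓ), iotaL ℓ a = f := by
  refine ⟨⟨fun n => ⟨f.coeff n, hf n⟩, ?_⟩, ?_⟩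
  · refine f.isPWO_support.mono ?_
    intro n hn
    simp only [Function.mem_support, ne_eq, HahnSeries.mem_support] at hn ⊢
    intro h
    exact hn (Subtype.ext h)
  · ext n
    rfl

omit [Fact ℓ.Prime] in
lemma coeff_natCast_mul {R : Type*} [CommRing R] (m : ℕ) (a : LaurentSeries R) (n : ℤ) :
    ((m : LaurentSeries R) * a).coeff n = (m : R) * a.coeff n := by
  have : (m : LaurentSeries R) = HahnSeries.C (m : R) := by simp
  rw [this, HahnSeries.C_mul_eq_smul, HahnSeries.coeff_smul, smul_eq_mul]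

lemma exists_eq_ell_mul (a : LaurentSeries (RlS ℓ)) (ha : redL ℓ a = 0) :
    ∃ a' : LaurentSeries (RlS ℓ), a = (ℓ : LaurentSeries (RlS ℓ)) * a' := by
  have h1 : ∀ n, ∃ c' : RlS ℓ, a.coeff n = (ℓ : RlS ℓ) * c' := by
    intro n
    rw [← resR_eq_zero_iff]
    have := congrArg (fun f : LaurentSeries (ZMod ℓ) => f.coeff n) ha
    simpa using this
  choose c hc using h1
  refine ⟨⟨c, ?_⟩, ?_⟩
  · refine a.isPWO_support.mono ?_
    intro n hn
    simp only [Function.mem_support, ne_eq, HahnSeries.mem_support] at hn ⊢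
    rw [hc n]
    exact mul_ne_zero ell_ne_zero hn
  · ext n
    rw [coeff_natCast_mul, hc n]

lemma exists_primitive (a : LaurentSeries (RlS ℓ)) (ha : a ≠ 0) :
    ∃ (m : ℕ) (a₀ : LaurentSeries (RlS ℓ)), redL ℓ a₀ ≠ 0 ∧
      a = (ℓ : LaurentSeries (RlS ℓ)) ^ m * a₀ := by
  obtain ⟨n, hn⟩ : ∃ n, a.coeff n ≠ 0 := by
    by_contra h
    push Not at h
    exact ha (HahnSeries.ext (funext h))
  obtain ⟨m, u, hu, hm⟩ := exists_pow_mul (a.coeff n) hn
  induction m generalizing a with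
  | zero =>
    refine ⟨0, a, ?_, by simp⟩
    intro h
    have := congrArg (fun f : LaurentSeries (ZMod ℓ) => f.coeff n) h
    simp only [coeffMap_coeff, HahnSeries.coeff_zero] at this
    rw [hm, pow_zero, one_mul] at this
    exact hu this
  | succ m ih =>
    by_cases h : redL ℓ a = 0
    · obtain ⟨a', rfl⟩ := exists_eq_ell_mul a h
      have ha' : a' ≠ 0 := by
        rintro rfl
        exact ha (mul_zero _)
      rw [coeff_natCast_mul] at hn hm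
      have hn' : a'.coeff n ≠ 0 := right_ne_zero_of_mul hn
      have hm' : a'.coeff n = (ℓ : RlS ℓ) ^ m * u := by
        rw [pow_succ', mul_assoc] at hm
        exact mul_left_cancel₀ ell_ne_zero hm
      obtain ⟨m', a₀, h0, h1⟩ := ih a' ha' hn' hm'
      exact ⟨m' + 1, a₀, h0, by rw [h1, pow_succ']; ring⟩
    · exact ⟨0, a, h, by simp⟩

variable (ℓ)

/-- membership predicate of the Gauss valuation ring -/
def IsW (f : LaurentSeries ℚ) : Prop :=
  ∃ a b : LaurentSeries (RlS ℓ), redL ℓ b ≠ 0 ∧ f * iotaL ℓ b = iotaL ℓ a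

/-- the Gauss valuation ring, as a subring of `ℚ((q))` -/
def WS : Subring (LaurentSeries ℚ) where
  carrier := {f | IsW ℓ f}
  mul_mem' := by
    rintro f g ⟨a, b, hb, h⟩ ⟨a', b', hb', h'⟩
    refine ⟨a * a', b * b', ?_, ?_⟩
    · rw [map_mul]; exact mul_ne_zero hb hb'
    · rw [map_mul, map_mul, ← h, ← h']; ring
  one_mem' := ⟨1, 1, by simp, by simp⟩
  add_mem' := by
    rintro f g ⟨a, b, hb, h⟩ ⟨a', b', hb', h'⟩
    refine ⟨a * b' + a' * b, b * b', ?_, ?_⟩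
    · rw [map_mul]; exact mul_ne_zero hb hb'
    · rw [map_mul, map_add, map_mul, map_mul, ← h, ← h']; ring
  zero_mem' := ⟨0, 1, by simp, by simp⟩
  neg_mem' := by
    rintro f ⟨a, b, hb, h⟩
    exact ⟨-a, b, hb, by rw [map_neg, ← h]; ring⟩

variable {ℓ}

lemma mem_WS_iff {f : LaurentSeries ℚ} : f ∈ WS ℓ ↔ IsW ℓ f := Iff.rfl

lemma iotaL_mem_WS (a : LaurentSeries (RlS ℓ)) : iotaL ℓ a ∈ WS ℓ :=
  ⟨a, 1, by simp, by simp⟩

variable (ℓ)

open Classical in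
/-- the reduction of an element of `W` (junk value `0` outside `W`) -/
def redFun (f : LaurentSeries ℚ) : LaurentSeries (ZMod ℓ) :=
  if h : IsW ℓ f then redL ℓ h.choose / redL ℓ h.choose_spec.choose else 0

variable {ℓ}

lemma redFun_eq {f : LaurentSeries ℚ} {a b : LaurentSeries (RlS ℓ)} (hb : redL ℓ b ≠ 0)
    (h : f * iotaL ℓ b = iotaL ℓ a) : redFun ℓ f = redL ℓ a / redL ℓ b := by
  have hW : IsW ℓ f := ⟨a, b, hb, h⟩
  rw [redFun, dif_pos hW]
  obtain ⟨hb', h'⟩ := hW.choose_spec.choose_spec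
  set a' := hW.choose
  set b' := hW.choose_spec.choose
  rw [div_eq_div_iff hb' hb, ← map_mul, ← map_mul]
  congr 1
  apply iotaL_injective
  rw [map_mul, map_mul, ← h, ← h']
  ring

lemma redFun_iotaL (a : LaurentSeries (RlS ℓ)) : redFun ℓ (iotaL ℓ a) = redL ℓ a := by
  rw [redFun_eq (a := a) (b := 1) (by simp) (by simp)]
  simp

variable (ℓ)

/-- the reduction map `W → 𝔽_ℓ((q))` -/
def redW : WS ℓ →+* LaurentSeries (ZMod ℓ) where
  toFun f := redFun ℓ f.1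
  map_one' := by
    show redFun ℓ 1 = 1
    rw [redFun_eq (a := 1) (b := 1) (by simp) (by simp)]
    simp
  map_zero' := by
    show redFun ℓ 0 = 0
    rw [redFun_eq (a := 0) (b := 1) (by simp) (by simp)]
    simp
  map_mul' := by
    rintro ⟨f, a, b, hb, h⟩ ⟨g, a', b', hb', h'⟩
    show redFun ℓ (f * g) = redFun ℓ f * redFun ℓ g
    rw [redFun_eq hb h, redFun_eq hb' h', redFun_eq (a := a * a') (b := b * b')
      (by rw [map_mul]; exact mul_ne_zero hb hb')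
      (by rw [map_mul, map_mul, ← h, ← h']; ring), map_mul, map_mul]
    field_simp
  map_add' := by
    rintro ⟨f, a, b, hb, h⟩ ⟨g, a', b', hb', h'⟩
    show redFun ℓ (f + g) = redFun ℓ f + redFun ℓ g
    rw [redFun_eq hb h, redFun_eq hb' h', redFun_eq (a := a * b' + a' * b) (b := b * b')
      (by rw [map_mul]; exact mul_ne_zero hb hb')
      (by rw [map_mul, map_add, map_mul, map_mul, ← h, ← h']; ring), map_mul, map_add, map_mul,
      map_mul]
    field_simp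

variable {ℓ}

lemma redW_apply (f : WS ℓ) : redW ℓ f = redFun ℓ f.1 := rfl

lemma ellQ_ne_zero : (ℓ : LaurentSeries ℚ) ≠ 0 := by
  have : CharZero (LaurentSeries ℚ) := algebraRat.charZero _
  exact Nat.cast_ne_zero.2 (Fact.out : ℓ.Prime).ne_zero

lemma ellZ_eq_zero : (ℓ : LaurentSeries (ZMod ℓ)) = 0 := by
  have : (ℓ : LaurentSeries (ZMod ℓ)) = HahnSeries.C (ℓ : ZMod ℓ) := (map_natCast _ _).symm
  rw [this, ZMod.natCast_self, map_zero]

/-- the kernel of the reduction is `ℓ W` -/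
lemma exists_of_redFun_eq_zero {f : LaurentSeries ℚ} (hf : f ∈ WS ℓ) (h0 : redFun ℓ f = 0) :
    ∃ g ∈ WS ℓ, f = (ℓ : LaurentSeries ℚ) * g := by
  obtain ⟨a, b, hb, h⟩ := hf
  rw [redFun_eq hb h, div_eq_zero_iff, or_iff_left hb] at h0
  obtain ⟨a', rfl⟩ := exists_eq_ell_mul a h0
  refine ⟨(ℓ : LaurentSeries ℚ)⁻¹ * f, ⟨a', b, hb, ?_⟩, ?_⟩
  · rw [mul_assoc, h, map_mul, map_natCast, inv_mul_cancel_left₀ ellQ_ne_zero]
  · rw [mul_inv_cancel_left₀ ellQ_ne_zero]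

lemma redFun_ell_mul {g : LaurentSeries ℚ} (hg : g ∈ WS ℓ) :
    redFun ℓ ((ℓ : LaurentSeries ℚ) * g) = 0 := by
  have h1 : (ℓ : LaurentSeries ℚ) ∈ WS ℓ := natCast_mem _ _
  have := (redW ℓ).map_mul ⟨_, h1⟩ ⟨g, hg⟩
  have h2 : redW ℓ ⟨_, h1⟩ = 0 := by
    have : (⟨(ℓ : LaurentSeries ℚ), h1⟩ : WS ℓ) = (ℓ : WS ℓ) := by
      apply Subtype.ext; simp
    rw [this, map_natCast, ellZ_eq_zero]
  rw [h2, zero_mul] at this
  exact this

/-- elements with nonzero reduction are units of `W` -/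
lemma inv_mem_of_redFun_ne_zero {f : LaurentSeries ℚ} (hf : f ∈ WS ℓ) (h0 : redFun ℓ f ≠ 0) :
    f⁻¹ ∈ WS ℓ := by
  obtain ⟨a, b, hb, h⟩ := hf
  rw [redFun_eq hb h] at h0
  have ha : redL ℓ a ≠ 0 := fun h => h0 (by rw [h, zero_div])
  have hf0 : f ≠ 0 := by
    rintro rfl
    rw [zero_mul] at h
    have : a = 0 := iotaL_injective (by rw [← h, map_zero])
    exact ha (by rw [this, map_zero])
  exact ⟨b, a, ha, by rw [← h, inv_mul_cancel_left₀ hf0]⟩

variable (ℓ)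

/-- fractions of elements of `ℤ_(ℓ)((q))` -/
def IsFrac (f : LaurentSeries ℚ) : Prop :=
  ∃ a b : LaurentSeries (RlS ℓ), b ≠ 0 ∧ f * iotaL ℓ b = iotaL ℓ a

variable {ℓ}

omit [Fact ℓ.Prime] in
lemma iotaL_ne_zero {b : LaurentSeries (RlS ℓ)} (hb : b ≠ 0) : iotaL ℓ b ≠ 0 := fun h =>
  hb (iotaL_injective (by rw [h, map_zero]))

omit [Fact ℓ.Prime] in
lemma IsFrac.add {f g : LaurentSeries ℚ} (hf : IsFrac ℓ f) (hg : IsFrac ℓ g) :
    IsFrac ℓ (f + g) := by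
  obtain ⟨a, b, hb, h⟩ := hf
  obtain ⟨a', b', hb', h'⟩ := hg
  exact ⟨a * b' + a' * b, b * b', mul_ne_zero hb hb', by
    rw [map_mul, map_add, map_mul, map_mul, ← h, ← h']; ring⟩

omit [Fact ℓ.Prime] in
lemma IsFrac.mul {f g : LaurentSeries ℚ} (hf : IsFrac ℓ f) (hg : IsFrac ℓ g) :
    IsFrac ℓ (f * g) := by
  obtain ⟨a, b, hb, h⟩ := hf
  obtain ⟨a', b', hb', h'⟩ := hg
  exact ⟨a * a', b * b', mul_ne_zero hb hb', by
    rw [map_mul, map_mul, ← h, ← h']; ring⟩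

omit [Fact ℓ.Prime] in
lemma IsFrac.inv {f : LaurentSeries ℚ} (hf : IsFrac ℓ f) : IsFrac ℓ f⁻¹ := by
  obtain ⟨a, b, hb, h⟩ := hf
  by_cases hf0 : f = 0
  · subst hf0
    exact ⟨0, 1, one_ne_zero, by simp⟩
  · have ha : a ≠ 0 := by
      rintro rfl
      rw [map_zero] at h
      exact (mul_ne_zero hf0 (iotaL_ne_zero hb)) h
    exact ⟨b, a, ha, by rw [← h, inv_mul_cancel_left₀ hf0]⟩

omit [Fact ℓ.Prime] in
lemma isFrac_iotaL (a : LaurentSeries (RlS ℓ)) : IsFrac ℓ (iotaL ℓ a) :=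
  ⟨a, 1, one_ne_zero, by simp⟩

omit [Fact ℓ.Prime] in
lemma isFrac_algebraMap (c : ℚ) : IsFrac ℓ (algebraMap ℚ (LaurentSeries ℚ) c) := by
  have h1 : algebraMap ℚ (LaurentSeries ℚ) c
      = (c.num : LaurentSeries ℚ) * ((c.den : ℕ) : LaurentSeries ℚ)⁻¹ := by
    conv_lhs => rw [← Rat.num_div_den c]
    rw [map_div₀, map_intCast, map_natCast, div_eq_mul_inv]
  rw [h1]
  refine IsFrac.mul ?_ (IsFrac.inv ?_)
  · have := isFrac_iotaL (ℓ := ℓ) (c.num : LaurentSeries (RlS ℓ))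
    rwa [map_intCast] at this
  · have := isFrac_iotaL (ℓ := ℓ) (c.den : LaurentSeries (RlS ℓ))
    rwa [map_natCast] at this

/-- structure of fractions: `f = ℓ^n u` with `u` a unit of `W` -/
lemma IsFrac.exists_zpow_mul {f : LaurentSeries ℚ} (hf : IsFrac ℓ f) (hf0 : f ≠ 0) :
    ∃ (n : ℤ) (u : LaurentSeries ℚ), u ∈ WS ℓ ∧ redFun ℓ u ≠ 0 ∧
      f = (ℓ : LaurentSeries ℚ) ^ n * u := by
  obtain ⟨a, b, hb, h⟩ := hf
  have ha : a ≠ 0 := by
    rintro rfl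
    rw [map_zero] at h
    exact (mul_ne_zero hf0 (iotaL_ne_zero hb)) h
  obtain ⟨m, a₀, ha₀, rfl⟩ := exists_primitive a ha
  obtain ⟨n, b₀, hb₀, rfl⟩ := exists_primitive b hb
  have hb₀' : iotaL ℓ b₀ ≠ 0 := iotaL_ne_zero (fun h => hb₀ (by rw [h, map_zero]))
  have hu : (iotaL ℓ a₀ / iotaL ℓ b₀) * iotaL ℓ b₀ = iotaL ℓ a₀ := div_mul_cancel₀ _ hb₀'
  refine ⟨(m : ℤ) - n, iotaL ℓ a₀ / iotaL ℓ b₀, ⟨a₀, b₀, hb₀, hu⟩, ?_, ?_⟩
  · rw [redFun_eq hb₀ hu]
    exact div_ne_zero ha₀ hb₀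
  · rw [map_mul, map_mul, map_pow, map_pow, map_natCast] at h
    rw [zpow_sub₀ ellQ_ne_zero, zpow_natCast, zpow_natCast]
    have hl := pow_ne_zero n (ellQ_ne_zero (ℓ := ℓ))
    field_simp
    linear_combination h

lemma IsFrac.mem_or_inv_mem {f : LaurentSeries ℚ} (hf : IsFrac ℓ f) :
    f ∈ WS ℓ ∨ f⁻¹ ∈ WS ℓ := by
  by_cases hf0 : f = 0
  · left; rw [hf0]; exact zero_mem _
  obtain ⟨n, u, hu, hu0, rfl⟩ := hf.exists_zpow_mul hf0
  have hl : (ℓ : LaurentSeries ℚ) ∈ WS ℓ := natCast_mem _ _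
  rcases le_total 0 n with hn | hn
  · left
    obtain ⟨k, rfl⟩ := Int.eq_ofNat_of_zero_le hn
    rw [zpow_natCast]
    exact mul_mem (pow_mem hl k) hu
  · right
    obtain ⟨k, hk⟩ := Int.eq_ofNat_of_zero_le (neg_nonneg.2 hn)
    rw [mul_inv, ← zpow_neg, hk, zpow_natCast]
    exact mul_mem (pow_mem hl k) (inv_mem_of_redFun_ne_zero hu hu0)

end FAIg
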