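import Mathlib
import Fermat.Prelude.Def_ModularCurve_IgusaScheme
import Fermat.Prelude.Def_ModularCurve_X0ModL
import Fermat.Agent.Igusa.ValW
import Fermat.Agent.Igusa.ValFin

/-!
# S28 (C), part 5: the Gauss valuation ring of the modular function field
-/

set_option autoImplicit false

open Module Polynomial IntermediateField ModularCurve

noncomputable section

namespace FAIg

section Trans

variable (k : Type) [Field k]

lemma transcendental_jqModC : Transcendental k (jqModC k) := by
  rw [transcendental_iff]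
  intro P hP
  by_contra hP0
  have h1 := congrArg (fun f : LaurentSeries k => f.coeff (-(P.natDegree : ℤ))) hP
  simp only [aeval_eq_sum_range, Algebra.smul_def, algebraMap_laurentSeries_eq_single,
    HahnSeries.coeff_sum, HahnSeries.coeff_single_mul, sub_zero, HahnSeries.coeff_zero] at h1
  rw [Finset.sum_range_succ, coeff_jqModC_pow_self, Finset.sum_eq_zero, zero_add,
    mul_one] at h1
  · exact hP0 (leadingCoeff_eq_zero.1 h1)
  · intro i hi
    rw [coeff_jqModC_pow_of_lt k (by have := Finset.mem_range.1 hi; omega), mul_zero]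

lemma transcendental_jqNModC (N : ℕ) [NeZero N] : Transcendental k (jqNModC k N) := by
  have h : jqNModC k N = qExpandAlgHomC k N (jqModC k) := rfl
  rw [h, Transcendental, isAlgebraic_algHom_iff _ (qExpand_injective N)]
  exact transcendental_jqModC k

end Trans

variable (N : ℕ) [NeZero N] (ℓ : ℕ) [Fact ℓ.Prime]

omit [NeZero N] [Fact ℓ.Prime] in
lemma isFrac_of_mem_full {f : LaurentSeries ℚ} (hf : f ∈ modularFunctionFieldFull N) :
    IsFrac ℓ f := by
  unfold modularFunctionFieldFull at hf
  induction hf using IntermediateField.adjoin_induction with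
  | mem x hx =>
    obtain ⟨d, hd, -, rfl⟩ := hx
    have : qExpand ℚ d jq = iotaL ℓ (jqNModC (RlS ℓ) d) := (coeffMap_jqNModC _ d).symm
    rw [this]
    exact isFrac_iotaL _
  | algebraMap c => exact isFrac_algebraMap c
  | add x y _ _ hx hy => exact hx.add hy
  | inv x _ hx => exact hx.inv
  | mul x y _ _ hx hy => exact hx.mul hy

/-- the Gauss valuation ring of the modular function field -/
def VN : ValuationSubring (modularFunctionFieldFull N) where
  toSubring := (WS ℓ).comap (algebraMap (modularFunctionFieldFull N) (LaurentSeries ℚ))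
  mem_or_inv_mem' := by
    intro f
    have := (isFrac_of_mem_full N ℓ f.2).mem_or_inv_mem
    exact this

omit [NeZero N] in
lemma mem_VN_iff {f : modularFunctionFieldFull N} : f ∈ VN N ℓ ↔ (f : LaurentSeries ℚ) ∈ WS ℓ :=
  Iff.rfl

/-- the reduction map on `V` -/
def rhoN : VN N ℓ →+* LaurentSeries (ZMod ℓ) :=
  (redW ℓ).comp (((algebraMap (modularFunctionFieldFull N) (LaurentSeries ℚ)).comp
    (VN N ℓ).subtype).codRestrict (WS ℓ) (fun v => v.2))

omit [NeZero N] in
lemma rhoN_apply (v : VN N ℓ) :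
    rhoN N ℓ v = redFun ℓ ((v : modularFunctionFieldFull N) : LaurentSeries ℚ) := rfl

omit [NeZero N] in
lemma rhoN_loc (v : VN N ℓ) (hv : rhoN N ℓ v ≠ 0) :
    (v : modularFunctionFieldFull N)⁻¹ ∈ VN N ℓ := by
  rw [mem_VN_iff, IntermediateField.coe_inv]
  exact inv_mem_of_redFun_ne_zero v.2 hv

omit [NeZero N] in
lemma rhoN_str (f : modularFunctionFieldFull N) (hf : f ≠ 0) :
    ∃ (n : ℤ) (u : VN N ℓ), rhoN N ℓ u ≠ 0 ∧ f = (ℓ : modularFunctionFieldFull N) ^ n * u := by
  have hf' : (f : LaurentSeries ℚ) ≠ 0 := fun h => hf (Subtype.ext h)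
  obtain ⟨n, u, hu, hu0, h⟩ := (isFrac_of_mem_full N ℓ f.2).exists_zpow_mul hf'
  have hl : ((ℓ : LaurentSeries ℚ)) ^ n ∈ modularFunctionFieldFull N :=
    zpow_mem (IntermediateField.natCast_mem _ _) n
  have huF : u ∈ modularFunctionFieldFull N := by
    have : u = ((ℓ : LaurentSeries ℚ) ^ n)⁻¹ * f := by
      rw [h, inv_mul_cancel_left₀ (zpow_ne_zero n ellQ_ne_zero)]
    rw [this]
    exact mul_mem (inv_mem hl) f.2
  refine ⟨n, ⟨⟨u, huF⟩, hu⟩, hu0, Subtype.ext ?_⟩
  have hz : (((ℓ : modularFunctionFieldFull N) ^ n : modularFunctionFieldFull N) : LaurentSeries ℚ)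
      = (ℓ : LaurentSeries ℚ) ^ n := by
    have := map_zpow₀ (algebraMap (modularFunctionFieldFull N) (LaurentSeries ℚ))
      (ℓ : modularFunctionFieldFull N) n
    rw [map_natCast] at this
    exact this
  rw [h, IntermediateField.coe_mul, hz]

omit [NeZero N] in
/-- the kernel of the reduction map -/
lemma rhoN_ker (v : VN N ℓ) (hv : rhoN N ℓ v = 0) :
    ∃ w : VN N ℓ, (v : modularFunctionFieldFull N) = (ℓ : modularFunctionFieldFull N) * w := by
  obtain ⟨g, hg, h⟩ := exists_of_redFun_eq_zero v.2 hv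
  replace h : ((v : modularFunctionFieldFull N) : LaurentSeries ℚ) = (ℓ : LaurentSeries ℚ) * g := h
  have hgF : g ∈ modularFunctionFieldFull N := by
    have : g = ((ℓ : LaurentSeries ℚ))⁻¹ * (v : modularFunctionFieldFull N) := by
      rw [h, inv_mul_cancel_left₀ ellQ_ne_zero]
    rw [this]
    exact mul_mem (inv_mem (IntermediateField.natCast_mem _ _)) (v : modularFunctionFieldFull N).2
  refine ⟨⟨⟨g, hgF⟩, hg⟩, Subtype.ext ?_⟩
  rw [h, IntermediateField.coe_mul]
  congr 1

end FAIg
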