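import Mathlib
import Fermat.Agent.Igusa.ValV

/-!
# S28 (C), part 6: the reduction maps on the charts of the Igusa model
-/

set_option autoImplicit false

open Module Polynomial IntermediateField ModularCurve ModularCurve.IgusaScheme

noncomputable section

namespace FAIg

variable (N : ℕ) [NeZero N] (ℓ : ℕ) [Fact ℓ.Prime]

/-- `j(q^d)` as an element of the function field -/
def jdF (d : ℕ) [NeZero d] (hd : d ∣ N) : modularFunctionFieldFull N :=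
  ⟨qExpand ℚ d jq, jqd_mem_full N hd⟩

omit [NeZero N] in
lemma jdF_mem_VN (d : ℕ) [NeZero d] (hd : d ∣ N) : jdF N d hd ∈ VN N ℓ := by
  rw [mem_VN_iff]
  have : qExpand ℚ d jq = iotaL ℓ (jqNModC (RlS ℓ) d) := (coeffMap_jqNModC _ d).symm
  show qExpand ℚ d jq ∈ WS ℓ
  rw [this]
  exact iotaL_mem_WS _

/-- `j(q^d)` as an element of `V` -/
def jdV (d : ℕ) [NeZero d] (hd : d ∣ N) : VN N ℓ := ⟨jdF N d hd, jdF_mem_VN N ℓ d hd⟩

omit [NeZero N] in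
lemma rhoN_jdV (d : ℕ) [NeZero d] (hd : d ∣ N) : rhoN N ℓ (jdV N ℓ d hd) = jqNModC (ZMod ℓ) d := by
  rw [rhoN_apply]
  have : qExpand ℚ d jq = iotaL ℓ (jqNModC (RlS ℓ) d) := (coeffMap_jqNModC _ d).symm
  show redFun ℓ (qExpand ℚ d jq) = _
  rw [this, redFun_iotaL, coeffMap_jqNModC]

lemma jdF_one : jdF N 1 (one_dvd N) = jFull N := Subtype.ext (qExpand_one_apply jq)

omit [NeZero N] in
/-- the range of the reduction map contains the function field in characteristic `ℓ` -/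
lemma exists_rhoN_eq {z : LaurentSeries (ZMod ℓ)} (hz : z ∈ modularFunctionFieldFullC (ZMod ℓ) N) :
    ∃ v : VN N ℓ, rhoN N ℓ v = z := by
  unfold modularFunctionFieldFullC at hz
  induction hz using IntermediateField.adjoin_induction with
  | mem x hx =>
    obtain ⟨d, hd, hdN, rfl⟩ := hx
    exact ⟨jdV N ℓ d hdN, rhoN_jdV N ℓ d hdN⟩
  | algebraMap c =>
    refine ⟨(c.val : VN N ℓ), ?_⟩
    rw [map_natCast]
    conv_rhs => rw [← ZMod.natCast_zmod_val c]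
    rw [map_natCast]
  | add x y _ _ hx hy =>
    obtain ⟨v, rfl⟩ := hx
    obtain ⟨w, rfl⟩ := hy
    exact ⟨v + w, map_add _ _ _⟩
  | inv x _ hx =>
    obtain ⟨v, rfl⟩ := hx
    by_cases h0 : rhoN N ℓ v = 0
    · exact ⟨0, by rw [h0, inv_zero, map_zero]⟩
    · refine ⟨⟨_, rhoN_loc N ℓ v h0⟩, ?_⟩
      have hv0 : (v : modularFunctionFieldFull N) ≠ 0 := by
        intro h
        apply h0
        rw [show v = 0 from Subtype.ext h, map_zero]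
      have h1 : v * ⟨_, rhoN_loc N ℓ v h0⟩ = 1 := Subtype.ext (mul_inv_cancel₀ hv0)
      have h2 := congrArg (rhoN N ℓ) h1
      rw [map_mul, map_one] at h2
      exact eq_inv_of_mul_eq_one_right h2
  | mul x y _ _ hx hy =>
    obtain ⟨v, rfl⟩ := hx
    obtain ⟨w, rfl⟩ := hy
    exact ⟨v * w, map_mul _ _ _⟩

/-- the modular function field, as a type -/
abbrev FNt (N : ℕ) : Type := ↥(modularFunctionFieldFull N)

omit [NeZero N] in
lemma algebraMap_RlS_mem_VN (c : RlS ℓ) : algebraMap (RlS ℓ) (FNt N) c ∈ VN N ℓ := by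
  rw [mem_VN_iff]
  have h1 : ((algebraMap (RlS ℓ) (FNt N) c : (FNt N)) : LaurentSeries ℚ)
      = algebraMap ℚ (LaurentSeries ℚ) (c : ℚ) := by
    rw [IsScalarTower.algebraMap_apply (RlS ℓ) ℚ (FNt N)]
    exact RingHom.congr_fun (Subsingleton.elim
      ((algebraMap (FNt N) (LaurentSeries ℚ)).comp (algebraMap ℚ (FNt N)))
      (algebraMap ℚ (LaurentSeries ℚ))) (c : ℚ)
  rw [h1, algebraMap_apply_eq_single]
  have h2 : HahnSeries.single (0 : ℤ) (c : ℚ) = iotaL ℓ (HahnSeries.single 0 c) := by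
    rw [coeffMap_single]
    rfl
  rw [h2]
  exact iotaL_mem_WS _

lemma chartAlg_le_VN (S : Set (FNt N)) (hS : ∀ s ∈ S, s ∈ VN N ℓ) {a : (FNt N)} (ha : a ∈ chartAlg N ℓ S) :
    a ∈ VN N ℓ := by
  rw [mem_chartAlg_iff] at ha
  refine mem_of_isIntegralElem (VN N ℓ) (algebraMap (Algebra.adjoin (RlS ℓ) S) (FNt N)) ?_ ha
  intro c
  have hle : Algebra.adjoin (RlS ℓ) S ≤
      { (VN N ℓ).toSubring with algebraMap_mem' := algebraMap_RlS_mem_VN N ℓ } :=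
    Algebra.adjoin_le hS
  exact hle c.2

/-- the reduction map on a chart -/
def redChart (S : Set (FNt N)) (hS : ∀ s ∈ S, s ∈ VN N ℓ) :
    chartAlg N ℓ S →+* LaurentSeries (ZMod ℓ) :=
  (rhoN N ℓ).comp ((chartAlg N ℓ S).val.toRingHom.codRestrict (VN N ℓ).toSubring
    (fun a => chartAlg_le_VN N ℓ S hS a.2))

/-- the kernel of the reduction map on the chart `ℤ_(ℓ)[t]` is generated by `ℓ` -/
theorem redChart_ker (t : VN N ℓ) (ht : Transcendental (ZMod ℓ) (rhoN N ℓ t))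
    (hU : ∀ g ∈ VN N ℓ, IsIntegral (interS (VN N ℓ) ℚ⟮(t : (FNt N))⟯) g)
    (hS : ∀ s ∈ ({(t : (FNt N))} : Set (FNt N)), s ∈ VN N ℓ)
    (a : chartAlg N ℓ {(t : (FNt N))}) (ha : redChart N ℓ _ hS a = 0) :
    ∃ a' : chartAlg N ℓ {(t : (FNt N))}, a = (ℓ : chartAlg N ℓ {(t : (FNt N))}) * a' := by
  obtain ⟨w, hw⟩ := rhoN_ker N ℓ ⟨a, chartAlg_le_VN N ℓ _ hS a.2⟩ ha
  have hw' : (a : (FNt N)) = (ℓ : (FNt N)) * w := hw
  have h1 : IsIntegral (Algebra.adjoin (RlS ℓ) {(t : (FNt N))}) ((ℓ : (FNt N)) * w) := by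
    rw [← hw']
    exact a.2
  have h2 := isIntegral_adjoin_RlS (rhoN N ℓ) (rhoN_loc N ℓ) t ht hU w w.2 h1
  refine ⟨⟨w, h2⟩, Subtype.ext ?_⟩
  rw [hw']
  simp

/-- `y = j(q^N)` -/
abbrev yFv : FNt N := jdF N N dvd_rfl

/-- `y = j(q^N)` as an element of `V` -/
abbrev yV : VN N ℓ := jdV N ℓ N dvd_rfl

lemma jFull_mem_VN : jFull N ∈ VN N ℓ := by
  rw [← jdF_one]
  exact jdF_mem_VN N ℓ 1 (one_dvd N)

/-- `x = j(q)` as an element of `V` -/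
def xV : VN N ℓ := ⟨jFull N, jFull_mem_VN N ℓ⟩

lemma rhoN_xV : rhoN N ℓ (xV N ℓ) = jqModC (ZMod ℓ) := by
  have h : xV N ℓ = jdV N ℓ 1 (one_dvd N) := Subtype.ext (jdF_one N).symm
  rw [h, rhoN_jdV, jqNModC_one]

lemma rhoN_xV_ne_zero : rhoN N ℓ (xV N ℓ) ≠ 0 := by
  rw [rhoN_xV]
  exact jqModC_ne_zero_of_nontrivial _

/-- `1/x` as an element of `V` -/
def xinvV : VN N ℓ := ⟨(jFull N)⁻¹, rhoN_loc N ℓ (xV N ℓ) (rhoN_xV_ne_zero N ℓ)⟩

lemma rhoN_xinvV : rhoN N ℓ (xinvV N ℓ) = (jqModC (ZMod ℓ))⁻¹ := by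
  have h1 : xV N ℓ * xinvV N ℓ = 1 := Subtype.ext (mul_inv_cancel₀ (jFull_ne_zero N))
  have h2 := congrArg (rhoN N ℓ) h1
  rw [map_mul, map_one, rhoN_xV] at h2
  exact eq_inv_of_mul_eq_one_right h2

/-- `U(y)` for the modular function field -/
theorem UyN [FiniteDimensional ℚ⟮yFv N⟯ (FNt N)] {n : ℕ} (hdeg : finrank ℚ⟮yFv N⟯ (FNt N) ≤ n)
    (b : Fin n → LaurentSeries (ZMod ℓ)) (hb : ∀ i, b i ∈ modularFunctionFieldFullC (ZMod ℓ) N)
    (hli : LinearIndependent (ZMod ℓ)⟮jqNModC (ZMod ℓ) N⟯ b) :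
    ∀ g ∈ VN N ℓ, IsIntegral (interS (VN N ℓ) ℚ⟮yFv N⟯) g := by
  choose b' hb' using fun i => exists_rhoN_eq N ℓ (hb i)
  refine isIntegral_interS (rhoN N ℓ) (rhoN_loc N ℓ) _ hdeg b' ?_
  intro c hc hsum i
  have hmem : ∀ i, rhoN N ℓ (c i) ∈ (ZMod ℓ)⟮jqNModC (ZMod ℓ) N⟯ := by
    intro i
    have := rho_mem_adjoin (rhoN N ℓ) (rhoN_loc N ℓ) (yV N ℓ)
      (by rw [rhoN_jdV]; exact transcendental_jqNModC _ N) (c i) (hc i)
    rwa [rhoN_jdV] at this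
  have h1 := Fintype.linearIndependent_iff.1 hli (fun i => ⟨rhoN N ℓ (c i), hmem i⟩) (by
    simp only [hb'] at hsum
    simpa [Algebra.smul_def] using hsum) i
  exact congrArg Subtype.val h1

omit [NeZero N] in
lemma adjoin_inv_eq (t : FNt N) : ℚ⟮t⁻¹⟯ = ℚ⟮t⟯ := by
  apply le_antisymm
  · rw [adjoin_simple_le_iff]
    exact inv_mem (mem_adjoin_simple_self ℚ t)
  · rw [adjoin_simple_le_iff]
    have := inv_mem (mem_adjoin_simple_self ℚ t⁻¹)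
    rwa [inv_inv] at this

/-- **S28 (C)**: the reduction maps on the three charts. -/
theorem exists_red_charts
    (hxy : (eval₂RingHom (Int.castRingHom (FNt N)) (jFull N)).IsIntegralElem (yFv N))
    (hyx : (eval₂RingHom (Int.castRingHom (FNt N)) (yFv N)).IsIntegralElem (jFull N))
    [FiniteDimensional ℚ⟮yFv N⟯ (FNt N)] {n : ℕ} (hdeg : finrank ℚ⟮yFv N⟯ (FNt N) ≤ n)
    (b : Fin n → LaurentSeries (ZMod ℓ)) (hb : ∀ i, b i ∈ modularFunctionFieldFullC (ZMod ℓ) N)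
    (hli : LinearIndependent (ZMod ℓ)⟮jqNModC (ZMod ℓ) N⟯ b) :
    (∃ φ : chartAlgFin N ℓ →+* LaurentSeries (ZMod ℓ),
      ∀ a, φ a = 0 → ∃ a', a = (ℓ : chartAlgFin N ℓ) * a') ∧
    (∃ φ : chartAlgInf N ℓ →+* LaurentSeries (ZMod ℓ),
      ∀ a, φ a = 0 → ∃ a', a = (ℓ : chartAlgInf N ℓ) * a') ∧
    Nonempty (chartAlgMid N ℓ →+* LaurentSeries (ZMod ℓ)) := by
  have hUy := UyN N ℓ hdeg b hb hli
  have hx : Transcendental (ZMod ℓ) (rhoN N ℓ (xV N ℓ)) := by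
    rw [rhoN_xV]; exact transcendental_jqModC _
  have hy : Transcendental (ZMod ℓ) (rhoN N ℓ (yV N ℓ)) := by
    rw [rhoN_jdV]; exact transcendental_jqNModC _ N
  have hUx : ∀ g ∈ VN N ℓ, IsIntegral (interS (VN N ℓ) ℚ⟮jFull N⟯) g :=
    isIntegral_interS_of (rhoN N ℓ) (rhoN_loc N ℓ) (rhoN_str N ℓ) (xV N ℓ) (yV N ℓ) hx hy hxy hyx hUy
  have hxinv : Transcendental (ZMod ℓ) (rhoN N ℓ (xinvV N ℓ)) := by
    rw [rhoN_xinvV, Transcendental, IsAlgebraic.inv_iff]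
    exact transcendental_jqModC _
  have hUxinv : ∀ g ∈ VN N ℓ, IsIntegral (interS (VN N ℓ) ℚ⟮(jFull N)⁻¹⟯) g := by
    rw [adjoin_inv_eq]
    exact hUx
  have hS1 : ∀ s ∈ ({jFull N} : Set (FNt N)), s ∈ VN N ℓ := by
    rintro _ rfl
    exact (xV N ℓ).2
  have hS2 : ∀ s ∈ ({(jFull N)⁻¹} : Set (FNt N)), s ∈ VN N ℓ := by
    rintro _ rfl
    exact (xinvV N ℓ).2
  have hS3 : ∀ s ∈ ({jFull N, (jFull N)⁻¹} : Set (FNt N)), s ∈ VN N ℓ := by
    rintro _ (rfl | rfl)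
    · exact (xV N ℓ).2
    · exact (xinvV N ℓ).2
  exact ⟨⟨redChart N ℓ _ hS1, redChart_ker N ℓ (xV N ℓ) hx hUx hS1⟩,
    ⟨redChart N ℓ _ hS2, redChart_ker N ℓ (xinvV N ℓ) hxinv hUxinv hS2⟩,
    ⟨redChart N ℓ _ hS3⟩⟩

end FAIg
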