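import Mathlib
import Fermat.Agent.Igusa.ValMain
import Fermat.Agent.Igusa.Degree
import Fermat.Agent.Igusa.FrickeAut
import Fermat.Agent.Igusa.Series

/-!
# S28 (C), final form: reduction maps on the charts, via the Fricke involution
-/

set_option autoImplicit false

open Module Polynomial IntermediateField ModularCurve ModularCurve.IgusaScheme

noncomputable section

namespace FAIg

section Transport

variable {F : Type} [Field F]

lemma isIntegral_map_of {A B : Type} [CommRing A] [CommRing B] [Algebra A F] [Algebra B F]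
    (σ : F →+* F) (h : ∀ a : A, ∃ b : B, algebraMap B F b = σ (algebraMap A F a)) {z : F}
    (hz : IsIntegral A z) : IsIntegral B (σ z) := by
  obtain ⟨q, hqm, hq⟩ := hz
  have hlifts : q.map (σ.comp (algebraMap A F)) ∈ Polynomial.lifts (algebraMap B F) :=
    (Polynomial.lifts_iff_coeff_lifts _).mpr fun i => by
      rw [coeff_map]
      exact h _
  obtain ⟨q', hq', -, hq'm⟩ := Polynomial.lifts_and_natDegree_eq_and_monic hlifts (hqm.map _)
  refine ⟨q', hq'm, ?_⟩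
  rw [Polynomial.eval₂_eq_eval_map, hq', eval_map, ← hom_eval₂, hq, map_zero]

end Transport

variable (N : ℕ) [NeZero N] (ℓ : ℕ) [Fact ℓ.Prime]

/-- a `ℚ`-automorphism maps the chart of `t` to the chart of `W t` -/
lemma map_mem_chartAlg (W : FNt N ≃ₐ[ℚ] FNt N) (t : FNt N) {a : FNt N}
    (ha : a ∈ chartAlg N ℓ {t}) : W a ∈ chartAlg N ℓ {W t} := by
  rw [mem_chartAlg_iff] at ha ⊢
  refine isIntegral_map_of (W : FNt N →+* FNt N) ?_ ha
  intro c
  let W' : FNt N →ₐ[RlS ℓ] FNt N := (W : FNt N →ₐ[ℚ] FNt N).restrictScalars (RlS ℓ)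
  have h1 : W' c.1 ∈ (Algebra.adjoin (RlS ℓ) {t}).map W' := ⟨c.1, c.2, rfl⟩
  rw [AlgHom.map_adjoin, Set.image_singleton] at h1
  exact ⟨⟨_, h1⟩, rfl⟩

lemma map_mem_chartAlg' (W : FNt N ≃ₐ[ℚ] FNt N) {t t' : FNt N} (h : W t = t') {a : FNt N}
    (ha : a ∈ chartAlg N ℓ {t}) : W a ∈ chartAlg N ℓ {t'} := by
  subst h
  exact map_mem_chartAlg N ℓ W t ha

/-- the ring homomorphism between charts induced by an automorphism -/
def chartMap (W : FNt N ≃ₐ[ℚ] FNt N) {t t' : FNt N} (h : W t = t') :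
    chartAlg N ℓ {t} →+* chartAlg N ℓ {t'} :=
  ((W : FNt N →+* FNt N).comp (chartAlg N ℓ {t}).val.toRingHom).codRestrict (chartAlg N ℓ {t'})
    (fun a => map_mem_chartAlg' N ℓ W h a.2)

lemma coe_chartMap (W : FNt N ≃ₐ[ℚ] FNt N) {t t' : FNt N} (h : W t = t') (a : chartAlg N ℓ {t}) :
    (chartMap N ℓ W h a : FNt N) = W a := rfl

theorem exists_red_of_fricke (W : FNt N ≃ₐ[ℚ] FNt N) (hWW : ∀ f, W (W f) = f) (t : FNt N)
    (s : VN N ℓ) (hs : W t = (s : FNt N)) (hst : Transcendental (ZMod ℓ) (rhoN N ℓ s))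
    (hU : ∀ g ∈ VN N ℓ, IsIntegral (interS (VN N ℓ) ℚ⟮(s : FNt N)⟯) g) :
    ∃ φ : chartAlg N ℓ {t} →+* LaurentSeries (ZMod ℓ),
      ∀ a, φ a = 0 → ∃ a', a = (ℓ : chartAlg N ℓ {t}) * a' := by
  have hS : ∀ z ∈ ({(s : FNt N)} : Set (FNt N)), z ∈ VN N ℓ := by
    rintro _ rfl
    exact s.2
  have hs' : W (s : FNt N) = t := by rw [← hs, hWW]
  refine ⟨(redChart N ℓ _ hS).comp (chartMap N ℓ W hs), ?_⟩
  intro a ha
  obtain ⟨a'', ha''⟩ := redChart_ker N ℓ s hst hU hS (chartMap N ℓ W hs a) ha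
  refine ⟨⟨W a'', map_mem_chartAlg' N ℓ W hs' a''.2⟩, Subtype.ext ?_⟩
  have h1 : W (a : FNt N) = (ℓ : FNt N) * (a'' : FNt N) := by
    have := congrArg Subtype.val ha''
    rw [coe_chartMap] at this
    rw [this]
    simp
  have h2 : (a : FNt N) = (ℓ : FNt N) * W a'' := by
    rw [← hWW (a : FNt N), h1, map_mul, map_natCast]
  rw [h2]
  simp

lemma rhoN_yV_ne_zero : rhoN N ℓ (yV N ℓ) ≠ 0 := by
  rw [rhoN_jdV]
  intro h
  exact jqModC_ne_zero_of_nontrivial (ZMod ℓ) (qExpand_injective N (by rw [map_zero]; exact h))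

/-- `1/y` as an element of `V` -/
def yinvV : VN N ℓ := ⟨(yFv N)⁻¹, rhoN_loc N ℓ (yV N ℓ) (rhoN_yV_ne_zero N ℓ)⟩

lemma rhoN_yinvV : rhoN N ℓ (yinvV N ℓ) = (jqNModC (ZMod ℓ) N)⁻¹ := by
  have hy0 : yFv N ≠ 0 := by
    intro h
    apply rhoN_yV_ne_zero N ℓ
    rw [show yV N ℓ = 0 from Subtype.ext h, map_zero]
  have h1 : yV N ℓ * yinvV N ℓ = 1 := Subtype.ext (mul_inv_cancel₀ hy0)
  have h2 := congrArg (rhoN N ℓ) h1
  rw [map_mul, map_one, rhoN_jdV] at h2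
  exact eq_inv_of_mul_eq_one_right h2

/-- **S28 (C)** from (B) only ((A4) and the Fricke involution are already proved). -/
theorem exists_red_charts_of_indep
    (b : Fin (dedekindPsi N) → LaurentSeries (ZMod ℓ))
    (hb : ∀ i, b i ∈ modularFunctionFieldFullC (ZMod ℓ) N)
    (hli : LinearIndependent (ZMod ℓ)⟮jqNModC (ZMod ℓ) N⟯ b) :
    (∃ φ : chartAlgFin N ℓ →+* LaurentSeries (ZMod ℓ),
      ∀ a, φ a = 0 → ∃ a', a = (ℓ : chartAlgFin N ℓ) * a') ∧
    (∃ φ : chartAlgInf N ℓ →+* LaurentSeries (ZMod ℓ),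
      ∀ a, φ a = 0 → ∃ a', a = (ℓ : chartAlgInf N ℓ) * a') ∧
    Nonempty (chartAlgMid N ℓ →+* LaurentSeries (ZMod ℓ)) := by
  obtain ⟨hfd, hdeg⟩ := finrank_full_y_le N
  have hyy : yF N = yFv N := rfl
  rw [hyy] at hfd hdeg
  have hUy := UyN N ℓ hdeg b hb hli
  obtain ⟨W, hWx, -, -, hWW⟩ := exists_fricke N
  rw [xF_eq_jFull, hyy] at hWx
  have hy : Transcendental (ZMod ℓ) (rhoN N ℓ (yV N ℓ)) := by
    rw [rhoN_jdV]; exact transcendental_jqNModC _ N
  have hyinv : Transcendental (ZMod ℓ) (rhoN N ℓ (yinvV N ℓ)) := by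
    rw [rhoN_yinvV, Transcendental, IsAlgebraic.inv_iff]
    exact transcendental_jqNModC _ N
  have hUyinv : ∀ g ∈ VN N ℓ, IsIntegral (interS (VN N ℓ) ℚ⟮(yFv N)⁻¹⟯) g := by
    rw [adjoin_inv_eq]
    exact hUy
  have hS3 : ∀ s ∈ ({jFull N, (jFull N)⁻¹} : Set (FNt N)), s ∈ VN N ℓ := by
    rintro _ (rfl | rfl)
    · exact (xV N ℓ).2
    · exact (xinvV N ℓ).2
  exact ⟨exists_red_of_fricke N ℓ W hWW (jFull N) (yV N ℓ) hWx hy hUy,
    exists_red_of_fricke N ℓ W hWW (jFull N)⁻¹ (yinvV N ℓ) (by rw [map_inv₀, hWx]; rfl) hyinv hUyinv,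
    ⟨redChart N ℓ _ hS3⟩⟩

omit [NeZero N] in
lemma aeval_jdT_mem (k : Type) [Field k] {P : MvPolynomial ℕ ℤ}
    (hP : P ∈ MvPolynomial.supported ℤ (↑N.divisors : Set ℕ)) :
    MvPolynomial.aeval (jdT k) P ∈ modularFunctionFieldFullC k N := by
  unfold MvPolynomial.supported at hP
  induction hP using Algebra.adjoin_induction with
  | mem x hx =>
    obtain ⟨d, hd, rfl⟩ := hx
    have hd' : d ∈ N.divisors := hd
    have : NeZero d := ⟨(Nat.pos_of_mem_divisors hd').ne'⟩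
    rw [MvPolynomial.aeval_X, jdT_eq]
    exact jqModCd_mem_full k N (Nat.dvd_of_mem_divisors hd')
  | algebraMap r =>
    rw [AlgHom.commutes, eq_intCast (algebraMap ℤ (LaurentSeries k))]
    exact IntermediateField.intCast_mem _ _
  | add x y _ _ hx hy => rw [map_add]; exact add_mem hx hy
  | mul x y _ _ hx hy => rw [map_mul]; exact mul_mem hx hy

/-- **S28 (C)** in the shape matching the export of (B). -/
theorem exists_red_charts_of_mv (b : Fin (dedekindPsi N) → MvPolynomial ℕ ℤ)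
    (hsupp : ∀ i, b i ∈ MvPolynomial.supported ℤ (↑N.divisors : Set ℕ))
    (hli : LinearIndependent ↥(IntermediateField.adjoin (ZMod ℓ) {jqNModC (ZMod ℓ) N})
      (fun i => MvPolynomial.aeval (jdT (ZMod ℓ)) (b i))) :
    (∃ φ : chartAlgFin N ℓ →+* LaurentSeries (ZMod ℓ),
      ∀ a, φ a = 0 → ∃ a', a = (ℓ : chartAlgFin N ℓ) * a') ∧
    (∃ φ : chartAlgInf N ℓ →+* LaurentSeries (ZMod ℓ),
      ∀ a, φ a = 0 → ∃ a', a = (ℓ : chartAlgInf N ℓ) * a') ∧
    Nonempty (chartAlgMid N ℓ →+* LaurentSeries (ZMod ℓ)) :=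
  exists_red_charts_of_indep N ℓ _ (fun i => aeval_jdT_mem N (ZMod ℓ) (hsupp i)) hli

end FAIg
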