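import Mathlib
import Fermat.Agent.Igusa.ValMain
import Fermat.Agent.Igusa.Val
import Fermat.Agent.Igusa.Schemes
import Fermat.Agent.Igusa.Tensor

/-!
# S28 reduced to the inputs (A1: modular equation), (A4: degree in characteristic zero) and
(B: degree in characteristic `ℓ`)
-/

set_option autoImplicit false

open Module Polynomial IntermediateField ModularCurve ModularCurve.IgusaScheme
open AlgebraicGeometry CategoryTheory CategoryTheory.Limits

noncomputable section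

namespace FAIg

set_option maxHeartbeats 4000000 in
set_option synthInstance.maxHeartbeats 400000 in
/-- **S28 from (A1), (A4), (B)**. -/
theorem isIntegral_pullback_of_inputs (N : ℕ) [NeZero N] (ℓ : ℕ) [Fact ℓ.Prime]
    (hxy : (eval₂RingHom (Int.castRingHom (FNt N)) (jFull N)).IsIntegralElem (yFv N))
    (hyx : (eval₂RingHom (Int.castRingHom (FNt N)) (yFv N)).IsIntegralElem (jFull N))
    (hfd : FiniteDimensional ℚ⟮yFv N⟯ (FNt N)) {n : ℕ} (hdeg : finrank ℚ⟮yFv N⟯ (FNt N) ≤ n)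
    (b : Fin n → LaurentSeries (ZMod ℓ)) (hb : ∀ i, b i ∈ modularFunctionFieldFullC (ZMod ℓ) N)
    (hli : LinearIndependent (ZMod ℓ)⟮jqNModC (ZMod ℓ) N⟯ b)
    (K : Type) [Field K] [CharP K ℓ] [Algebra ↥(GaloisRep.ratLocalizedAt ℓ) K] :
    IsIntegral ↑(pullback (igusaTo N ℓ)
      (Spec.map (CommRingCat.ofHom (algebraMap ↥(GaloisRep.ratLocalizedAt ℓ) K)))) := by
  obtain ⟨⟨φ₁, h₁⟩, ⟨φ₂, h₂⟩, ⟨φ₃⟩⟩ := exists_red_charts N ℓ hxy hyx hdeg b hb hli
  exact isIntegral_pullback_of_domains N ℓ K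
    (isDomain_tensor_ratLocalizedAt ℓ K φ₁ h₁)
    (isDomain_tensor_ratLocalizedAt ℓ K φ₂ h₂)
    (nontrivial_tensor_ratLocalizedAt ℓ K φ₃)

set_option maxHeartbeats 4000000 in
set_option synthInstance.maxHeartbeats 400000 in
/-- **S28 from (B)** (in the shape exported by `DegreeB.lean`). -/
theorem isIntegral_pullback_of_mv (N : ℕ) [NeZero N] (ℓ : ℕ) [Fact ℓ.Prime]
    (b : Fin (dedekindPsi N) → MvPolynomial ℕ ℤ)
    (hsupp : ∀ i, b i ∈ MvPolynomial.supported ℤ (↑N.divisors : Set ℕ))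
    (hli : LinearIndependent ↥(IntermediateField.adjoin (ZMod ℓ) {jqNModC (ZMod ℓ) N})
      (fun i => MvPolynomial.aeval (jdT (ZMod ℓ)) (b i)))
    (K : Type) [Field K] [CharP K ℓ] [Algebra ↥(GaloisRep.ratLocalizedAt ℓ) K] :
    IsIntegral ↑(pullback (igusaTo N ℓ)
      (Spec.map (CommRingCat.ofHom (algebraMap ↥(GaloisRep.ratLocalizedAt ℓ) K)))) := by
  obtain ⟨⟨φ₁, h₁⟩, ⟨φ₂, h₂⟩, ⟨φ₃⟩⟩ := exists_red_charts_of_mv N ℓ b hsupp hli
  exact isIntegral_pullback_of_domains N ℓ K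
    (isDomain_tensor_ratLocalizedAt ℓ K φ₁ h₁)
    (isDomain_tensor_ratLocalizedAt ℓ K φ₂ h₂)
    (nontrivial_tensor_ratLocalizedAt ℓ K φ₃)

end FAIg
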