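import Fermat.Agent.Igusa.MeroRing
import Fermat.Agent.Igusa.QPrinciple

/-! S28-(A): a finite family of functions permuted by `SL₂(ℤ)` satisfies a monic equation over
`S[j]`, where `S` contains the Laurent coefficients of the family. -/

set_option autoImplicit false
set_option linter.unusedSectionVars false
set_option linter.unusedVariables false

open UpperHalfPlane ModularForm EisensteinSeries Function CongruenceSubgroup FA_IS FA24
open ModularCurve Polynomial
open scoped Manifold MatrixGroups Real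

namespace FAIg

section Perm

variable {I : Type} [Fintype I] (f : I → ℍ → ℂ)

/-- invariance of `∏ (T - f x (τ))`. -/
lemma prod_X_sub_C_smul (hinj : Function.Injective f)
    (hcl : ∀ (γ : SL(2, ℤ)) (x : I), ∃ x', ∀ τ, f x (γ • τ) = f x' τ) (γ : SL(2, ℤ)) (τ : ℍ) :
    ∏ x, (X - C (f x (γ • τ))) = ∏ x, (X - C (f x τ)) := by
  choose σ hσ using hcl γ
  have hσinj : Function.Injective σ := by
    intro x y hxy
    apply hinj
    funext τ'
    have h1 := hσ x (γ⁻¹ • τ')
    have h2 := hσ y (γ⁻¹ • τ')
    rw [smul_inv_smul] at h1 h2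
    rw [h1, h2, hxy]
  have hσbij : Function.Bijective σ := Finite.injective_iff_bijective.mp hσinj
  rw [← hσbij.prod_comp (fun x => (X - C (f x τ) : Polynomial ℂ))]
  exact Finset.prod_congr rfl fun x _ => by rw [hσ x τ]

end Perm

lemma coeffMap_injective {R S : Type*} [CommRing R] [CommRing S] (ι : R →+* S)
    (hι : Function.Injective ι) : Function.Injective (coeffMap ι) := by
  intro x y h
  ext n
  apply hι
  rw [← coeffMap_coeff, ← coeffMap_coeff, h]

theorem exists_symm_poly (N : ℕ) [NeZero N] {I : Type} [Fintype I] (f : I → ℍ → ℂ)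
    (hM : ∀ x, MeroInf N (f x)) (hinj : Function.Injective f)
    (hcl : ∀ (γ : SL(2, ℤ)) (x : I), ∃ x', ∀ τ, f x (γ • τ) = f x' τ)
    {S : Type} [CommRing S] (ι : S →+* ℂ) (hι : Function.Injective ι)
    (g : I → LaurentSeries S) (hg : ∀ x, coeffMap ι (g x) = lau N (f x)) :
    ∃ Φ : Polynomial (Polynomial S), Φ.Monic ∧ Φ.natDegree = Fintype.card I ∧
      Φ.map (evalJ (qExpand S N (jqModC S))) = ∏ x, (X - C (g x)) := by
  classical
  haveI : Nontrivial S := ι.domain_nontrivial
  set n := Fintype.card I with hn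
  -- the polynomial over the ring of functions
  let Q' : Polynomial (meroRing N) := ∏ x, (X - C (⟨f x, hM x⟩ : meroRing N))
  -- evaluation at a point
  have hev : ∀ (τ : ℍ) (i : ℕ), ((Q'.coeff i : meroRing N) : ℍ → ℂ) τ =
      (∏ x, (X - C (f x τ)) : Polynomial ℂ).coeff i := by
    intro τ i
    let ev : meroRing N →+* ℂ := (Pi.evalRingHom (fun _ : ℍ => ℂ) τ).comp (meroRing N).subtype
    have h1 : Q'.map ev = ∏ x, (X - C (f x τ)) := by
      rw [Polynomial.map_prod]
      refine Finset.prod_congr rfl fun x _ => ?_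
      rw [Polynomial.map_sub, map_X, map_C]
      rfl
    rw [← h1, coeff_map]
    rfl
  -- coefficients are polynomials in `j`
  have hP : ∀ i, ∃ P : Polynomial ℂ, ∀ τ, ((Q'.coeff i : meroRing N) : ℍ → ℂ) τ = P.eval (jf τ) := by
    intro i
    have hmem : MeroInf N ((Q'.coeff i : meroRing N) : ℍ → ℂ) := (Q'.coeff i).2
    obtain ⟨m, hm⟩ := hmem.pole
    obtain ⟨P, -, hP⟩ := exists_poly_of_invariant _ hmem.hol (fun γ τ => by
      rw [hev, hev, prod_X_sub_C_smul f hinj hcl]) m hm
    exact ⟨P, hP⟩
  choose P hP using hP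
  have hlau : ∀ i, lauHom N (Q'.coeff i) = evalJ (qExpand ℂ N (jqModC ℂ)) (P i) := by
    intro i
    have e : ((Q'.coeff i : meroRing N) : ℍ → ℂ) = fun τ => (P i).eval (jf τ) := funext (hP i)
    rw [lauHom_apply, e, (meroInf_eval (meroInf_jf.of_one (N := N)) (P i)).2, lau_jf_level]
  -- the image of `Q'` under the Laurent expansion
  set G : Polynomial (LaurentSeries S) := ∏ x, (X - C (g x)) with hG
  have hGmonic : G.Monic := monic_prod_of_monic _ _ fun x _ => monic_X_sub_C _
  have hGdeg : G.natDegree = n := by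
    rw [hG, natDegree_prod_of_monic _ _ fun x _ => monic_X_sub_C _]
    simp [hn]
  have hQmap : Q'.map (lauHom N) = G.map (coeffMap ι) := by
    rw [hG, Polynomial.map_prod, Polynomial.map_prod]
    refine Finset.prod_congr rfl fun x _ => ?_
    rw [Polynomial.map_sub, map_X, map_C, Polynomial.map_sub, map_X, map_C, hg]
    rfl
  have hcoef : ∀ i, evalJ (qExpand ℂ N (jqModC ℂ)) (P i) = coeffMap ι (G.coeff i) := by
    intro i
    rw [← hlau, ← coeff_map, hQmap, coeff_map]
  -- descent of the coefficients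
  have hlift : ∀ i, ∃ P' : Polynomial S, P'.map ι = P i := by
    intro i
    have h1 : ∀ m, (P i).coeff m ∈ ι.range := by
      apply coeff_mem_of_evalJ_jq
      intro k
      rw [← qExpand_coeff_mul N, qExpand_evalJ, hcoef, coeffMap_coeff]
      exact ⟨_, rfl⟩
    exact (lifts_iff_coeff_lifts _).mpr h1
  choose P' hP' using hlift
  have hkey : ∀ i, evalJ (qExpand S N (jqModC S)) (P' i) = G.coeff i := by
    intro i
    apply coeffMap_injective ι hι
    rw [coeffMap_evalJ, coeffMap_qExpand, coeffMap_jqModC, hP', hcoef]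
  have hdeg : (∑ i : Fin n, C (P' i) * X ^ (i : ℕ) : Polynomial (Polynomial S)).degree < n :=
    degree_sum_fin_lt _
  refine ⟨X ^ n + ∑ i : Fin n, C (P' i) * X ^ (i : ℕ), monic_X_pow_add hdeg,
    by rw [natDegree_add_eq_left_of_degree_lt (by rw [degree_X_pow]; exact hdeg), natDegree_X_pow],
    ?_⟩
  rw [Polynomial.map_add, Polynomial.map_pow, map_X, Polynomial.map_sum]
  conv_rhs => rw [hGmonic.as_sum, hGdeg, Finset.sum_range]
  congr 1
  refine Finset.sum_congr rfl fun i _ => ?_
  rw [Polynomial.map_mul, Polynomial.map_pow, map_X, map_C, hkey]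

end FAIg
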