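import Fermat.Agent.X0Genus.JOrd
import Fermat.Agent.X0Genus.EtaProd
import Fermat.Prelude.Def_ModularCurve_JqCoeff

/-! S28-(A3), core: `q`-expansion of `D F`, and the power series identity
`(θ J - J)^6 = U J^4 (J - 1728 X)^3` for `J = jNum`, `U = dedekindEtaUnit` over `ℤ`. -/

set_option autoImplicit false

open UpperHalfPlane ModularForm EisensteinSeries Function CongruenceSubgroup FA_IS
open scoped Manifold MatrixGroups Real Topology

namespace FAIg

open FA24 Derivative

local notation "𝕢" => Periodic.qParam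

/-- `θ = X d/dX` on power series. -/
noncomputable def thP {R : Type*} [CommRing R] (P : PowerSeries R) : PowerSeries R :=
  PowerSeries.X * PowerSeries.derivative R P

lemma tay0_deriv (c : ℂ → ℂ) : tay0 (deriv c) = PowerSeries.derivative ℂ (tay0 c) := by
  ext n
  rw [coeff_tay0, PowerSeries.coeff_derivative, coeff_tay0, ← iteratedDeriv_succ',
    Nat.factorial_succ]
  have h1 : ((n : ℂ) + 1) ≠ 0 := by exact_mod_cast Nat.succ_ne_zero n
  have h2 : ((n.factorial : ℕ) : ℂ) ≠ 0 := by exact_mod_cast Nat.factorial_ne_zero n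
  push_cast
  field_simp

lemma hasDerivAt_qParam_one (z : ℂ) : HasDerivAt (𝕢 1) (2 * π * Complex.I * 𝕢 1 z) z := by
  have h1 : HasDerivAt (fun w : ℂ => 2 * π * Complex.I * w / ((1 : ℝ) : ℂ)) (2 * π * Complex.I) z := by
    have := ((hasDerivAt_id z).const_mul (2 * π * Complex.I)).div_const (((1 : ℝ) : ℂ))
    simpa using this
  have h2 := h1.cexp
  have h3 : (𝕢 1) = fun w : ℂ => Complex.exp (2 * π * Complex.I * w / ((1 : ℝ) : ℂ)) := by
    funext w
    rfl
  rw [h3]
  have h4 : 2 * (π : ℂ) * Complex.I * Complex.exp (2 * π * Complex.I * z / ((1 : ℝ) : ℂ)) =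
      Complex.exp (2 * π * Complex.I * z / ((1 : ℝ) : ℂ)) * (2 * π * Complex.I) := mul_comm _ _
  rw [h4]
  exact h2

lemma cusp_D_of_ne {F : ℍ → ℂ} (hF : Nice 1 F) {q : ℂ} (hq : ‖q‖ < 1) (hq0 : q ≠ 0) :
    cuspFunction 1 (D F) q = q * deriv (cuspFunction 1 F) q := by
  have hz : 0 < (Periodic.invQParam 1 q).im :=
    Periodic.im_invQParam_pos_of_norm_lt_one one_pos hq hq0
  have hqz : 𝕢 1 (Periodic.invQParam 1 q) = q := Periodic.qParam_right_inv one_ne_zero hq0
  set z := Periodic.invQParam 1 q with hzdef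
  have h1 : cuspFunction 1 (D F) q = D F (ofComplex z) := by
    unfold UpperHalfPlane.cuspFunction
    rw [Periodic.cuspFunction_eq_of_nonzero _ _ hq0]
    rfl
  have h2 : ((ofComplex z : ℍ) : ℂ) = z := by
    rw [ofComplex_apply_of_im_pos hz]
  have h3 : (F ∘ ofComplex) =ᶠ[𝓝 z] (cuspFunction 1 F) ∘ (𝕢 1) := by
    have hopen : ∀ᶠ w in 𝓝 z, 0 < w.im :=
      (Complex.continuous_im.isOpen_preimage _ isOpen_Ioi).mem_nhds hz
    filter_upwards [hopen] with w hw
    have := eq_cuspFunction (h := 1) (f := F) ⟨w, hw⟩ one_ne_zero hF.per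
    simp only [comp_apply]
    rw [ofComplex_apply_of_im_pos hw, ← this]
  have h4 : DifferentiableAt ℂ (cuspFunction 1 F) (𝕢 1 z) := by
    rw [hqz]
    exact differentiableAt_cuspFunction one_pos hF.per hF.hol hF.bdd hq
  have h5 : deriv (F ∘ ofComplex) z = deriv (cuspFunction 1 F) q * (2 * π * Complex.I * q) := by
    rw [h3.deriv_eq, deriv_comp z h4 (hasDerivAt_qParam_one z).differentiableAt,
      (hasDerivAt_qParam_one z).deriv, hqz]
  rw [h1]
  unfold normalizedDerivOfComplex
  rw [h2, h5]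
  have := two_pi_I_ne
  field_simp

lemma D_isZero {F : ℍ → ℂ} (hF : Nice 1 F) : IsZeroAtImInfty (D F) := by
  set a : ℂ := (qExpansion 1 F).coeff 0
  have h1 : IsZeroAtImInfty (F - fun _ => a) := by
    have := (hF.tendsto one_pos).sub (tendsto_const_nhds (x := a))
    rw [sub_self] at this
    exact this
  have h2 := D_zero (hF.hol.sub mdifferentiable_const) h1
  rwa [normalizedDerivOfComplex_sub _ _ hF.hol mdifferentiable_const,
    normalizedDerivOfComplex_const, sub_zero] at h2

lemma cusp_D_eventuallyEq {F : ℍ → ℂ} (hF : Nice 1 F) :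
    cuspFunction 1 (D F) =ᶠ[𝓝 0] (fun q : ℂ => q) * deriv (cuspFunction 1 F) := by
  filter_upwards [Metric.ball_mem_nhds (0 : ℂ) one_pos] with q hq
  rcases eq_or_ne q 0 with rfl | hq0
  · rw [(D_isZero hF).cuspFunction_apply_zero one_pos]
    simp
  · simpa using cusp_D_of_ne hF (by simpa using hq) hq0

lemma analyticAt_cusp_D {F : ℍ → ℂ} (hF : Nice 1 F) : AnalyticAt ℂ (cuspFunction 1 (D F)) 0 :=
  (analyticAt_id.mul (hF.analyticAt one_pos).deriv).congr (cusp_D_eventuallyEq hF).symm

lemma qExpansion_D {F : ℍ → ℂ} (hF : Nice 1 F) : qExpansion 1 (D F) = thP (qExpansion 1 F) := by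
  have h0 : qExpansion 1 (D F) = tay0 (cuspFunction 1 (D F)) := rfl
  have h1 : qExpansion 1 F = tay0 (cuspFunction 1 F) := rfl
  rw [h0, tay0_congr (cusp_D_eventuallyEq hF),
    tay0_mul (F := fun q => q) analyticAt_id (hF.analyticAt one_pos).deriv, tay0_id, tay0_deriv,
    thP, h1]

lemma nice_D {F : ℍ → ℂ} (hF : Nice 1 F) : Nice 1 (D F) := by
  refine ⟨fun w => ?_, normalizedDerivOfComplex_mdifferentiable hF.hol, D_bdd hF.hol hF.bdd⟩
  simp only [comp_apply]
  rcases lt_or_ge 0 w.im with hw | hw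
  · have hw1 : 0 < (w + ((1 : ℝ) : ℂ)).im := by simpa using hw
    rw [ofComplex_apply_of_im_pos hw, ofComplex_apply_of_im_pos hw1]
    unfold normalizedDerivOfComplex
    congr 1
    show deriv (F ∘ ofComplex) (w + ((1 : ℝ) : ℂ)) = deriv (F ∘ ofComplex) w
    rw [← deriv_comp_add_const]
    congr 1
    funext x
    exact hF.per x
  · have hw1 : (w + ((1 : ℝ) : ℂ)).im ≤ 0 := by simpa using hw
    rw [ofComplex_apply_of_im_nonpos hw, ofComplex_apply_of_im_nonpos hw1]

section alg

variable {R S : Type*} [CommRing R] [CommRing S]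

lemma thP_mul (P Q : PowerSeries R) : thP (P * Q) = P * thP Q + Q * thP P := by
  unfold thP
  rw [Derivation.leibniz]
  simp only [smul_eq_mul]
  ring

lemma constantCoeff_thP (P : PowerSeries R) : PowerSeries.constantCoeff (thP P) = 0 := by
  simp [thP]

lemma coeff_thP (P : PowerSeries R) (n : ℕ) :
    PowerSeries.coeff n (thP P) = (n : R) * PowerSeries.coeff n P := by
  unfold thP
  cases n with
  | zero => simp
  | succ n =>
    rw [mul_comm, PowerSeries.coeff_succ_mul_X, PowerSeries.coeff_derivative]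
    push_cast
    ring

lemma thP_map (f : R →+* S) (P : PowerSeries R) : thP (P.map f) = (thP P).map f := by
  ext n
  simp [coeff_thP]

lemma thP_X : thP (PowerSeries.X : PowerSeries R) = PowerSeries.X := by
  ext n
  rw [coeff_thP, PowerSeries.coeff_X]
  split_ifs with h
  · simp [h]
  · simp

lemma thP_one : thP (1 : PowerSeries R) = 0 := by
  simp [thP]

/-- the formal computation. -/
lemma formal_identity (e s u v : PowerSeries R) (c : R) (huv : u * v = 1)
    (h1 : e ^ 3 - s ^ 2 = 1728 * (PowerSeries.X * u))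
    (h2 : thP (e ^ 3) * u - e ^ 3 * (u + thP u) = PowerSeries.C c * (e ^ 2 * s * u))
    (hc : c ^ 6 = 1) :
    (thP (e ^ 3 * v) - e ^ 3 * v) ^ 6 =
      u * (e ^ 3 * v) ^ 4 * (e ^ 3 * v - 1728 * PowerSeries.X) ^ 3 := by
  have hv : thP v = - v ^ 2 * thP u := by
    have h := thP_mul u v
    rw [huv, thP_one] at h
    linear_combination (-v) * h - (thP v) * huv
  have h3 : thP (e ^ 3 * v) - e ^ 3 * v = PowerSeries.C c * (e ^ 2 * s * v) := by
    rw [thP_mul, hv]
    linear_combination v ^ 2 * h2 - (v * thP (e ^ 3) - e ^ 3 * v - PowerSeries.C c * e ^ 2 * s * v) * huv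
  have h4 : e ^ 3 * v - 1728 * PowerSeries.X = v * s ^ 2 := by
    linear_combination v * h1 + (1728 * PowerSeries.X) * huv
  have hc' : (PowerSeries.C c : PowerSeries R) ^ 6 = 1 := by
    rw [← map_pow, hc, map_one]
  rw [h3, h4]
  linear_combination (e ^ 2 * s * v) ^ 6 * hc' - (e ^ 12 * v ^ 6 * s ^ 6) * huv

end alg

section analytic

local notation "Δ" => ModularForm.discriminant

lemma rel_one : qExpansion 1 E₄ ^ 3 - qExpansion 1 E₆ ^ 2 = 1728 * qExpansion 1 Δ := by
  have hfun : (⇑E₄ : ℍ → ℂ) ^ 3 - (⇑E₆ : ℍ → ℂ) ^ 2 = (1728 : ℂ) • Δ := by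
    funext τ
    simp only [Pi.sub_apply, Pi.pow_apply, Pi.smul_apply, smul_eq_mul]
    rw [discriminant_eq_E₄_cube_sub_E₆_sq τ]
    ring
  have h := congrArg (qExpansion 1) hfun
  rw [(nice_E₄.pow 3).qExpansion_sub (nice_E₆.pow 2) one_pos, nice_E₄.qExpansion_pow one_pos,
    nice_E₆.qExpansion_pow one_pos, nice_disc_one.qExpansion_smul one_pos] at h
  rw [h]
  have h3 : (1728 : PowerSeries ℂ) = PowerSeries.C (1728 : ℂ) :=
    (map_ofNat (PowerSeries.C (R := ℂ)) 1728).symm
  rw [h3]
  ext n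
  simp

lemma rel_two : ∃ c : ℂ, thP (qExpansion 1 E₄ ^ 3) * qExpansion 1 Δ -
    qExpansion 1 E₄ ^ 3 * thP (qExpansion 1 Δ) =
      PowerSeries.C c * (qExpansion 1 E₄ ^ 2 * qExpansion 1 E₆ * qExpansion 1 Δ) := by
  obtain ⟨c, hc⟩ := exists_D_jf_eq
  refine ⟨c, ?_⟩
  have hfun : D ((⇑E₄ : ℍ → ℂ) ^ 3) * Δ - (⇑E₄ : ℍ → ℂ) ^ 3 * D Δ =
      c • ((⇑E₄ : ℍ → ℂ) ^ 2 * ⇑E₆ * Δ) := by
    rw [← disc_sq_mul_D_jf]
    funext τ
    simp only [Pi.mul_apply, Pi.pow_apply, Pi.smul_apply, smul_eq_mul]
    rw [hc τ]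
    have := discriminant_ne_zero τ
    field_simp
  have h := congrArg (qExpansion 1) hfun
  have n3 := nice_E₄.pow 3
  rw [((nice_D n3).mul nice_disc_one).qExpansion_sub (n3.mul (nice_D nice_disc_one)) one_pos,
    (nice_D n3).qExpansion_mul nice_disc_one one_pos,
    n3.qExpansion_mul (nice_D nice_disc_one) one_pos, qExpansion_D n3,
    qExpansion_D nice_disc_one, nice_E₄.qExpansion_pow one_pos,
    (((nice_E₄.pow 2).mul nice_E₆).mul nice_disc_one).qExpansion_smul one_pos,
    ((nice_E₄.pow 2).mul nice_E₆).qExpansion_mul nice_disc_one one_pos,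
    (nice_E₄.pow 2).qExpansion_mul nice_E₆ one_pos, nice_E₄.qExpansion_pow one_pos] at h
  rw [h]
  ext n
  simp

end analytic

open ModularCurve in
/-- the identity over `ℤ`. -/
theorem core_int : (thP jNum - jNum) ^ 6 =
    dedekindEtaUnit * jNum ^ 4 * (jNum - 1728 * PowerSeries.X) ^ 3 := by
  apply PowerSeries.map_injective (Int.castRingHom ℂ) Int.cast_injective
  set φ := PowerSeries.map (Int.castRingHom ℂ) with hφ
  have huv : φ dedekindEtaUnit * φ dedekindEtaUnitInv = 1 := by
    rw [← map_mul, dedekindEtaUnit_mul_inv, map_one]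
  have h1 := rel_one
  obtain ⟨c, h2⟩ := rel_two
  rw [qExpansion_E₄, qExpansion_discriminant] at h1 h2
  rw [← hφ] at h1 h2
  have h2' : thP (φ eisenstein4 ^ 3) * φ dedekindEtaUnit -
      φ eisenstein4 ^ 3 * (φ dedekindEtaUnit + thP (φ dedekindEtaUnit)) =
      PowerSeries.C c * (φ eisenstein4 ^ 2 * qExpansion 1 E₆ * φ dedekindEtaUnit) := by
    apply mul_left_cancel₀ (PowerSeries.X_ne_zero (R := ℂ))
    rw [thP_mul, thP_X] at h2
    linear_combination h2
  have hce : PowerSeries.constantCoeff (φ eisenstein4) = 1 := by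
    rw [hφ, ← PowerSeries.coeff_zero_eq_constantCoeff_apply, PowerSeries.coeff_map,
      PowerSeries.coeff_zero_eq_constantCoeff_apply, constantCoeff_eisenstein4]
    simp
  have hcu : PowerSeries.constantCoeff (φ dedekindEtaUnit) = 1 := by
    rw [hφ, ← PowerSeries.coeff_zero_eq_constantCoeff_apply, PowerSeries.coeff_map,
      PowerSeries.coeff_zero_eq_constantCoeff_apply, constantCoeff_dedekindEtaUnit]
    simp
  have hcs : PowerSeries.constantCoeff (qExpansion 1 E₆) = 1 := by
    rw [← PowerSeries.coeff_zero_eq_constantCoeff_apply]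
    exact E_qExpansion_coeff_zero _ ⟨3, rfl⟩
  have hc : c = -1 := by
    have h := congrArg PowerSeries.constantCoeff h2'
    simp only [map_sub, map_mul, map_add, map_pow, constantCoeff_thP, hce, hcu, hcs,
      PowerSeries.constantCoeff_C] at h
    linear_combination -h
  have key := formal_identity (φ eisenstein4) (qExpansion 1 E₆) (φ dedekindEtaUnit)
    (φ dedekindEtaUnitInv) c huv h1 h2' (by rw [hc]; norm_num)
  have hJ : φ jNum = φ eisenstein4 ^ 3 * φ dedekindEtaUnitInv := by
    rw [jNum, map_mul, map_pow]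
  have hX : φ PowerSeries.X = PowerSeries.X := by
    rw [hφ, PowerSeries.map_X]
  have h1728 : φ 1728 = 1728 := map_ofNat φ 1728
  rw [map_pow, map_sub, map_mul, map_mul, map_pow, map_pow, map_sub, map_mul, hX, h1728,
    hφ, ← thP_map, ← hφ, hJ]
  exact key

open ModularCurve in
/-- the identity `(θ j)^6 = Δ j^4 (j - 1728)^3` over any commutative ring, stated without any
auxiliary definition: `T` is any Laurent series with `T_n = n j_n`. -/
theorem core_laurent (R : Type*) [CommRing R] (T : LaurentSeries R)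
    (hT : ∀ n : ℤ, T.coeff n = (n : R) * (jqModC R).coeff n) :
    T ^ 6 = (HahnSeries.single (1 : ℤ) 1 *
      HahnSeries.ofPowerSeries ℤ R (dedekindEtaUnit.map (Int.castRingHom R))) *
        jqModC R ^ 4 * (jqModC R - 1728) ^ 3 := by
  set φ := PowerSeries.map (Int.castRingHom R) with hφ
  set o := HahnSeries.ofPowerSeries ℤ R with ho
  set q : LaurentSeries R := HahnSeries.single (1 : ℤ) 1 with hq
  set qi : LaurentSeries R := HahnSeries.single (-1 : ℤ) 1 with hqi
  have hqq : q * qi = 1 := by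
    rw [hq, hqi, HahnSeries.single_mul_single]
    simp
  have hx : jqModC R = qi * o (φ jNum) := rfl
  have hcoef : ∀ (P : PowerSeries R) (n : ℤ), (qi * o P).coeff n = (o P).coeff (n + 1) := by
    intro P n
    have := HahnSeries.coeff_single_mul_add (r := (1 : R)) (x := o P) (a := n + 1) (b := (-1 : ℤ))
    rw [one_mul, show n + 1 + -1 = n by ring] at this
    exact this
  have hTe : T = qi * o (thP (φ jNum) - φ jNum) := by
    ext n
    rw [hT, hx, hcoef, hcoef]
    rcases lt_or_ge (n + 1) 0 with h | h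
    · rw [ho, ofPowerSeries_coeff_of_neg _ h, ofPowerSeries_coeff_of_neg _ h, mul_zero]
    · obtain ⟨m, hm⟩ := Int.eq_ofNat_of_zero_le h
      rw [hm, ho, HahnSeries.ofPowerSeries_apply_coeff, HahnSeries.ofPowerSeries_apply_coeff,
        map_sub, coeff_thP]
      have hn : (n : R) = (m : R) - 1 := by
        have : n = (m : ℤ) - 1 := by omega
        rw [this]
        push_cast
        ring
      rw [hn]
      ring
  have hoX : o PowerSeries.X = q := by
    rw [ho, HahnSeries.ofPowerSeries_X]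
  have key := congrArg (fun P => o (φ P)) core_int
  simp only [map_pow, map_sub, map_mul] at key
  rw [hφ, ← thP_map, ← hφ, show φ PowerSeries.X = PowerSeries.X from PowerSeries.map_X _, hoX,
    show φ 1728 = 1728 from map_ofNat φ 1728, show o 1728 = 1728 from map_ofNat o 1728] at key
  rw [hTe, hx, map_sub]
  set A := o (thP (φ jNum)) with hA
  set B := o (φ jNum) with hB
  set U := o (φ dedekindEtaUnit) with hU
  have e1 : qi * B - 1728 = qi * (B - 1728 * q) := by
    linear_combination (1728 : LaurentSeries R) * hqq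
  rw [e1]
  linear_combination qi ^ 6 * key - (qi ^ 6 * U * B ^ 4 * (B - 1728 * q) ^ 3) * hqq

end FAIg
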