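import Fermat.Agent.Igusa.ThetaCore
import Fermat.Agent.Igusa.DefsA

/-! S28-(A3) in the notation of `Igusa/DefsA.lean`. -/

set_option autoImplicit false

open ModularCurve

namespace FAIg

/-- (A3) -/
theorem thetaL_jq_pow_six' (R : Type*) [CommRing R] :
    thetaL (jqModC R) ^ 6 = deltaL R * jqModC R ^ 4 * (jqModC R - 1728) ^ 3 :=
  core_laurent R (thetaL (jqModC R)) fun n => coeff_thetaL _ n

end FAIg
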