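import Fermat.Agent.Igusa.ThetaCore
import Fermat.Agent.Igusa.Series

/-! S28-(A3) in the notation of `Igusa/Series.lean`. -/

set_option autoImplicit false

open ModularCurve

namespace FAIg

/-- (A3) -/
theorem thetaIdentity (R : Type*) [CommRing R] : ThetaIdentity R :=
  core_laurent R (theta R (jqModC R)) fun n => coeff_theta _ n

end FAIg
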