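import Fermat.Agent.Igusa.ModEqC
import Fermat.Agent.Igusa.Leads

/-! S28-(A2): the equation of `p¹² Δ(pτ)/Δ(τ)` over `ℤ[ζ_p][j]`. -/

set_option autoImplicit false
set_option linter.unusedSectionVars false
set_option linter.unusedVariables false

open UpperHalfPlane ModularForm EisensteinSeries Function CongruenceSubgroup FA_IS FA24
open ModularCurve Polynomial
open scoped Manifold MatrixGroups Real

namespace FAIg

local notation "Δ" => ModularForm.discriminant

/-- `1/Δ` -/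
noncomputable def dInv : ℍ → ℂ := (1 : ℍ → ℂ) / Δ

lemma dInv_apply (τ : ℍ) : dInv τ = 1 / Δ τ := rfl

lemma dInv_mul_disc : dInv * Δ = 1 := by
  ext τ
  simp [dInv_apply, discriminant_ne_zero]

lemma meroInf_disc : MeroInf 1 Δ := MeroInf.of_nice (nice_one_cast nice_disc_one)

lemma meroInf_dInv : MeroInf 1 dInv := by
  refine ⟨fun w => ?_, (Nice.one (h := 1)).hol.div nice_disc_one.hol discriminant_ne_zero, ⟨1, ?_⟩⟩
  · have h2 := nice_disc_one.per w
    simp only [comp_apply, dInv_apply, Nat.cast_one] at h2 ⊢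
    rw [h2]
  · rw [pow_one, dInv_mul_disc]
    exact Filter.const_boundedAtFilter atImInfty (1 : ℂ)

lemma lau_one_dInv : lau 1 dInv = deltaInvL ℂ := by
  have h := lau_mul meroInf_dInv meroInf_disc
  rw [dInv_mul_disc, lau_one_disc] at h
  have h1 : lau 1 (1 : ℍ → ℂ) = 1 := by
    have := lau_const 1 1
    rw [map_one] at this
    exact this
  rw [h1] at h
  calc lau 1 dInv = lau 1 dInv * (deltaL ℂ * deltaInvL ℂ) := by rw [deltaL_mul_deltaInvL, mul_one]
    _ = deltaInvL ℂ := by rw [← mul_assoc, ← h, one_mul]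

lemma disc_T_zpow (k : ℤ) (z : ℍ) : Δ (ModularGroup.T ^ k • z) = Δ z := by
  rw [modular_T_zpow_smul]
  exact congrFun (shiftFun_disc k) z

variable (p : ℕ) [hp : Fact p.Prime]

/-- the `p + 1` functions `p¹²Δ(pτ)/Δ(τ)`, `Δ((τ+b)/p)/Δ(τ)`. -/
noncomputable def wFam : Option (Fin p) → ℍ → ℂ
  | none => (fun _ : ℍ => (p : ℂ) ^ 12) * compAff Δ p 1 0 * dInv
  | some b => compAff Δ 1 p ((b : ℕ) : ℤ) * dInv

lemma wFam_none_apply (τ : ℍ) : wFam p none τ = (p : ℂ) ^ 12 * Δ (affPt p 1 0 τ) * (1 / Δ τ) := rfl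

lemma wFam_some_apply (b : Fin p) (τ : ℍ) :
    wFam p (some b) τ = Δ (affPt 1 p ((b : ℕ) : ℤ) τ) * (1 / Δ τ) := rfl

lemma wFam_base (γ : SL(2, ℤ)) : ∃ x', ∀ τ, wFam p none (γ • τ) = wFam p x' τ := by
  have hp0 : 0 < p := hp.out.pos
  have hpC : (p : ℂ) ≠ 0 := by exact_mod_cast hp0.ne'
  obtain ⟨a, e, b, ha, he, hae, -, h⟩ := compAff_slash CuspForm.discriminant p γ
  have key : ∀ τ, wFam p none (γ • τ) =
      (p : ℂ) ^ 12 * ((e : ℂ) ^ 12)⁻¹ * Δ (affPt a e b τ) * (1 / Δ τ) := by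
    intro τ
    have h1 := congrFun h τ
    rw [SL_slash_apply] at h1
    have hden : denom γ τ ≠ 0 := denom_ne_zero _ τ
    have h2 : Δ (affPt p 1 0 (γ • τ)) * denom γ τ ^ (-(12 : ℤ)) =
        ((e : ℂ) ^ (12 : ℤ))⁻¹ * Δ (affPt a e b τ) := h1
    have h3 : Δ (affPt p 1 0 (γ • τ)) =
        ((e : ℂ) ^ (12 : ℤ))⁻¹ * Δ (affPt a e b τ) * denom γ τ ^ (12 : ℤ) := by
      rw [← h2, mul_assoc, ← zpow_add₀ hden]
      simp
    rw [wFam_none_apply, h3, disc_smul]
    have hd := discriminant_ne_zero τ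
    have hz : denom γ τ ^ (12 : ℤ) ≠ 0 := zpow_ne_zero _ hden
    have e12 : ((e : ℂ) ^ (12 : ℤ)) = (e : ℂ) ^ 12 := zpow_ofNat _ 12
    rw [e12]
    generalize denom γ τ ^ (12 : ℤ) = D at hz ⊢
    generalize ((e : ℂ) ^ 12)⁻¹ = E
    generalize (p : ℂ) ^ 12 = P
    have h5 : D * (1 / (D * Δ τ)) = 1 / Δ τ := by field_simp
    calc P * (E * Δ (affPt a e b τ) * D) * (1 / (D * Δ τ))
        = P * E * Δ (affPt a e b τ) * (D * (1 / (D * Δ τ))) := by ring
      _ = _ := by rw [h5]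
  rcases (Nat.dvd_prime hp.out).mp ⟨e, hae.symm⟩ with rfl | rfl
  · rw [one_mul] at hae
    subst hae
    have hlt : (b % (e : ℤ)).toNat < e := by
      have h1 := Int.emod_nonneg b (by exact_mod_cast hp0.ne' : (e : ℤ) ≠ 0)
      have h2 := Int.emod_lt_of_pos b (by exact_mod_cast hp0 : (0 : ℤ) < e)
      omega
    refine ⟨some ⟨(b % (e : ℤ)).toNat, hlt⟩, fun τ => ?_⟩
    rw [key τ, wFam_some_apply, mul_inv_cancel₀ (pow_ne_zero 12 hpC), one_mul]
    have h1 := Int.emod_nonneg b (by exact_mod_cast hp0.ne' : (e : ℤ) ≠ 0)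
    show Δ (affPt 1 e b τ) * _ = Δ (affPt 1 e (((b % (e : ℤ)).toNat : ℕ) : ℤ) τ) * _
    rw [Int.toNat_of_nonneg h1]
    conv_lhs => rw [← Int.emod_add_mul_ediv b e, affPt_add_mul one_pos hp0, disc_T_zpow]
  · have he1 : e = 1 := Nat.eq_of_mul_eq_mul_left hp0 (by rw [hae, mul_one])
    subst he1
    refine ⟨none, fun τ => ?_⟩
    rw [key τ, wFam_none_apply]
    have := affPt_add_mul hp0 one_pos 0 b τ
    rw [Nat.cast_one, one_mul, zero_add] at this
    rw [this, disc_T_zpow]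
    simp

lemma wFam_some_eq (b : Fin p) (τ : ℍ) :
    wFam p (some b) τ =
      wFam p none ((ModularGroup.S * ModularGroup.T ^ (((b : ℕ) : ℤ))) • τ) := by
  have hp0 : 0 < p := hp.out.pos
  have hpC : (p : ℂ) ≠ 0 := by exact_mod_cast hp0.ne'
  rw [wFam_none_apply, mul_smul, affPt_S_T hp0, disc_smul, disc_smul, disc_T_zpow,
    ModularGroup.denom_S, ModularGroup.denom_S, wFam_some_apply, coe_affPt one_pos hp0,
    modular_T_zpow_smul, coe_vadd]
  have h1 : ((((b : ℕ) : ℤ) : ℝ) : ℂ) + (τ : ℂ) ≠ 0 := by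
    have := ((((((b : ℕ) : ℤ) : ℝ)) +ᵥ τ : ℍ)).ne_zero
    rwa [coe_vadd] at this
  have hd := discriminant_ne_zero τ
  have e12 : ∀ z : ℂ, z ^ (12 : ℤ) = z ^ 12 := fun z => zpow_ofNat z 12
  rw [e12, e12]
  have h2 : (τ : ℂ) + ((b : ℕ) : ℂ) ≠ 0 := by
    rw [add_comm]
    simpa using h1
  rw [show ((((b : ℕ) : ℤ) : ℝ) : ℂ) + (τ : ℂ) = (τ : ℂ) + ((b : ℕ) : ℂ) by push_cast; ring]
  push_cast
  field_simp

lemma wFam_closed (γ : SL(2, ℤ)) (x : Option (Fin p)) :
    ∃ x', ∀ τ, wFam p x (γ • τ) = wFam p x' τ := by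
  rcases x with _ | b
  · exact wFam_base p γ
  · obtain ⟨x', hx'⟩ := wFam_base p (ModularGroup.S * ModularGroup.T ^ (((b : ℕ) : ℤ)) * γ)
    refine ⟨x', fun τ => ?_⟩
    rw [← hx' τ, wFam_some_eq, ← mul_smul]

lemma wFam_mero (x : Option (Fin p)) : MeroInf p (wFam p x) := by
  have hp0 : 0 < p := hp.out.pos
  rcases x with _ | b
  · exact ((MeroInf.const p _).mul (meroInf_compAff meroInf_disc hp0 one_pos 0 (by simp))).mul
      meroInf_dInv.of_one
  · exact (meroInf_compAff meroInf_disc one_pos hp0 _ (by simp)).mul meroInf_dInv.of_one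

/-- the expansions, over any ring. -/
noncomputable def wFamL {R : Type*} [CommRing R] (ζ : Rˣ) : Option (Fin p) → LaurentSeries R
  | none => HahnSeries.C ((p : R) ^ 12) * qExpand R (p ^ 2) (deltaL R) * qExpand R p (deltaInvL R)
  | some b => twistL (ζ ^ (b : ℕ)) (deltaL R) * qExpand R p (deltaInvL R)

lemma lau_wFam (x : Option (Fin p)) :
    lau p (wFam p x) = wFamL p (zetaU p 1) x := by
  have hp0 : 0 < p := hp.out.pos
  rcases x with _ | b
  · show lau p ((fun _ : ℍ => (p : ℂ) ^ 12) * compAff Δ p 1 0 * dInv) = _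
    rw [lau_mul ((MeroInf.const p _).mul (meroInf_compAff meroInf_disc hp0 one_pos 0 (by simp)))
      meroInf_dInv.of_one, lau_mul (MeroInf.const p _)
      (meroInf_compAff meroInf_disc hp0 one_pos 0 (by simp)), lau_const,
      lau_compAff meroInf_disc one_pos 0 (mul_one p), zetaU_one_zero, twistL_one, lau_one_disc,
      lau_of_one meroInf_dInv, lau_one_dInv]
    rfl
  · show lau p (compAff Δ 1 p ((b : ℕ) : ℤ) * dInv) = _
    have hz : zetaU p ((b : ℕ) : ℤ) = zetaU p 1 ^ (b : ℕ) := by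
      apply Units.ext
      rw [Units.val_pow_eq_pow_val, coe_zetaU, coe_zetaU, zetaAff_eq_pow,
        show (1 : ℤ) = ((1 : ℕ) : ℤ) from rfl, zetaAff_eq_pow, pow_one]
    rw [lau_mul (meroInf_compAff meroInf_disc one_pos hp0 _ (by simp)) meroInf_dInv.of_one,
      lau_compAff meroInf_disc hp0 _ (one_mul p), lau_one_disc,
      qExpand_congr (one_pow 2 : 1 ^ 2 = 1), qExpand_one_apply, hz,
      lau_of_one meroInf_dInv, lau_one_dInv]
    rfl

lemma coeffMap_wFamL {R S : Type*} [CommRing R] [CommRing S] (φ : R →+* S) (ζ : Rˣ)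
    (x : Option (Fin p)) :
    coeffMap φ (wFamL p ζ x) = wFamL p (Units.map (φ : R →* S) ζ) x := by
  rcases x with _ | b
  · show coeffMap φ (HahnSeries.C ((p : R) ^ 12) * qExpand R (p ^ 2) (deltaL R) *
      qExpand R p (deltaInvL R)) = HahnSeries.C ((p : S) ^ 12) * qExpand S (p ^ 2) (deltaL S) *
      qExpand S p (deltaInvL S)
    rw [map_mul, map_mul, coeffMap_C, coeffMap_qExpand, coeffMap_qExpand, coeffMap_deltaL,
      coeffMap_deltaInvL, map_pow, map_natCast]
  · show coeffMap φ (twistL (ζ ^ (b : ℕ)) (deltaL R) * qExpand R p (deltaInvL R)) =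
      twistL ((Units.map (φ : R →* S) ζ) ^ (b : ℕ)) (deltaL S) * qExpand S p (deltaInvL S)
    rw [map_mul, coeffMap_twistL, coeffMap_qExpand, coeffMap_deltaL, coeffMap_deltaInvL, map_pow]

lemma leadsWith_congr {R : Type*} [CommRing R] {x : LaurentSeries R} {k k' : ℤ} {c c' : R}
    (h : LeadsWith x k c) (hk : k = k') (hc : c = c') : LeadsWith x k' c' := by
  subst hk hc
  exact h

lemma leadsWith_wFamL_none {R : Type*} [CommRing R] (ζ : Rˣ) :
    LeadsWith (wFamL p ζ none) ((p : ℤ) ^ 2 - p) ((p : R) ^ 12) := by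
  have h := ((LeadsWith.const ((p : R) ^ 12)).mul ((leadsWith_deltaL R).qExpand (p ^ 2))).mul
    ((leadsWith_deltaInvL R).qExpand p)
  exact leadsWith_congr h (by push_cast; ring) (by ring)

lemma leadsWith_wFamL_some {R : Type*} [CommRing R] (ζ : Rˣ) (b : Fin p) :
    LeadsWith (wFamL p ζ (some b)) (1 - (p : ℤ)) ((ζ : R) ^ (b : ℕ)) := by
  have h := ((leadsWith_deltaL R).twistL (ζ ^ (b : ℕ))).mul ((leadsWith_deltaInvL R).qExpand p)
  exact leadsWith_congr h (by ring) (by simp)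

lemma wFam_injective : Function.Injective (wFam p) := by
  have hp2 := hp.out.two_le
  have hlt : (1 - (p : ℤ)) < (p : ℤ) ^ 2 - p := by
    have : (2 : ℤ) ≤ p := by exact_mod_cast hp2
    nlinarith
  have key0 : (lau p (wFam p none)).coeff (1 - (p : ℤ)) = 0 := by
    rw [lau_wFam]
    exact (leadsWith_wFamL_none p _).coeff_of_lt hlt
  have key1 : ∀ b : Fin p, (lau p (wFam p (some b))).coeff (1 - (p : ℤ)) =
      (zetaU p 1 : ℂ) ^ (b : ℕ) := by
    intro b
    rw [lau_wFam]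
    exact (leadsWith_wFamL_some p _ b).coeff_self
  intro x y hxy
  rcases x with _ | b <;> rcases y with _ | c
  · rfl
  · have h := key0
    rw [hxy, key1] at h
    exact absurd h (pow_ne_zero _ (Units.ne_zero _))
  · have h := key0
    rw [← hxy, key1] at h
    exact absurd h (pow_ne_zero _ (Units.ne_zero _))
  · have h := key1 b
    rw [hxy, key1] at h
    have h2 : (zetaC p) ^ (c : ℕ) = (zetaC p) ^ (b : ℕ) := by
      rw [coe_zetaU, show (1 : ℤ) = ((1 : ℕ) : ℤ) from rfl, zetaAff_eq_pow, pow_one] at h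
      exact h
    have h3 := (zetaC_prim p).pow_inj c.2 b.2 h2
    exact congrArg some (Fin.ext h3.symm)

/-- `∏_b (-ζ^b) = -1`. -/
lemma prod_neg_zeta_pow {R : Type*} [CommRing R] (ζ : R)
    (hζ : ∑ i ∈ Finset.range p, ζ ^ i = 0) : ∏ b : Fin p, (-(ζ ^ (b : ℕ))) = -1 := by
  rw [Fin.prod_univ_eq_prod_range (fun b => -(ζ ^ b)) p]
  rcases hp.out.eq_two_or_odd' with h2 | hodd
  · subst h2
    simp only [Finset.prod_range_succ, Finset.sum_range_succ, Finset.prod_range_zero,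
      Finset.sum_range_zero, pow_zero, pow_one] at hζ ⊢
    linear_combination hζ
  · have h1 : ∏ b ∈ Finset.range p, (-(ζ ^ b)) = (-1) ^ p * ζ ^ (∑ b ∈ Finset.range p, b) := by
      have e : ∀ b ∈ Finset.range p, -(ζ ^ b) = (-1) * ζ ^ b := fun b _ => by ring
      rw [Finset.prod_congr rfl e, Finset.prod_mul_distrib, Finset.prod_const, Finset.card_range,
        Finset.prod_pow_eq_pow_sum]
    obtain ⟨m, hm⟩ := hodd
    have h2 : ∑ b ∈ Finset.range p, b = p * m := by
      rw [Finset.sum_range_id, hm]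
      have : (2 * m + 1) * (2 * m + 1 - 1) = ((2 * m + 1) * m) * 2 := by
        rw [Nat.add_sub_cancel]; ring
      rw [this, Nat.mul_div_cancel _ (by norm_num)]
    rw [h1, h2, pow_mul, geom_zero_pow_eq_one p hζ, one_pow, mul_one, Odd.neg_one_pow ⟨m, hm⟩]

/-- (A2) over the universal ring. -/
theorem unitEquation_cyc :
    ∃ Ψ : Polynomial (Polynomial (CycRing p)), Ψ.Monic ∧ Ψ.natDegree = p + 1 ∧
      Ψ.coeff 0 = C ((p : CycRing p) ^ 12) ∧
      Ψ.map (evalJ (qExpand (CycRing p) p (jqModC (CycRing p)))) =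
        ∏ x, (X - C (wFamL p (cycUnit p) x)) := by
  obtain ⟨Ψ, h1, h2, h3⟩ := exists_symm_poly p (wFam p) (wFam_mero p) (wFam_injective p)
    (wFam_closed p) (cycEmb p) (cycEmb_injective p) (wFamL p (cycUnit p)) (fun x => by
      rw [coeffMap_wFamL, lau_wFam, zetaU_eq])
  refine ⟨Ψ, h1, by rw [h2]; simp, ?_, h3⟩
  -- the constant term
  set u : LaurentSeries (CycRing p) := ∏ x, (-(wFamL p (cycUnit p) x)) with hu
  have hu1 : evalJ (qExpand (CycRing p) p (jqModC (CycRing p))) (Ψ.coeff 0) = u := by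
    rw [← coeff_map, h3, coeff_zero_eq_eval_zero, eval_prod]
    exact Finset.prod_congr rfl fun x _ => by simp
  have hlead : LeadsWith u 0 ((p : CycRing p) ^ 12) := by
    let κ : Option (Fin p) → ℤ := fun x => x.elim ((p : ℤ) ^ 2 - p) (fun _ => 1 - (p : ℤ))
    let γc : Option (Fin p) → CycRing p := fun x =>
      x.elim (-((p : CycRing p) ^ 12)) (fun b => -((cycUnit p : CycRing p) ^ (b : ℕ)))
    have h := LeadsWith.prod Finset.univ (fun x => -(wFamL p (cycUnit p) x)) κ γc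
      (fun x _ => by
        rcases x with _ | b
        · exact (leadsWith_wFamL_none p _).neg
        · exact (leadsWith_wFamL_some p _ b).neg)
    have hs : ∑ x, κ x = 0 := by
      rw [Fintype.sum_option]
      simp only [κ, Option.elim, Finset.sum_const, Finset.card_univ, Fintype.card_fin,
        nsmul_eq_mul]
      ring
    have hpr : ∏ x, γc x = (p : CycRing p) ^ 12 := by
      rw [Fintype.prod_option]
      simp only [γc, Option.elim]
      rw [prod_neg_zeta_pow p _ (by simpa using cycRoot_sum p)]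
      ring
    exact leadsWith_congr h hs hpr
  have hq : qExpand (CycRing p) p (evalJ (jqModC (CycRing p)) (Ψ.coeff 0)) = u := by
    rw [qExpand_evalJ, hu1]
  have hdeg : (Ψ.coeff 0).natDegree = 0 := by
    by_contra hne
    have hpos : 0 < (Ψ.coeff 0).natDegree := Nat.pos_of_ne_zero hne
    have h4 := coeff_evalJ_jq_neg_natDegree (Ψ.coeff 0)
    rw [← qExpand_coeff_mul p, hq, hlead.coeff_of_lt (by
      have : (0 : ℤ) < p := by exact_mod_cast hp.out.pos
      have h5 : (0 : ℤ) < ((Ψ.coeff 0).natDegree : ℤ) := by exact_mod_cast hpos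
      nlinarith)] at h4
    have h5 : Ψ.coeff 0 = 0 := leadingCoeff_eq_zero.mp h4.symm
    rw [h5] at hne
    simp at hne
  have h4 := coeff_evalJ_jq_neg_natDegree (Ψ.coeff 0)
  rw [hdeg, ← qExpand_coeff_mul p, hq] at h4
  simp only [Nat.cast_zero, neg_zero, mul_zero] at h4
  rw [hlead.coeff_self] at h4
  rw [eq_C_of_natDegree_eq_zero hdeg, h4, leadingCoeff, hdeg]

end FAIg
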